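import Mathlib
import Fermat.Agent.E.Velu.Trans
import Fermat.Agent.E.Velu.Lift
import Fermat.Agent.E.S12.VeluSpec
import Fermat.Agent.E.Velu.Asym

section MergeWrap_E_Velu_ValO -- from E/Velu/ValO.lean

/-!
# Vélu (V1), infrastructure I2: the valuation at `O` on the function field

`vO W f = exp n` iff `f` has a pole of order `n` at `O`; on the coordinate ring it is
`exp (deg_X (Norm a))`.
-/

set_option autoImplicit false

open WeierstrassCurve Polynomial
open scoped Polynomial.Bivariate WeierstrassCurve.Affine

namespace Fermat.Agent.Velu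

noncomputable section

/-- `⊥ ↦ 0`, `n ↦ exp n`. -/
def degExp : WithBot ℕ → WithZero (Multiplicative ℤ)
  | ⊥ => 0
  | (n : ℕ) => WithZero.exp (n : ℤ)

@[simp] theorem degExp_bot : degExp ⊥ = 0 := rfl

@[simp] theorem degExp_some (n : ℕ) : degExp (WithBot.some n) = WithZero.exp (n : ℤ) := rfl

@[simp] theorem degExp_coe (n : ℕ) : degExp (n : WithBot ℕ) = WithZero.exp (n : ℤ) := rfl

theorem degExp_add (a b : WithBot ℕ) : degExp (a + b) = degExp a * degExp b := by
  induction a using WithBot.recBotCoe with
  | bot => simp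
  | coe a =>
    induction b using WithBot.recBotCoe with
    | bot => simp
    | coe b =>
      rw [← WithBot.coe_add, degExp_some, degExp_some, degExp_some, ← WithZero.exp_add]
      push_cast
      rfl

theorem degExp_mono {a b : WithBot ℕ} (h : a ≤ b) : degExp a ≤ degExp b := by
  induction a using WithBot.recBotCoe with
  | bot => simp
  | coe a =>
    induction b using WithBot.recBotCoe with
    | bot => simp at h
    | coe b =>
      rw [degExp_some, degExp_some, WithZero.exp_le_exp]
      exact_mod_cast h

theorem degExp_eq_zero_iff {a : WithBot ℕ} : degExp a = 0 ↔ a = ⊥ := by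
  induction a using WithBot.recBotCoe with
  | bot => simp
  | coe a => simp [degExp_some]

variable {k : Type*} [Field k] (W : Affine k)

theorem degree_norm_add_le (a b : W.CoordinateRing) :
    (Algebra.norm k[X] (a + b)).degree
      ≤ max (Algebra.norm k[X] a).degree (Algebra.norm k[X] b).degree := by
  obtain ⟨p₁, q₁, rfl⟩ := Affine.CoordinateRing.exists_smul_basis_eq a
  obtain ⟨p₂, q₂, rfl⟩ := Affine.CoordinateRing.exists_smul_basis_eq b
  have hab : p₁ • (1 : W.CoordinateRing) + q₁ • Affine.CoordinateRing.mk W Y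
      + (p₂ • (1 : W.CoordinateRing) + q₂ • Affine.CoordinateRing.mk W Y)
      = (p₁ + p₂) • (1 : W.CoordinateRing) + (q₁ + q₂) • Affine.CoordinateRing.mk W Y := by
    rw [add_smul, add_smul]; abel
  rw [hab, Affine.CoordinateRing.degree_norm_smul_basis,
    Affine.CoordinateRing.degree_norm_smul_basis, Affine.CoordinateRing.degree_norm_smul_basis]
  have h1 : (p₁ + p₂).degree ≤ max p₁.degree p₂.degree := degree_add_le _ _
  have h2 : (q₁ + q₂).degree ≤ max q₁.degree q₂.degree := degree_add_le _ _
  apply max_le
  · rcases le_max_iff.1 h1 with h | h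
    · exact le_max_of_le_left (le_max_of_le_left (nsmul_le_nsmul_right h 2))
    · exact le_max_of_le_right (le_max_of_le_left (nsmul_le_nsmul_right h 2))
  · rcases le_max_iff.1 h2 with h | h
    · exact le_max_of_le_left (le_max_of_le_right (add_le_add (nsmul_le_nsmul_right h 2) le_rfl))
    · exact le_max_of_le_right (le_max_of_le_right (add_le_add (nsmul_le_nsmul_right h 2) le_rfl))

/-- The pole-order valuation on the coordinate ring. -/
def vA : Valuation W.CoordinateRing (WithZero (Multiplicative ℤ)) where
  toFun a := degExp (Algebra.norm k[X] a).degree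
  map_zero' := by rw [Algebra.norm_zero, degree_zero, degExp_bot]
  map_one' := by rw [map_one, degree_one]; rfl
  map_mul' a b := by rw [map_mul, degree_mul, degExp_add]
  map_add_le_max' a b := by
    rcases le_max_iff.1 (degree_norm_add_le W a b) with h | h
    · exact le_max_of_le_left (degExp_mono h)
    · exact le_max_of_le_right (degExp_mono h)

theorem vA_apply (a : W.CoordinateRing) : vA W a = degExp (Algebra.norm k[X] a).degree := rfl

theorem vA_eq_zero_iff (a : W.CoordinateRing) : vA W a = 0 ↔ a = 0 := by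
  rw [vA_apply, degExp_eq_zero_iff, degree_eq_bot, Algebra.norm_eq_zero_iff]

theorem le_supp_primeCompl : nonZeroDivisors W.CoordinateRing ≤ (vA W).supp.primeCompl := by
  intro a ha
  rw [Ideal.primeCompl, Submonoid.mem_mk, Subsemigroup.mem_mk, Set.mem_compl_iff,
    SetLike.mem_coe, Valuation.mem_supp_iff, vA_eq_zero_iff]
  exact nonZeroDivisors.ne_zero ha

/-- The valuation at `O`: `vO f = exp n` iff `f` has a pole of order `n` at `O`. -/
def vO : Valuation W.FunctionField (WithZero (Multiplicative ℤ)) :=
  (vA W).extendToLocalization (le_supp_primeCompl W) W.FunctionField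

theorem vO_algebraMap_eq (a : W.CoordinateRing) :
    vO W (algebraMap W.CoordinateRing W.FunctionField a) = vA W a :=
  Valuation.extendToLocalization_apply_map_apply _ _ _ a

theorem vO_algebraMap (a : W.CoordinateRing) (ha : a ≠ 0) :
    vO W (algebraMap W.CoordinateRing W.FunctionField a)
      = WithZero.exp ((Algebra.norm k[X] a).natDegree : ℤ) := by
  rw [vO_algebraMap_eq, vA_apply,
    degree_eq_natDegree (mt Algebra.norm_eq_zero_iff.1 ha), degExp_coe]

theorem vA_smul_basis (p q : k[X]) :
    vA W (p • (1 : W.CoordinateRing) + q • Affine.CoordinateRing.mk W Y)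
      = max (degExp (2 • p.degree)) (degExp (2 • q.degree + 3)) := by
  rw [vA_apply, Affine.CoordinateRing.degree_norm_smul_basis]
  rcases le_total (2 • p.degree) (2 • q.degree + 3) with h | h
  · rw [max_eq_right h, max_eq_right (degExp_mono h)]
  · rw [max_eq_left h, max_eq_left (degExp_mono h)]

theorem degExp_two_nsmul_degree {p : k[X]} (hp : p ≠ 0) :
    degExp (2 • p.degree) = WithZero.exp (2 * (p.natDegree : ℤ)) := by
  rw [degree_eq_natDegree hp]
  have : (2 • (p.natDegree : WithBot ℕ)) = ((2 * p.natDegree : ℕ) : WithBot ℕ) := by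
    rw [two_nsmul, two_mul]; push_cast; rfl
  rw [this, degExp_coe]
  push_cast; rfl

theorem degExp_two_nsmul_degree_add_three {q : k[X]} (hq : q ≠ 0) :
    degExp (2 • q.degree + 3) = WithZero.exp (2 * (q.natDegree : ℤ) + 3) := by
  rw [degree_eq_natDegree hq]
  have : (2 • (q.natDegree : WithBot ℕ) + 3) = ((2 * q.natDegree + 3 : ℕ) : WithBot ℕ) := by
    rw [two_nsmul, two_mul]; push_cast; rfl
  rw [this, degExp_coe]
  push_cast; rfl

/-- `vO (p(x)) = exp (2 deg p)`. -/
theorem vO_polynomial (p : k[X]) (hp : p ≠ 0) :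
    vO W (algebraMap W.CoordinateRing W.FunctionField (p • (1 : W.CoordinateRing)))
      = WithZero.exp (2 * (p.natDegree : ℤ)) := by
  have h := vA_smul_basis W p 0
  rw [zero_smul, add_zero] at h
  rw [vO_algebraMap_eq, h, degree_zero, degExp_two_nsmul_degree hp]
  have : degExp (2 • (⊥ : WithBot ℕ) + 3) = 0 := by
    rw [nsmul_eq_mul]; rfl
  rw [this]
  exact max_eq_left (by simp)

/-- `vO (q(x) y) = exp (2 deg q + 3)`. -/
theorem vO_polynomial_mul_y (q : k[X]) (hq : q ≠ 0) :
    vO W (algebraMap W.CoordinateRing W.FunctionField (q • Affine.CoordinateRing.mk W Y))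
      = WithZero.exp (2 * (q.natDegree : ℤ) + 3) := by
  have h := vA_smul_basis W 0 q
  rw [zero_smul, zero_add] at h
  rw [vO_algebraMap_eq, h, degree_zero, degExp_two_nsmul_degree_add_three hq]
  have : degExp (2 • (⊥ : WithBot ℕ)) = 0 := by
    rw [nsmul_eq_mul]; rfl
  rw [this]
  exact max_eq_right (by simp)

/-- `vO (p(x) + q(x) y) = exp (max (2 deg p) (2 deg q + 3))`. -/
theorem vO_smul_basis (p q : k[X]) (hp : p ≠ 0) (hq : q ≠ 0) :
    vO W (algebraMap W.CoordinateRing W.FunctionField
        (p • (1 : W.CoordinateRing) + q • Affine.CoordinateRing.mk W Y))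
      = WithZero.exp (max (2 * (p.natDegree : ℤ)) (2 * (q.natDegree : ℤ) + 3)) := by
  rw [vO_algebraMap_eq, vA_smul_basis, degExp_two_nsmul_degree hp,
    degExp_two_nsmul_degree_add_three hq]
  rcases le_total (2 * (p.natDegree : ℤ)) (2 * (q.natDegree : ℤ) + 3) with h | h
  · rw [max_eq_right h, max_eq_right (WithZero.exp_le_exp.2 h)]
  · rw [max_eq_left h, max_eq_left (WithZero.exp_le_exp.2 h)]

theorem algebraMap_polynomial_eq (p : k[X]) :
    algebraMap k[X] W.FunctionField p
      = algebraMap W.CoordinateRing W.FunctionField (p • (1 : W.CoordinateRing)) := by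
  rw [IsScalarTower.algebraMap_apply k[X] W.CoordinateRing W.FunctionField]
  exact congrArg _ (Algebra.algebraMap_eq_smul_one p)

theorem algebraMap_const_eq (c : k) :
    algebraMap k W.FunctionField c = algebraMap k[X] W.FunctionField (C c) := by
  rw [IsScalarTower.algebraMap_apply k k[X] W.FunctionField]
  rfl

theorem xg_eq : xg W = algebraMap k[X] W.FunctionField X := by
  rw [algebraMap_polynomial_eq, xg, Affine.CoordinateRing.smul, mul_one]

theorem yg_eq : yg W = algebraMap W.CoordinateRing W.FunctionField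
    ((1 : k[X]) • Affine.CoordinateRing.mk W Y) := by
  rw [one_smul, yg]

/-- `vO` of a polynomial in `x`. -/
theorem vO_algebraMap_polynomial (p : k[X]) (hp : p ≠ 0) :
    vO W (algebraMap k[X] W.FunctionField p) = WithZero.exp (2 * (p.natDegree : ℤ)) := by
  rw [algebraMap_polynomial_eq, vO_polynomial W p hp]

theorem vO_const (c : k) (hc : c ≠ 0) : vO W (algebraMap k W.FunctionField c) = 1 := by
  rw [algebraMap_const_eq, vO_algebraMap_polynomial W _ (C_ne_zero.2 hc), natDegree_C]
  simp

theorem vO_const_le (c : k) : vO W (algebraMap k W.FunctionField c) ≤ 1 := by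
  by_cases hc : c = 0
  · rw [hc, map_zero, map_zero]; exact zero_le_one
  · rw [vO_const W c hc]

theorem vO_xg : vO W (xg W) = WithZero.exp (2 : ℤ) := by
  rw [xg_eq, vO_algebraMap_polynomial W _ X_ne_zero, natDegree_X]
  simp

theorem vO_xg_sub_const (c : k) :
    vO W (xg W - algebraMap k W.FunctionField c) = WithZero.exp (2 : ℤ) := by
  rw [xg_eq, algebraMap_const_eq, ← map_sub,
    vO_algebraMap_polynomial W _ (X_sub_C_ne_zero c), natDegree_X_sub_C]
  simp

theorem vO_yg : vO W (yg W) = WithZero.exp (3 : ℤ) := by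
  rw [yg_eq, vO_polynomial_mul_y W _ one_ne_zero, natDegree_one]
  simp

/-- `η = 2y + a₁x + a₃` has a pole of order `3` at `O` (characteristic `≠ 2`). -/
theorem vO_eta (h2 : (2 : k) ≠ 0) :
    vO W (2 * yg W + algebraMap k W.FunctionField W.a₁ * xg W
      + algebraMap k W.FunctionField W.a₃) = WithZero.exp (3 : ℤ) := by
  have h2' : (C (2 : k) : k[X]) ≠ 0 := C_ne_zero.2 h2
  have e : 2 * yg W + algebraMap k W.FunctionField W.a₁ * xg W
      + algebraMap k W.FunctionField W.a₃
      = algebraMap W.CoordinateRing W.FunctionField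
          ((C W.a₁ * X + C W.a₃) • (1 : W.CoordinateRing)
            + (C (2 : k)) • Affine.CoordinateRing.mk W Y) := by
    rw [map_add, ← algebraMap_polynomial_eq, map_add, map_mul, ← algebraMap_const_eq,
      ← algebraMap_const_eq, ← xg_eq, Affine.CoordinateRing.smul, map_mul, ← yg]
    have : algebraMap W.CoordinateRing W.FunctionField
        (Affine.CoordinateRing.mk W (C (C (2 : k)))) = 2 := by
      have : (Affine.CoordinateRing.mk W (C (C (2 : k)))) = 2 := by
        rw [map_ofNat C 2, map_ofNat C 2, map_ofNat]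
      rw [this, map_ofNat]
    rw [this]
    ring
  rw [e]
  by_cases hp : (C W.a₁ * X + C W.a₃ : k[X]) = 0
  · rw [hp, zero_smul, zero_add, vO_polynomial_mul_y W _ h2', natDegree_C]
    simp
  · rw [vO_smul_basis W _ _ hp h2', natDegree_C]
    have : ((C W.a₁ * X + C W.a₃ : k[X]).natDegree : ℤ) ≤ 1 := by
      exact_mod_cast natDegree_linear_le
    rw [max_eq_right (by omega)]
    simp

/-- The valuation ring of the place at `O`. -/
def placeO : ValuationSubring W.FunctionField := (vO W).valuationSubring

theorem mem_placeO_iff (f : W.FunctionField) : f ∈ placeO W ↔ vO W f ≤ 1 :=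
  Valuation.mem_valuationSubring_iff _ _

theorem algebraMap_mem_placeO (c : k) : algebraMap k W.FunctionField c ∈ placeO W :=
  (mem_placeO_iff W _).2 (vO_const_le W c)

theorem xg_ne_zero : xg W ≠ 0 := by
  intro h
  have := vO_xg W
  rw [h, map_zero] at this
  exact WithZero.exp_ne_zero this.symm

theorem vO_inv_xg : vO W (xg W)⁻¹ = WithZero.exp (-2 : ℤ) := by
  rw [map_inv₀, vO_xg, WithZero.exp_neg]

theorem inv_xg_mem_placeO : (xg W)⁻¹ ∈ placeO W := by
  rw [mem_placeO_iff, vO_inv_xg, ← WithZero.exp_zero, WithZero.exp_le_exp]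
  norm_num

theorem one_lt_vO_xg : 1 < vO W (xg W) := by
  rw [vO_xg, ← WithZero.exp_zero, WithZero.exp_lt_exp]
  norm_num

theorem vO_inv_xg_lt_one : vO W (xg W)⁻¹ < 1 := by
  rw [vO_inv_xg, ← WithZero.exp_zero, WithZero.exp_lt_exp]
  norm_num

end

end Fermat.Agent.Velu
end MergeWrap_E_Velu_ValO

section MergeWrap_E_Velu_Transl -- from E/Velu/Transl.lean

/-!
# Vélu (V1), infrastructure I1b: translations of the function field

For `T : W.Point` (over the algebraically closed field `k`), `translHom W T : F →ₐ[k] F` is the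
`k`-algebra homomorphism with `(x, y) ↦` coordinates of `genPt + constPt T`, computed with
Mathlib's group law on `(W⁄F).Point`.
-/

set_option autoImplicit false

open WeierstrassCurve Polynomial
open scoped Polynomial.Bivariate WeierstrassCurve.Affine

namespace Fermat.Agent.Velu

noncomputable section

variable {k : Type*} [Field k] (W : Affine k)

/-- `x`-coordinate of a point over the function field (`0` at the origin). -/
def ptXF : (W⁄W.FunctionField).Point → W.FunctionField
  | .zero => 0
  | .some x _ _ => x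

/-- `y`-coordinate of a point over the function field (`0` at the origin). -/
def ptYF : (W⁄W.FunctionField).Point → W.FunctionField
  | .zero => 0
  | .some _ y _ => y

variable {W} in
theorem nonsingular_ptXF_ptYF {Q : (W⁄W.FunctionField).Point} (hQ : Q ≠ 0) :
    (W⁄W.FunctionField).Nonsingular (ptXF W Q) (ptYF W Q) := by
  cases Q with
  | zero => exact absurd rfl hQ
  | some x y h => exact h

variable {W} in
theorem eq_some_ptXF_ptYF {Q : (W⁄W.FunctionField).Point} (hQ : Q ≠ 0) :
    Q = .some (ptXF W Q) (ptYF W Q) (nonsingular_ptXF_ptYF hQ) := by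
  cases Q with
  | zero => exact absurd rfl hQ
  | some x y h => rfl

theorem aeval_xg (p : k[X]) : aeval (xg W) p = algebraMap k[X] W.FunctionField p := by
  have : xg W = algebraMap k[X] W.FunctionField X := by
    rw [IsScalarTower.algebraMap_apply k[X] W.CoordinateRing W.FunctionField]
    rfl
  rw [this, aeval_algebraMap_apply, aeval_X_left_apply]

theorem algebraMap_polynomial_injective :
    Function.Injective (algebraMap k[X] W.FunctionField) := by
  rw [IsScalarTower.algebraMap_eq k[X] W.CoordinateRing W.FunctionField]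
  exact (IsFractionRing.injective W.CoordinateRing W.FunctionField).comp
    (FaithfulSMul.algebraMap_injective k[X] W.CoordinateRing)

theorem xg_transcendental : Transcendental k (xg W) := by
  rw [transcendental_iff_injective]
  intro p q hpq
  rw [aeval_xg, aeval_xg] at hpq
  exact algebraMap_polynomial_injective W hpq

theorem xg_ne_algebraMap (c : k) : xg W ≠ algebraMap k W.FunctionField c := by
  intro h
  exact xg_transcendental W (h ▸ isAlgebraic_algebraMap c)

section AlgClosed

variable [IsAlgClosed k]

/-- Algebraic elements of the function field are constants. -/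
theorem exists_eq_algebraMap_of_isAlgebraic {f : W.FunctionField} (hf : IsAlgebraic k f) :
    ∃ c : k, f = algebraMap k W.FunctionField c := by
  have hint : IsIntegral k f := hf.isIntegral
  have hdeg := IsAlgClosed.degree_eq_one_of_irreducible k (minpoly.irreducible hint)
  obtain ⟨c, hc⟩ := minpoly.mem_range_of_degree_eq_one k f hdeg
  exact ⟨c, hc.symm⟩

variable [DecidableEq k] [W.IsElliptic]

/-- A point over the function field with algebraic `x`-coordinate is constant. -/
theorem exists_constPt_of_isAlgebraic {x' y' : W.FunctionField}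
    (h : (W⁄W.FunctionField).Nonsingular x' y') (hx : IsAlgebraic k x') :
    ∃ P : W.Point, Affine.Point.some x' y' h = constPt W P := by
  obtain ⟨c, rfl⟩ := exists_eq_algebraMap_of_isAlgebraic W hx
  have heq := (Affine.equation_iff _ _).1 h.1
  have hy : IsAlgebraic k y' := by
    refine ⟨X ^ 2 + C (W.a₁ * c + W.a₃) * X - C (c ^ 3 + W.a₂ * c ^ 2 + W.a₄ * c + W.a₆), ?_, ?_⟩
    · intro h0
      have hd : (X ^ 2 + C (W.a₁ * c + W.a₃) * X
          - C (c ^ 3 + W.a₂ * c ^ 2 + W.a₄ * c + W.a₆) : k[X]).natDegree = 2 := by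
        have e : (X ^ 2 + C (W.a₁ * c + W.a₃) * X
            - C (c ^ 3 + W.a₂ * c ^ 2 + W.a₄ * c + W.a₆) : k[X])
            = C 1 * X ^ 2 + C (W.a₁ * c + W.a₃) * X
              + C (-(c ^ 3 + W.a₂ * c ^ 2 + W.a₄ * c + W.a₆)) := by
          rw [C_1, one_mul, C_neg]; ring
        rw [e]
        exact natDegree_quadratic one_ne_zero
      rw [h0, natDegree_zero] at hd
      exact absurd hd (by norm_num)
    · have e1 : (W⁄W.FunctionField).a₁ = algebraMap k _ W.a₁ := rfl
      have e2 : (W⁄W.FunctionField).a₂ = algebraMap k _ W.a₂ := rfl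
      have e3 : (W⁄W.FunctionField).a₃ = algebraMap k _ W.a₃ := rfl
      have e4 : (W⁄W.FunctionField).a₄ = algebraMap k _ W.a₄ := rfl
      have e6 : (W⁄W.FunctionField).a₆ = algebraMap k _ W.a₆ := rfl
      rw [e1, e2, e3, e4, e6] at heq
      simp only [map_sub, map_add, map_mul, map_pow, aeval_X, aeval_C]
      linear_combination heq
  obtain ⟨d, rfl⟩ := exists_eq_algebraMap_of_isAlgebraic W hy
  have h0 : W.Nonsingular c d :=
    (Affine.map_nonsingular W (algebraMap k W.FunctionField).injective c d).1 h
  exact ⟨.some c d h0, rfl⟩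

theorem genPt_ne_constPt (P : W.Point) : genPt W ≠ constPt W P := by
  cases P with
  | zero => intro h; cases h
  | some c d h0 =>
    intro h
    rw [constPt_some] at h
    have := (Affine.Point.some.inj h).1
    exact xg_ne_algebraMap W c this

theorem genPt_add_constPt_ne_zero (T : W.Point) : genPt W + constPt W T ≠ 0 := by
  intro h
  have : genPt W = constPt W (-T) := by
    rw [map_neg]; exact eq_neg_of_add_eq_zero_left h
  exact genPt_ne_constPt W _ this

theorem transcendental_ptXF_add (T : W.Point) :
    Transcendental k (ptXF W (genPt W + constPt W T)) := by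
  intro halg
  have hne := genPt_add_constPt_ne_zero W T
  obtain ⟨P, hP⟩ := exists_constPt_of_isAlgebraic W (nonsingular_ptXF_ptYF hne) halg
  rw [← eq_some_ptXF_ptYF hne] at hP
  have : genPt W = constPt W (P - T) := by
    rw [map_sub, ← hP, add_sub_cancel_right]
  exact genPt_ne_constPt W _ this

/-- Translation by `T` as a `k`-algebra endomorphism of the function field. -/
def translHom (T : W.Point) : W.FunctionField →ₐ[k] W.FunctionField :=
  liftF (W := W) (nonsingular_ptXF_ptYF (genPt_add_constPt_ne_zero W T)).1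
    (transcendental_ptXF_add W T)

theorem translHom_xg (T : W.Point) :
    translHom W T (xg W) = ptXF W (genPt W + constPt W T) := liftF_xg _ _

theorem translHom_yg (T : W.Point) :
    translHom W T (yg W) = ptYF W (genPt W + constPt W T) := liftF_yg _ _

/-- The translate of the generic point. -/
theorem map_translHom_genPt (T : W.Point) :
    Affine.Point.map (W' := W) (translHom W T) (genPt W) = genPt W + constPt W T := by
  rw [eq_some_ptXF_ptYF (genPt_add_constPt_ne_zero W T)]
  show Affine.Point.map (W' := W) (translHom W T) (.some (xg W) (yg W) (nonsingular_gen W)) = _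
  rw [Affine.Point.map_some]
  congr 1
  · exact translHom_xg W T
  · exact translHom_yg W T

theorem ptXF_map (f : W.FunctionField →ₐ[k] W.FunctionField) (Q : (W⁄W.FunctionField).Point) :
    ptXF W (Affine.Point.map (W' := W) f Q) = f (ptXF W Q) := by
  cases Q with
  | zero => exact (map_zero f).symm
  | some x y h => rfl

theorem ptYF_map (f : W.FunctionField →ₐ[k] W.FunctionField) (Q : (W⁄W.FunctionField).Point) :
    ptYF W (Affine.Point.map (W' := W) f Q) = f (ptYF W Q) := by
  cases Q with
  | zero => exact (map_zero f).symm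
  | some x y h => rfl

theorem map_translHom_add (S T : W.Point) :
    Affine.Point.map (W' := W) (translHom W S) (genPt W + constPt W T)
      = genPt W + constPt W (S + T) := by
  rw [map_add, map_translHom_genPt, map_constPt, map_add, add_assoc]

theorem translHom_comp (S T : W.Point) :
    (translHom W S).comp (translHom W T) = translHom W (S + T) := by
  apply algHom_ext_gen
  · rw [AlgHom.comp_apply, translHom_xg, ← ptXF_map, map_translHom_add, translHom_xg]
  · rw [AlgHom.comp_apply, translHom_yg, ← ptYF_map, map_translHom_add, translHom_yg]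

theorem translHom_zero : translHom W (0 : W.Point) = AlgHom.id k W.FunctionField := by
  apply algHom_ext_gen
  · rw [translHom_xg, map_zero, add_zero]; rfl
  · rw [translHom_yg, map_zero, add_zero]; rfl

/-- Translation by `T` on the function field: `(transl T f)(P) = f(P + T)`. -/
def transl (T : W.Point) : W.FunctionField ≃ₐ[k] W.FunctionField :=
  AlgEquiv.ofAlgHom (translHom W T) (translHom W (-T))
    (by rw [translHom_comp, add_neg_cancel, translHom_zero])
    (by rw [translHom_comp, neg_add_cancel, translHom_zero])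

theorem transl_apply (T : W.Point) (f : W.FunctionField) : transl W T f = translHom W T f := rfl

theorem coe_transl (T : W.Point) :
    ((transl W T : W.FunctionField ≃ₐ[k] W.FunctionField) : W.FunctionField →ₐ[k] W.FunctionField)
      = translHom W T := rfl

theorem transl_zero : transl W (0 : W.Point) = AlgEquiv.refl := by
  ext f
  rw [transl_apply, translHom_zero]; rfl

/-- `τ_S ∘ τ_T = τ_{S+T}`. -/
theorem transl_transl (S T : W.Point) (f : W.FunctionField) :
    transl W S (transl W T f) = transl W (S + T) f := by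
  rw [transl_apply, transl_apply, transl_apply, ← translHom_comp]; rfl

theorem transl_neg_transl (T : W.Point) (f : W.FunctionField) :
    transl W (-T) (transl W T f) = f := by
  rw [transl_transl, neg_add_cancel, transl_zero]; rfl

theorem transl_transl_neg (T : W.Point) (f : W.FunctionField) :
    transl W T (transl W (-T) f) = f := by
  rw [transl_transl, add_neg_cancel, transl_zero]; rfl

/-- The translate of the generic point. -/
theorem map_transl_genPt (T : W.Point) :
    Affine.Point.map (W' := W) (transl W T : W.FunctionField →ₐ[k] W.FunctionField) (genPt W)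
      = genPt W + constPt W T :=
  map_translHom_genPt W T

/-- Coordinates of the translate of the generic point by an affine point. -/
theorem genPt_add_constPt_some {a b : k} (h : W.Nonsingular a b) :
    genPt W + constPt W (.some a b h) = .some _ _
      (Affine.nonsingular_add (nonsingular_gen W)
        ((Affine.map_nonsingular W (algebraMap k W.FunctionField).injective a b).2 h)
        (fun hxy => xg_ne_algebraMap W a hxy.1)) :=
  Affine.Point.add_of_X_ne (W := W⁄W.FunctionField) (h₁ := nonsingular_gen W)
    (h₂ := (Affine.map_nonsingular W (algebraMap k W.FunctionField).injective a b).2 h)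
    (xg_ne_algebraMap W a)

theorem transl_xg' {a b : k} (h : W.Nonsingular a b) :
    transl W (.some a b h) (xg W)
      = (W⁄W.FunctionField).addX (xg W) (algebraMap k _ a)
          ((yg W - algebraMap k _ b) / (xg W - algebraMap k _ a)) := by
  rw [transl_apply, translHom_xg, genPt_add_constPt_some W h]
  show (W⁄W.FunctionField).addX (xg W) (algebraMap k _ a) _ = _
  rw [Affine.slope_of_X_ne (xg_ne_algebraMap W a)]

theorem transl_yg' {a b : k} (h : W.Nonsingular a b) :
    transl W (.some a b h) (yg W)
      = (W⁄W.FunctionField).addY (xg W) (algebraMap k _ a) (yg W)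
          ((yg W - algebraMap k _ b) / (xg W - algebraMap k _ a)) := by
  rw [transl_apply, translHom_yg, genPt_add_constPt_some W h]
  show (W⁄W.FunctionField).addY (xg W) (algebraMap k _ a) (yg W) _ = _
  rw [Affine.slope_of_X_ne (xg_ne_algebraMap W a)]

theorem transl_xg {a b : k} (h : W.Nonsingular a b) :
    transl W (.some a b h) (xg W)
      = ((yg W - algebraMap k _ b) / (xg W - algebraMap k _ a)) ^ 2
          + algebraMap k _ W.a₁ * ((yg W - algebraMap k _ b) / (xg W - algebraMap k _ a))
          - algebraMap k _ W.a₂ - xg W - algebraMap k _ a := by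
  rw [transl_xg']
  rfl

theorem transl_yg {a b : k} (h : W.Nonsingular a b) :
    transl W (.some a b h) (yg W)
      = -(((yg W - algebraMap k _ b) / (xg W - algebraMap k _ a))
            * (transl W (.some a b h) (xg W) - xg W) + yg W)
          - algebraMap k _ W.a₁ * transl W (.some a b h) (xg W) - algebraMap k _ W.a₃ := by
  rw [transl_yg', transl_xg']
  rfl

end AlgClosed

end

end Fermat.Agent.Velu
end MergeWrap_E_Velu_Transl

section MergeWrap_E_Velu_Pair -- from E/Velu/Pair.lean

/-!
# Vélu (E-V), leaves A1, A2: the pair formulas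

For two affine points `P = (x, y)`, `Q = (a, b)` of a Weierstrass curve over a field, `x ≠ a`:
* `x(P + Q) + x(P - Q) = 2a + t/(x - a) + u/(x - a)²`,
* `η(P + Q) + η(P - Q) = -η(P) (t/(x - a)² + 2u/(x - a)³)`,  `η = 2y + a₁x + a₃`,
where `t = 6a² + b₂a + b₄`, `u = 4a³ + b₂a² + 2b₄a + b₆`.
-/

set_option autoImplicit false

open WeierstrassCurve

namespace Fermat.Agent.Velu

variable {F : Type*} [Field F]

/-- **(A1)** the pair formula for `x`. -/
theorem pair_addX (W : Affine F) {x y a b : F} (h : W.Equation x y) (hq : W.Equation a b)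
    (hx : x ≠ a) :
    W.addX x a ((y - b) / (x - a)) + W.addX x a ((y - W.negY a b) / (x - a))
      = 2 * a + (6 * a ^ 2 + W.b₂ * a + W.b₄) / (x - a)
          + (4 * a ^ 3 + W.b₂ * a ^ 2 + 2 * W.b₄ * a + W.b₆) / (x - a) ^ 2 := by
  have hd : x - a ≠ 0 := sub_ne_zero.2 hx
  rw [Affine.equation_iff] at h hq
  simp only [Affine.addX, Affine.negY, WeierstrassCurve.b₂, WeierstrassCurve.b₄,
    WeierstrassCurve.b₆]
  field_simp
  linear_combination 2 * h + 2 * hq

/-- **(A2)** the pair formula for `η = 2y + a₁x + a₃`. -/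
theorem pair_eta (W : Affine F) {x y a b : F} (h : W.Equation x y) (hq : W.Equation a b)
    (hx : x ≠ a) :
    (2 * W.addY x a y ((y - b) / (x - a)) + W.a₁ * W.addX x a ((y - b) / (x - a)) + W.a₃)
        + (2 * W.addY x a y ((y - W.negY a b) / (x - a))
            + W.a₁ * W.addX x a ((y - W.negY a b) / (x - a)) + W.a₃)
      = -(2 * y + W.a₁ * x + W.a₃) * ((6 * a ^ 2 + W.b₂ * a + W.b₄) / (x - a) ^ 2
          + 2 * (4 * a ^ 3 + W.b₂ * a ^ 2 + 2 * W.b₄ * a + W.b₆) / (x - a) ^ 3) := by
  have hd : x - a ≠ 0 := sub_ne_zero.2 hx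
  rw [Affine.equation_iff] at h hq
  simp only [Affine.addY, Affine.negAddY, Affine.addX, Affine.negY, WeierstrassCurve.b₂,
    WeierstrassCurve.b₄, WeierstrassCurve.b₆]
  field_simp
  linear_combination (-4 * y - 2 * x * W.a₁ - 2 * W.a₃) * h
    + (-12 * y - 6 * x * W.a₁ - 6 * W.a₃) * hq

end Fermat.Agent.Velu
end MergeWrap_E_Velu_Pair

section MergeWrap_E_Velu_XU -- from E/Velu/XU.lean

/-!
# Vélu (E-V): the functions `X`, `Y`, `U` in the function field

`C` a finite subgroup of `W.Point`, `Cf` its finset, `Cs = Cf \ {0}`.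
* `Xf = Σ_{T ∈ C} (τ_T x - x_T)`, `Yf = Σ_{T ∈ C} (τ_T y - y_T)`, `Uf = Σ_{T ∈ C} τ_T η`;
* `Xf = x + ρ(x)`, `Uf = η (1 + ρ'(x))` (pair formulas), `Uf = 2 Yf + a₁ Xf + a₃`;
* `Xf`, `Yf`, `Uf` are invariant under the translations by `C`.
-/

set_option autoImplicit false
set_option linter.unusedSectionVars false

open WeierstrassCurve Polynomial
open scoped WeierstrassCurve.Affine

namespace Fermat.Agent.Velu

noncomputable section

open Fermat.Agent.EV (ptX ptY veluT veluU)

section Basic

variable {k : Type*} [Field k] [DecidableEq k] {W : Affine k}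

theorem ptX_neg (T : W.Point) : ptX (-T) = ptX T := by
  cases T with
  | zero => rfl
  | some x y h => rfl

theorem ptY_neg {T : W.Point} (hT : T ≠ 0) : ptY (-T) = W.negY (ptX T) (ptY T) := by
  cases T with
  | zero => exact absurd rfl hT
  | some x y h => rfl

theorem veluT_neg (T : W.Point) : veluT W (-T) = veluT W T := by
  unfold veluT; rw [ptX_neg]

theorem veluU_neg (T : W.Point) : veluU W (-T) = veluU W T := by
  unfold veluU; rw [ptX_neg]

theorem eq_some_ptX_ptY {T : W.Point} (hT : T ≠ 0) :
    ∃ h : W.Nonsingular (ptX T) (ptY T), T = .some (ptX T) (ptY T) h := by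
  cases T with
  | zero => exact absurd rfl hT
  | some x y h => exact ⟨h, rfl⟩

/-- `η(T) = 2 y_T + a₁ x_T + a₃` for a point (`0` at the origin) -/
def ptEta (T : W.Point) : k :=
  match T with
  | .zero => 0
  | .some x y _ => 2 * y + W.a₁ * x + W.a₃

theorem ptEta_neg (T : W.Point) : ptEta (-T) = -ptEta T := by
  cases T with
  | zero => exact neg_zero.symm
  | some x y h =>
    show 2 * W.negY x y + W.a₁ * x + W.a₃ = -(2 * y + W.a₁ * x + W.a₃)
    rw [Affine.negY]; ring

theorem ptEta_eq {T : W.Point} (hT : T ≠ 0) : ptEta T = 2 * ptY T + W.a₁ * ptX T + W.a₃ := by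
  cases T with
  | zero => exact absurd rfl hT
  | some x y h => rfl

end Basic

/-! ### finite subgroups -/

section Subgroup

variable {k : Type*} [Field k] [DecidableEq k] {W : Affine k}
  (C : AddSubgroup W.Point) (hC : (C : Set W.Point).Finite)

/-- the finset of the points of `C` -/
def Cf : Finset W.Point := hC.toFinset

/-- the finset of the nonzero points of `C` -/
def Cs : Finset W.Point := (Cf C hC).erase 0

variable {C hC}

@[simp] theorem mem_Cf {T : W.Point} : T ∈ Cf C hC ↔ T ∈ C := by
  simp [Cf]

@[simp] theorem mem_Cs {T : W.Point} : T ∈ Cs C hC ↔ T ∈ C ∧ T ≠ 0 := by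
  simp [Cs, and_comm]

variable (C hC)

theorem sum_Cf {M : Type*} [AddCommMonoid M] (g : W.Point → M) :
    ∑ T ∈ Cf C hC, g T = g 0 + ∑ T ∈ Cs C hC, g T := by
  rw [Cs, Finset.add_sum_erase _ _ (mem_Cf.2 C.zero_mem)]

theorem sum_Cs_neg {M : Type*} [AddCommMonoid M] (g : W.Point → M) :
    ∑ T ∈ Cs C hC, g (-T) = ∑ T ∈ Cs C hC, g T := by
  refine Finset.sum_nbij' (fun T => -T) (fun T => -T) ?_ ?_ ?_ ?_ ?_
  · intro T hT; rw [mem_Cs] at hT ⊢; exact ⟨C.neg_mem hT.1, neg_ne_zero.2 hT.2⟩
  · intro T hT; rw [mem_Cs] at hT ⊢; exact ⟨C.neg_mem hT.1, neg_ne_zero.2 hT.2⟩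
  · intro T _; exact neg_neg T
  · intro T _; exact neg_neg T
  · intro T _; rfl

theorem sum_Cf_add_left {M : Type*} [AddCommMonoid M] (g : W.Point → M) {D : W.Point}
    (hD : D ∈ C) : ∑ T ∈ Cf C hC, g (D + T) = ∑ T ∈ Cf C hC, g T := by
  refine Finset.sum_nbij' (fun T => D + T) (fun T => -D + T) ?_ ?_ ?_ ?_ ?_
  · intro T hT; rw [mem_Cf] at hT ⊢; exact C.add_mem hD hT
  · intro T hT; rw [mem_Cf] at hT ⊢; exact C.add_mem (C.neg_mem hD) hT
  · intro T _; simp
  · intro T _; simp
  · intro T _; rfl

/-- pairing `T ↔ -T` -/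
theorem two_mul_sum_Cs {M : Type*} [AddCommMonoid M] (g : W.Point → M) :
    ∑ T ∈ Cs C hC, (g T + g (-T)) = ∑ T ∈ Cs C hC, g T + ∑ T ∈ Cs C hC, g T := by
  rw [Finset.sum_add_distrib, sum_Cs_neg]

theorem sum_ptEta_Cs : ∑ T ∈ Cs C hC, ptEta T = 0 ∨ (2 : k) = 0 := by
  by_cases h2 : (2 : k) = 0
  · exact Or.inr h2
  left
  have h := two_mul_sum_Cs C hC (fun T : W.Point => ptEta T)
  have h0 : ∑ T ∈ Cs C hC, (ptEta T + ptEta (-T)) = 0 :=
    Finset.sum_eq_zero (fun T _ => by rw [ptEta_neg, add_neg_cancel])
  rw [h0] at h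
  have : (2 : k) * ∑ T ∈ Cs C hC, ptEta T = 0 := by rw [two_mul]; exact h.symm
  exact (mul_eq_zero.1 this).resolve_left h2

end Subgroup

/-! ### the function field -/

section FF

variable {k : Type*} [Field k] [DecidableEq k] [IsAlgClosed k] (W : Affine k) [W.IsElliptic]

/-- `η = 2y + a₁x + a₃` in the function field. -/
def etaF : W.FunctionField :=
  2 * yg W + algebraMap k W.FunctionField W.a₁ * xg W + algebraMap k W.FunctionField W.a₃

theorem transl_etaF (T : W.Point) :
    transl W T (etaF W) = 2 * transl W T (yg W)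
      + algebraMap k W.FunctionField W.a₁ * transl W T (xg W)
      + algebraMap k W.FunctionField W.a₃ := by
  unfold etaF
  rw [map_add, map_add, map_mul, map_mul, AlgEquiv.commutes, AlgEquiv.commutes, map_ofNat]

theorem equation_const {a b : k} (h : W.Equation a b) :
    (W⁄W.FunctionField).Equation (algebraMap k W.FunctionField a)
      (algebraMap k W.FunctionField b) :=
  Affine.Equation.map (algebraMap k W.FunctionField) h

theorem algebraMap_negY (a b : k) :
    algebraMap k W.FunctionField (W.negY a b)
      = (W⁄W.FunctionField).negY (algebraMap k W.FunctionField a)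
          (algebraMap k W.FunctionField b) :=
  (Affine.map_negY (W' := W) (f := algebraMap k W.FunctionField) (x := a) (y := b)).symm

/-- the pair formula for `x` in the function field -/
theorem transl_add_neg_xg {T : W.Point} (hT : T ≠ 0) :
    transl W T (xg W) + transl W (-T) (xg W)
      = 2 * algebraMap k W.FunctionField (ptX T)
        + algebraMap k W.FunctionField (veluT W T)
            / (xg W - algebraMap k W.FunctionField (ptX T))
        + algebraMap k W.FunctionField (veluU W T)
            / (xg W - algebraMap k W.FunctionField (ptX T)) ^ 2 := by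
  cases T with
  | zero => exact absurd rfl hT
  | some a b h =>
    rw [Affine.Point.neg_some, transl_xg', transl_xg', algebraMap_negY]
    have key := pair_addX (W⁄W.FunctionField) (equation_gen W) (equation_const W h.1)
      (xg_ne_algebraMap W a)
    rw [key]
    show _ = 2 * algebraMap k W.FunctionField a
        + algebraMap k W.FunctionField (6 * a ^ 2 + W.b₂ * a + W.b₄)
            / (xg W - algebraMap k W.FunctionField a)
        + algebraMap k W.FunctionField (4 * a ^ 3 + W.b₂ * a ^ 2 + 2 * W.b₄ * a + W.b₆)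
            / (xg W - algebraMap k W.FunctionField a) ^ 2
    have e₂ : (W⁄W.FunctionField).b₂ = algebraMap k W.FunctionField W.b₂ := W.map_b₂ _
    have e₄ : (W⁄W.FunctionField).b₄ = algebraMap k W.FunctionField W.b₄ := W.map_b₄ _
    have e₆ : (W⁄W.FunctionField).b₆ = algebraMap k W.FunctionField W.b₆ := W.map_b₆ _
    rw [e₂, e₄, e₆]
    simp only [map_add, map_mul, map_pow, map_ofNat]

theorem transl_etaF_some {a b : k} (h : W.Nonsingular a b) :
    transl W (.some a b h) (etaF W)
      = 2 * (W⁄W.FunctionField).addY (xg W) (algebraMap k _ a) (yg W)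
          ((yg W - algebraMap k _ b) / (xg W - algebraMap k _ a))
        + (W⁄W.FunctionField).a₁ * (W⁄W.FunctionField).addX (xg W) (algebraMap k _ a)
          ((yg W - algebraMap k _ b) / (xg W - algebraMap k _ a))
        + (W⁄W.FunctionField).a₃ := by
  rw [transl_etaF, transl_xg', transl_yg']
  rfl

theorem etaF_eq : etaF W = 2 * yg W + (W⁄W.FunctionField).a₁ * xg W + (W⁄W.FunctionField).a₃ :=
  rfl

/-- the pair formula for `η` in the function field -/
theorem transl_add_neg_etaF {T : W.Point} (hT : T ≠ 0) :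
    transl W T (etaF W) + transl W (-T) (etaF W)
      = -etaF W * (algebraMap k W.FunctionField (veluT W T)
            / (xg W - algebraMap k W.FunctionField (ptX T)) ^ 2
          + 2 * algebraMap k W.FunctionField (veluU W T)
            / (xg W - algebraMap k W.FunctionField (ptX T)) ^ 3) := by
  cases T with
  | zero => exact absurd rfl hT
  | some a b h =>
    rw [Affine.Point.neg_some, transl_etaF_some, transl_etaF_some, algebraMap_negY]
    have key := pair_eta (W⁄W.FunctionField) (equation_gen W) (equation_const W h.1)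
      (xg_ne_algebraMap W a)
    rw [key, etaF_eq]
    show _ = -(2 * yg W + (W⁄W.FunctionField).a₁ * xg W + (W⁄W.FunctionField).a₃)
        * (algebraMap k W.FunctionField (6 * a ^ 2 + W.b₂ * a + W.b₄)
            / (xg W - algebraMap k W.FunctionField a) ^ 2
          + 2 * algebraMap k W.FunctionField (4 * a ^ 3 + W.b₂ * a ^ 2 + 2 * W.b₄ * a + W.b₆)
            / (xg W - algebraMap k W.FunctionField a) ^ 3)
    have e₂ : (W⁄W.FunctionField).b₂ = algebraMap k W.FunctionField W.b₂ := W.map_b₂ _
    have e₄ : (W⁄W.FunctionField).b₄ = algebraMap k W.FunctionField W.b₄ := W.map_b₄ _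
    have e₆ : (W⁄W.FunctionField).b₆ = algebraMap k W.FunctionField W.b₆ := W.map_b₆ _
    rw [e₂, e₄, e₆]
    simp only [map_add, map_mul, map_pow, map_ofNat]

/-! ### the functions `X`, `Y`, `U` -/

variable (C : AddSubgroup W.Point) (hC : (C : Set W.Point).Finite)

/-- `X = Σ_{T ∈ C} (τ_T x - x_T)` (with `x_O = 0`, `τ_O = id`). -/
def Xf : W.FunctionField :=
  ∑ T ∈ Cf C hC, (transl W T (xg W) - algebraMap k W.FunctionField (ptX T))

/-- `Y = Σ_{T ∈ C} (τ_T y - y_T)`. -/
def Yf : W.FunctionField :=
  ∑ T ∈ Cf C hC, (transl W T (yg W) - algebraMap k W.FunctionField (ptY T))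

/-- `U = Σ_{T ∈ C} τ_T η`. -/
def Uf : W.FunctionField :=
  ∑ T ∈ Cf C hC, transl W T (etaF W)

theorem transl_zero_apply (f : W.FunctionField) : transl W (0 : W.Point) f = f := by
  rw [transl_zero]; rfl

/-- `X = x + ρ(x)` -/
theorem Xf_eq (h2 : (2 : k) ≠ 0) :
    Xf W C hC = xg W + rhoOf (Cs C hC) ptX (veluT W) (veluU W) (xg W) := by
  have h2F : (2 : W.FunctionField) ≠ 0 := by
    have := (map_ne_zero (algebraMap k W.FunctionField)).2 h2
    rwa [map_ofNat] at this
  unfold Xf rhoOf
  rw [sum_Cf, transl_zero_apply]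
  have h0 : algebraMap k W.FunctionField (ptX (0 : W.Point)) = 0 := map_zero _
  rw [h0, sub_zero]
  congr 1
  rw [eq_div_iff h2F, mul_two,
    ← two_mul_sum_Cs C hC (fun T => transl W T (xg W) - algebraMap k W.FunctionField (ptX T))]
  refine Finset.sum_congr rfl (fun T hT => ?_)
  have hT0 : T ≠ 0 := (mem_Cs.1 hT).2
  have := transl_add_neg_xg W hT0
  rw [ptX_neg]
  linear_combination this

/-- `U = η (1 + ρ'(x))` -/
theorem Uf_eq (h2 : (2 : k) ≠ 0) :
    Uf W C hC = etaF W * (1 + rhoDerivOf (Cs C hC) ptX (veluT W) (veluU W) (xg W)) := by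
  have h2F : (2 : W.FunctionField) ≠ 0 := by
    have := (map_ne_zero (algebraMap k W.FunctionField)).2 h2
    rwa [map_ofNat] at this
  unfold Uf rhoDerivOf
  rw [sum_Cf, transl_zero_apply, mul_add, mul_one]
  congr 1
  rw [neg_div, mul_neg, ← neg_mul, mul_div_assoc', eq_div_iff h2F, mul_two,
    ← two_mul_sum_Cs C hC (fun T => transl W T (etaF W)), Finset.mul_sum]
  refine Finset.sum_congr rfl (fun T hT => ?_)
  exact transl_add_neg_etaF W (mem_Cs.1 hT).2

/-- `U = 2Y + a₁X + a₃` -/
theorem Uf_eq_two_mul_Yf (h2 : (2 : k) ≠ 0) :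
    Uf W C hC = 2 * Yf W C hC + algebraMap k W.FunctionField W.a₁ * Xf W C hC
      + algebraMap k W.FunctionField W.a₃ := by
  have hs : ∑ T ∈ Cs C hC, ptEta T = 0 := (sum_ptEta_Cs C hC).resolve_right h2
  have key : Uf W C hC - (2 * Yf W C hC + algebraMap k W.FunctionField W.a₁ * Xf W C hC)
      = ∑ T ∈ Cf C hC, algebraMap k W.FunctionField (2 * ptY T + W.a₁ * ptX T + W.a₃) := by
    unfold Uf Yf Xf
    rw [Finset.mul_sum, Finset.mul_sum, ← Finset.sum_add_distrib, ← Finset.sum_sub_distrib]
    refine Finset.sum_congr rfl (fun T _ => ?_)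
    rw [transl_etaF]
    simp only [map_add, map_mul, map_ofNat]
    ring
  have h1 : ∑ T ∈ Cs C hC, algebraMap k W.FunctionField (2 * ptY T + W.a₁ * ptX T + W.a₃)
      = 0 := by
    rw [← map_sum, ← map_zero (algebraMap k W.FunctionField), ← hs]
    congr 1
    exact Finset.sum_congr rfl (fun T hT => (ptEta_eq (mem_Cs.1 hT).2).symm)
  rw [sum_Cf, h1, add_zero] at key
  have e0 : (2 * ptY (0 : W.Point) + W.a₁ * ptX (0 : W.Point) + W.a₃) = W.a₃ := by
    show 2 * (0 : k) + W.a₁ * 0 + W.a₃ = W.a₃
    ring
  rw [e0] at key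
  linear_combination key

/-! ### invariance -/

theorem transl_Xf {D : W.Point} (hD : D ∈ C) : transl W D (Xf W C hC) = Xf W C hC := by
  unfold Xf
  rw [map_sum]
  simp only [map_sub, AlgEquiv.commutes, transl_transl]
  rw [Finset.sum_sub_distrib, Finset.sum_sub_distrib,
    sum_Cf_add_left C hC (fun T => transl W T (xg W)) hD]

theorem transl_Yf {D : W.Point} (hD : D ∈ C) : transl W D (Yf W C hC) = Yf W C hC := by
  unfold Yf
  rw [map_sum]
  simp only [map_sub, AlgEquiv.commutes, transl_transl]
  rw [Finset.sum_sub_distrib, Finset.sum_sub_distrib,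
    sum_Cf_add_left C hC (fun T => transl W T (yg W)) hD]

theorem transl_Uf {D : W.Point} (hD : D ∈ C) : transl W D (Uf W C hC) = Uf W C hC := by
  unfold Uf
  rw [map_sum]
  simp only [transl_transl]
  exact sum_Cf_add_left C hC (fun T => transl W T (etaF W)) hD

end FF

end

end Fermat.Agent.Velu
end MergeWrap_E_Velu_XU
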