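import Mathlib
import Fermat.Agent.E.Velu.Asym
import Fermat.Agent.MU.E.Velu.XU
import Fermat.Agent.MU.E.Velu.V1x
import Fermat.Agent.E.Velu.Lift
import Fermat.Agent.MU.E.Velu.Fiber

section MergeWrap_E_Velu_PolyLoc -- from E/Velu/PolyLoc.lean

/-!
# Vélu (E-V): the subalgebra `k[x][1/D(x)]` of a field `F ⊇ k`
-/

set_option autoImplicit false

open Polynomial

namespace Fermat.Agent.Velu

noncomputable section

variable {k F : Type*} [Field k] [Field F] [Algebra k F]

/-- the subalgebra `k[x][1/D(x)]` of `F` -/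
def polyLoc (x : F) (D₀ : k[X]) : Subalgebra k F where
  carrier := {f | ∃ (m : ℕ) (N : k[X]), f * (aeval x D₀) ^ m = aeval x N}
  mul_mem' := by
    rintro f g ⟨m, N, hf⟩ ⟨n, M, hg⟩
    refine ⟨m + n, N * M, ?_⟩
    rw [pow_add, map_mul, ← hf, ← hg]; ring
  add_mem' := by
    rintro f g ⟨m, N, hf⟩ ⟨n, M, hg⟩
    refine ⟨m + n, N * D₀ ^ n + M * D₀ ^ m, ?_⟩
    rw [pow_add, map_add, map_mul, map_mul, map_pow, map_pow, ← hf, ← hg]; ring
  algebraMap_mem' := fun c => ⟨0, C c, by simp⟩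

theorem mem_polyLoc_iff {x : F} {D₀ : k[X]} {f : F} :
    f ∈ polyLoc x D₀ ↔ ∃ (m : ℕ) (N : k[X]), f * (aeval x D₀) ^ m = aeval x N := Iff.rfl

theorem self_mem_polyLoc (x : F) (D₀ : k[X]) : x ∈ polyLoc x D₀ :=
  ⟨0, X, by simp⟩

theorem ofNat_mem_polyLoc (x : F) (D₀ : k[X]) (n : ℕ) [n.AtLeastTwo] :
    (OfNat.ofNat n : F) ∈ polyLoc x D₀ := by
  have := (polyLoc x D₀).algebraMap_mem (OfNat.ofNat n : k)
  rwa [map_ofNat] at this

theorem inv_sub_mem_polyLoc {x : F} (xs : Finset k) {a : k} (ha : a ∈ xs)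
    (hxa : x - algebraMap k F a ≠ 0) :
    (x - algebraMap k F a)⁻¹ ∈ polyLoc x (∏ b ∈ xs, (X - C b)) := by
  classical
  refine ⟨1, ∏ b ∈ xs.erase a, (X - C b), ?_⟩
  rw [pow_one, ← Finset.mul_prod_erase xs _ ha, map_mul, map_sub, aeval_X, aeval_C,
    ← mul_assoc, inv_mul_cancel₀ hxa, one_mul]

theorem div_two_mem_polyLoc {x : F} {D₀ : k[X]} {f : F} (hf : f ∈ polyLoc x D₀) :
    f / 2 ∈ polyLoc x D₀ := by
  have h : f / 2 = f * algebraMap k F (2⁻¹) := by
    rw [map_inv₀, map_ofNat, div_eq_mul_inv]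
  rw [h]
  exact (polyLoc x D₀).mul_mem hf ((polyLoc x D₀).algebraMap_mem _)

theorem rhoOf_mem_polyLoc {x : F} (xs : Finset k) {ι : Type*} (s : Finset ι) (a t u : ι → k)
    (ha : ∀ i ∈ s, a i ∈ xs) (hx : ∀ c : k, x - algebraMap k F c ≠ 0) :
    rhoOf s a t u x ∈ polyLoc x (∏ b ∈ xs, (X - C b)) := by
  unfold rhoOf
  refine div_two_mem_polyLoc (Subalgebra.sum_mem _ (fun i hi => ?_))
  have hinv := inv_sub_mem_polyLoc xs (ha i hi) (hx (a i))
  rw [div_eq_mul_inv, div_eq_mul_inv, ← inv_pow]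
  exact Subalgebra.add_mem _ (Subalgebra.mul_mem _ (Subalgebra.algebraMap_mem _ _) hinv)
    (Subalgebra.mul_mem _ (Subalgebra.algebraMap_mem _ _) (Subalgebra.pow_mem _ hinv 2))

theorem rhoDerivOf_mem_polyLoc {x : F} (xs : Finset k) {ι : Type*} (s : Finset ι)
    (a t u : ι → k) (ha : ∀ i ∈ s, a i ∈ xs) (hx : ∀ c : k, x - algebraMap k F c ≠ 0) :
    rhoDerivOf s a t u x ∈ polyLoc x (∏ b ∈ xs, (X - C b)) := by
  unfold rhoDerivOf
  refine div_two_mem_polyLoc (Subalgebra.neg_mem _ (Subalgebra.sum_mem _ (fun i hi => ?_)))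
  have hinv := inv_sub_mem_polyLoc xs (ha i hi) (hx (a i))
  rw [div_eq_mul_inv, div_eq_mul_inv, ← inv_pow, ← inv_pow]
  exact Subalgebra.add_mem _
    (Subalgebra.mul_mem _ (Subalgebra.algebraMap_mem _ _) (Subalgebra.pow_mem _ hinv 2))
    (Subalgebra.mul_mem _ (Subalgebra.mul_mem _ (ofNat_mem_polyLoc _ _ 2)
      (Subalgebra.algebraMap_mem _ _)) (Subalgebra.pow_mem _ hinv 3))

end

end Fermat.Agent.Velu
end MergeWrap_E_Velu_PolyLoc

section MergeWrap_E_Velu_KxLemma -- from E/Velu/KxLemma.lean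

/-!
# Vélu (E-V), leaf (★): the `k(x)`-lemma

`F ⊇ k` a field with a valuation `v` (`v ≤ 1` on `k`), `x ∈ F` such that nonzero polynomials in `x`
are not small.  `xs` a finite set of elements of `k`, and for every `a ∈ xs` a ring endomorphism
`τ a` of `F` fixing `k` with `τ a x ≡ a` modulo the maximal ideal.  If `R ∈ F` is of the form
`N(x)/D(x)^m`, `D = ∏_{a ∈ xs} (x - a)`, is small, and is fixed by all `τ a`, then `R = 0`.
-/

set_option autoImplicit false

open Polynomial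

namespace Fermat.Agent.Velu

variable {k F Γ₀ : Type*} [Field k] [Field F] [Algebra k F]
  [LinearOrderedCommGroupWithZero Γ₀]

/-- a polynomial with coefficients in `k` takes integral values at integral arguments -/
theorem kx_val_aeval_le_one (v : Valuation F Γ₀) (hv : ∀ c : k, v (algebraMap k F c) ≤ 1)
    {ξ : F} (hξ : v ξ ≤ 1) (Q : k[X]) : v (aeval ξ Q) ≤ 1 := by
  rw [Polynomial.aeval_eq_sum_range]
  apply Valuation.map_sum_le
  intro i _
  rw [Algebra.smul_def, map_mul, map_pow]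
  exact mul_le_one' (hv _) (pow_le_one' hξ i)

/-- congruent arguments give congruent polynomial values -/
theorem val_aeval_sub_lt (v : Valuation F Γ₀) (hv : ∀ c : k, v (algebraMap k F c) ≤ 1)
    {ξ : F} {a : k} (hξ : v (ξ - algebraMap k F a) < 1) (N : k[X]) :
    v (aeval ξ N - algebraMap k F (N.eval a)) < 1 := by
  obtain ⟨Q, hQ⟩ := Polynomial.X_sub_C_dvd_sub_C_eval (a := a) (p := N)
  have h1 : aeval ξ N - algebraMap k F (N.eval a) = (ξ - algebraMap k F a) * aeval ξ Q := by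
    have := congrArg (aeval ξ) hQ
    simpa using this
  have hξ1 : v ξ ≤ 1 := by
    have e : ξ = (ξ - algebraMap k F a) + algebraMap k F a := by ring
    rw [e]
    exact v.map_add_le hξ.le (hv a)
  rw [h1, map_mul]
  calc v (ξ - algebraMap k F a) * v (aeval ξ Q)
      ≤ v (ξ - algebraMap k F a) * 1 := by
        gcongr
        exact kx_val_aeval_le_one v hv hξ1 Q
    _ < 1 := by simpa using hξ

/-- **(★)** -/
theorem kx_lemma (v : Valuation F Γ₀) (hv : ∀ c : k, v (algebraMap k F c) ≤ 1)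
    (hv1 : ∀ c : k, c ≠ 0 → v (algebraMap k F c) = 1)
    {x : F} (hx : ∀ N : k[X], N ≠ 0 → 1 ≤ v (aeval x N))
    (xs : Finset k) (τ : k → F →ₐ[k] F) (hτ : ∀ a ∈ xs, v (τ a x - algebraMap k F a) < 1)
    {R : F} (hR : v R < 1) (hinv : ∀ a ∈ xs, τ a R = R)
    (m : ℕ) (N : k[X]) (hN : R * (∏ a ∈ xs, (x - algebraMap k F a)) ^ m = aeval x N) :
    R = 0 := by
  have hDp0 : (∏ a ∈ xs, (X - C a) : k[X]) ≠ 0 :=
    Finset.prod_ne_zero_iff.mpr (fun a _ => X_sub_C_ne_zero a)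
  have hDx : aeval x (∏ a ∈ xs, (X - C a) : k[X]) = ∏ a ∈ xs, (x - algebraMap k F a) := by
    simp [map_prod]
  have hDx0 : (∏ a ∈ xs, (x - algebraMap k F a)) ≠ 0 := by
    rw [← hDx]
    intro h
    have := hx _ hDp0
    rw [h, map_zero] at this
    exact absurd this (by simp)
  induction m generalizing N with
  | zero =>
    by_contra hR0
    have hN0 : N ≠ 0 := by
      rintro rfl
      simp at hN
      exact hR0 hN
    have := hx N hN0
    rw [← hN, pow_zero, mul_one] at this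
    exact absurd hR (not_lt.mpr this)
  | succ m ih =>
    have hroot : ∀ a ∈ xs, N.eval a = 0 := by
      intro a ha
      by_contra hne
      have h1 : v (algebraMap k F (N.eval a)) = 1 := hv1 _ hne
      have h2 : R * (∏ b ∈ xs, (τ a x - algebraMap k F b)) ^ (m + 1) = aeval (τ a x) N := by
        have := congrArg (τ a) hN
        simpa [map_mul, map_pow, map_prod, hinv a ha, Polynomial.aeval_algHom_apply] using this
      have hτ1 : v (τ a x) ≤ 1 := by
        have e : τ a x = (τ a x - algebraMap k F a) + algebraMap k F a := by ring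
        rw [e]
        exact v.map_add_le (hτ a ha).le (hv a)
      have hprod : v ((∏ b ∈ xs, (τ a x - algebraMap k F b)) ^ (m + 1)) ≤ 1 := by
        rw [map_pow, map_prod]
        apply pow_le_one'
        apply Finset.prod_le_one'
        intro b _
        exact v.map_sub_le hτ1 (hv b)
      have h3 : v (aeval (τ a x) N) < 1 := by
        rw [← h2, map_mul]
        calc v R * v ((∏ b ∈ xs, (τ a x - algebraMap k F b)) ^ (m + 1))
            ≤ v R * 1 := by gcongr
          _ < 1 := by simpa using hR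
      have h4 := val_aeval_sub_lt v hv (hτ a ha) N
      have h5 : v (algebraMap k F (N.eval a)) < 1 := by
        have e : algebraMap k F (N.eval a)
            = aeval (τ a x) N - (aeval (τ a x) N - algebraMap k F (N.eval a)) := by ring
        rw [e]
        exact v.map_sub_lt h3 h4
      rw [h1] at h5
      exact lt_irrefl _ h5
    have hdvd : (∏ a ∈ xs, (X - C a) : k[X]) ∣ N := by
      apply Finset.prod_dvd_of_coprime
      · intro a _ b _ hab
        exact Polynomial.isCoprime_X_sub_C_of_isUnit_sub (sub_ne_zero.mpr hab).isUnit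
      · intro a ha
        exact Polynomial.dvd_iff_isRoot.mpr (hroot a ha)
    obtain ⟨N', rfl⟩ := hdvd
    apply ih N'
    have h6 : R * (∏ a ∈ xs, (x - algebraMap k F a)) ^ m * (∏ a ∈ xs, (x - algebraMap k F a))
        = aeval x N' * (∏ a ∈ xs, (x - algebraMap k F a)) := by
      rw [map_mul, hDx] at hN
      rw [mul_assoc, ← pow_succ, hN, mul_comm]
    exact mul_right_cancel₀ hDx0 h6

end Fermat.Agent.Velu
end MergeWrap_E_Velu_KxLemma

section MergeWrap_E_Velu_LRed -- from E/Velu/LRed.lean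

/-!
# Vélu (E-V), leaf L-red: `G + D` reduces to `D` when `G` reduces to `O`

`W` a Weierstrass curve over `k`, `F ⊇ k` a field with a valuation `v` which is `≤ 1` on `k`.
If `G = (X, Y)` is a point of `W` over `F` with `1 < v X` (a pole at the place), and `D = (x₀, y₀)` is
a point of `W` over `k`, then the coordinates of `G + D` (chord formula) are congruent to
`(x₀, y₀)` modulo the maximal ideal of `v`.

(stub: helper52; proofs: helper72.  Certificates by script: modulo the equation of `G`,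
`(X − x₀)² (x₃ − x₀)` is linear in `X, Y` and `(X − x₀)³ (y₃ − y₀)` is a combination of
`X², X Y, X, Y, 1`, with coefficients in `k`.)
-/

set_option autoImplicit false
set_option linter.unusedVariables false

open WeierstrassCurve
open scoped WeierstrassCurve.Affine

namespace Fermat.Agent.Velu

section Alg

variable {F : Type*} [Field F]

/-- `(X − c)² (x₃ − c)` is linear in `X`, `Y`. -/
theorem lred_alg_x (A₁ A₂ A₃ A₄ A₆ X Y c e : F)
    (hG : Y ^ 2 + A₁ * X * Y + A₃ * Y = X ^ 3 + A₂ * X ^ 2 + A₄ * X + A₆) (hd : X - c ≠ 0) :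
    (((Y - e) / (X - c)) ^ 2 + A₁ * ((Y - e) / (X - c)) - A₂ - X - c) - c
      = ((3 * c ^ 2 + 2 * c * A₂ + (-1) * e * A₁ + A₄) * X + ((-1) * c * A₁ + (-2) * e + (-1) * A₃) * Y
          + ((-2) * c ^ 3 + (-1) * c ^ 2 * A₂ + c * e * A₁ + e ^ 2 + A₆)) / (X - c) ^ 2 := by
  rw [eq_div_iff (pow_ne_zero 2 hd)]
  field_simp
  linear_combination hG

/-- `(X − c)³ (y₃ − e)` is a combination of `X², X Y, X, Y, 1`. -/
theorem lred_alg_y (A₁ A₂ A₃ A₄ A₆ X Y c e : F)
    (hG : Y ^ 2 + A₁ * X * Y + A₃ * Y = X ^ 3 + A₂ * X ^ 2 + A₄ * X + A₆) (hd : X - c ≠ 0) :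
    (-(((Y - e) / (X - c)) *
          ((((Y - e) / (X - c)) ^ 2 + A₁ * ((Y - e) / (X - c)) - A₂ - X - c) - X) + Y)
        - A₁ * (((Y - e) / (X - c)) ^ 2 + A₁ * ((Y - e) / (X - c)) - A₂ - X - c) - A₃) - e
      = ((6 * c * e + (-1) * c * A₁ * A₂ + 3 * c * A₃ + e * A₁ ^ 2 + 2 * e * A₂ + (-1) * A₁ * A₄ + A₂ * A₃) * X ^ 2
          + ((-3) * c ^ 2 + (-2) * c * A₂ + e * A₁ + (-1) * A₄) * (X * Y)
          + (2 * c ^ 3 * A₁ + (-3) * c ^ 2 * e + 3 * c ^ 2 * A₁ * A₂ + (-3) * c ^ 2 * A₃ + (-2) * c * e * A₁ ^ 2 + 2 * c * e * A₂ + 2 * c * A₁ * A₄ + (-2) * e ^ 2 * A₁ + 3 * e * A₄ + (-1) * A₁ * A₆ + A₃ * A₄) * X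
          + (2 * c ^ 3 + (-1) * c ^ 2 * A₁ ^ 2 + c ^ 2 * A₂ + (-4) * c * e * A₁ + (-2) * c * A₁ * A₃ + (-3) * e ^ 2 + (-3) * e * A₃ + (-1) * A₃ ^ 2 + (-1) * A₆) * Y
          + ((-1) * c ^ 4 * A₁ + (-1) * c ^ 3 * A₁ * A₂ + c ^ 3 * A₃ + c ^ 2 * e * A₁ ^ 2 + (-1) * c ^ 2 * e * A₂ + 2 * c * e ^ 2 * A₁ + 2 * c * A₁ * A₆ + e ^ 3 + 3 * e * A₆ + A₃ * A₆)) / (X - c) ^ 3 := by
  rw [eq_div_iff (pow_ne_zero 3 hd)]
  field_simp
  linear_combination (-(X * A₁) - Y + 2 * c * A₁ + 3 * e + A₃) * hG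

end Alg

variable {k F Γ₀ : Type*} [Field k] [Field F] [Algebra k F]
  [LinearOrderedCommGroupWithZero Γ₀]

/-- the `y`-coordinate has a pole of order `3/2` times that of `x`: here `v Y < v X ^ 2` and
`v X < v Y` -/
theorem val_Y_of_pole (v : Valuation F Γ₀) (hv : ∀ c : k, v (algebraMap k F c) ≤ 1)
    (W : Affine k) {X Y : F} (hXY : (W⁄F).Equation X Y) (hX : 1 < v X) :
    v X < v Y ∧ v Y < v X ^ 2 ∧ v Y ^ 2 = v X ^ 3 := by
  have e := (Affine.equation_iff _ _).mp hXY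
  have h1 : v (W⁄F).a₁ ≤ 1 := hv W.a₁
  have h2 : v (W⁄F).a₂ ≤ 1 := hv W.a₂
  have h3 : v (W⁄F).a₃ ≤ 1 := hv W.a₃
  have h4 : v (W⁄F).a₄ ≤ 1 := hv W.a₄
  have h6 : v (W⁄F).a₆ ≤ 1 := hv W.a₆
  generalize (W⁄F).a₁ = A₁ at *
  generalize (W⁄F).a₂ = A₂ at *
  generalize (W⁄F).a₃ = A₃ at *
  generalize (W⁄F).a₄ = A₄ at *
  generalize (W⁄F).a₆ = A₆ at *
  have hX0 : 0 < v X := lt_trans zero_lt_one hX
  have hX12 : v X < v X ^ 2 := by
    have := pow_lt_pow_right₀ hX (show 1 < 2 by norm_num)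
    rwa [pow_one] at this
  have hX23 : v X ^ 2 < v X ^ 3 := pow_lt_pow_right₀ hX (by norm_num)
  have hX1 : 1 < v X ^ 2 := lt_trans hX hX12
  -- the right-hand side has valuation `v X ^ 3`
  have hR : v (X ^ 3 + A₂ * X ^ 2 + A₄ * X + A₆) = v X ^ 3 := by
    have ha : v (A₂ * X ^ 2) ≤ v X ^ 2 := by
      rw [map_mul, map_pow]; exact mul_le_of_le_one_left' h2
    have hb : v (A₄ * X) ≤ v X := by
      rw [map_mul]; exact mul_le_of_le_one_left' h4
    have hrest : v (A₂ * X ^ 2 + A₄ * X + A₆) < v X ^ 3 := by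
      refine lt_of_le_of_lt (v.map_add_le (v.map_add_le ha (hb.trans hX12.le))
        (h6.trans hX1.le)) hX23
    have : X ^ 3 + A₂ * X ^ 2 + A₄ * X + A₆ = X ^ 3 + (A₂ * X ^ 2 + A₄ * X + A₆) := by ring
    rw [this, v.map_add_eq_of_lt_left (by rw [map_pow]; exact hrest), map_pow]
  rw [← e] at hR
  -- `v X < v Y`
  have hXY' : v X < v Y := by
    by_contra hcon
    rw [not_lt] at hcon
    have ha : v (Y ^ 2) ≤ v X ^ 2 := by
      rw [map_pow]; exact pow_le_pow_left₀ zero_le hcon 2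
    have hb : v (A₁ * X * Y) ≤ v X ^ 2 := by
      rw [map_mul, map_mul, pow_two]
      exact mul_le_mul' (mul_le_of_le_one_left' h1) hcon
    have hc : v (A₃ * Y) ≤ v X ^ 2 := by
      rw [map_mul]
      exact (mul_le_of_le_one_left' h3).trans (hcon.trans hX12.le)
    have : v (Y ^ 2 + A₁ * X * Y + A₃ * Y) ≤ v X ^ 2 := v.map_add_le (v.map_add_le ha hb) hc
    rw [hR] at this
    exact absurd this (not_le.mpr hX23)
  have hY1 : 1 < v Y := lt_trans hX hXY'
  -- `v (Y ^ 2 + …) = v Y ^ 2`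
  have hL : v (Y ^ 2 + A₁ * X * Y + A₃ * Y) = v Y ^ 2 := by
    have hfac : Y ^ 2 + A₁ * X * Y + A₃ * Y = Y * (Y + (A₁ * X + A₃)) := by ring
    have hsmall : v (A₁ * X + A₃) < v Y := by
      refine lt_of_le_of_lt (v.map_add_le (g := v X) ?_ (h3.trans hX.le)) hXY'
      rw [map_mul]; exact mul_le_of_le_one_left' h1
    rw [hfac, map_mul, v.map_add_eq_of_lt_left hsmall, pow_two]
  have h23 : v Y ^ 2 = v X ^ 3 := by rw [← hL, hR]
  refine ⟨hXY', ?_, h23⟩
  by_contra hcon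
  rw [not_lt] at hcon
  have h4' : (v X ^ 2) ^ 2 ≤ v Y ^ 2 := pow_le_pow_left₀ zero_le hcon 2
  rw [h23, ← pow_mul] at h4'
  exact absurd h4' (not_le.mpr (pow_lt_pow_right₀ hX (by norm_num)))

/-- **(L-red)** -/
theorem lred (v : Valuation F Γ₀) (hv : ∀ c : k, v (algebraMap k F c) ≤ 1)
    (W : Affine k) {X Y : F} (hXY : (W⁄F).Equation X Y) (hX : 1 < v X)
    {x₀ y₀ : k} (h₀ : W.Equation x₀ y₀) :
    v ((W⁄F).addX X (algebraMap k F x₀)
          ((Y - algebraMap k F y₀) / (X - algebraMap k F x₀)) - algebraMap k F x₀) < 1 ∧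
      v ((W⁄F).addY X (algebraMap k F x₀) Y
          ((Y - algebraMap k F y₀) / (X - algebraMap k F x₀)) - algebraMap k F y₀) < 1 := by
  obtain ⟨hXY1, hXY2, hXY3⟩ := val_Y_of_pole v hv W hXY hX
  have e := (Affine.equation_iff _ _).mp hXY
  have hX0 : 0 < v X := lt_trans zero_lt_one hX
  have hY1 : 1 < v Y := lt_trans hX hXY1
  have hc : v (algebraMap k F x₀) ≤ 1 := hv x₀
  have hdv : v (X - algebraMap k F x₀) = v X :=
    v.map_sub_eq_of_lt_left (lt_of_le_of_lt hc hX)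
  have hd : X - algebraMap k F x₀ ≠ 0 := by
    intro h0
    rw [h0, map_zero] at hdv
    exact hX0.ne hdv
  have hmul : ∀ (t : k) (z : F), v (algebraMap k F t * z) ≤ v z := fun t z => by
    rw [map_mul]; exact mul_le_of_le_one_left' (hv t)
  have hXle : v X ≤ v Y := hXY1.le
  have hXYle : v X ≤ v X * v Y := le_mul_of_one_le_right' hY1.le
  have hYle : v Y ≤ v X * v Y := le_mul_of_one_le_left' hX.le
  have hX2le : v X ^ 2 ≤ v X * v Y := by
    rw [pow_two]; exact mul_le_mul' le_rfl hXle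
  have h1le : (1 : Γ₀) ≤ v X * v Y := hX.le.trans hXYle
  have hquot : v Y / v X ^ 2 < 1 := by
    rw [div_lt_one₀ (pow_pos hX0 2)]; exact hXY2
  constructor
  · have hform := lred_alg_x (W⁄F).a₁ (W⁄F).a₂ (W⁄F).a₃ (W⁄F).a₄ (W⁄F).a₆ X Y
      (algebraMap k F x₀) (algebraMap k F y₀) e hd
    have hcoef : (W⁄F).addX X (algebraMap k F x₀)
          ((Y - algebraMap k F y₀) / (X - algebraMap k F x₀)) - algebraMap k F x₀
        = (algebraMap k F (3 * x₀ ^ 2 + 2 * x₀ * W.a₂ + (-1) * y₀ * W.a₁ + W.a₄) * X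
            + algebraMap k F ((-1) * x₀ * W.a₁ + (-2) * y₀ + (-1) * W.a₃) * Y
            + algebraMap k F ((-2) * x₀ ^ 3 + (-1) * x₀ ^ 2 * W.a₂ + x₀ * y₀ * W.a₁ + y₀ ^ 2 + W.a₆))
          / (X - algebraMap k F x₀) ^ 2 := by
      rw [show (W⁄F).addX X (algebraMap k F x₀)
          ((Y - algebraMap k F y₀) / (X - algebraMap k F x₀))
        = ((Y - algebraMap k F y₀) / (X - algebraMap k F x₀)) ^ 2
          + (W⁄F).a₁ * ((Y - algebraMap k F y₀) / (X - algebraMap k F x₀))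
          - (W⁄F).a₂ - X - algebraMap k F x₀ from rfl, hform]
      simp only [map_add, map_mul, map_pow, map_neg, map_ofNat, map_one]
      rfl
    rw [hcoef, map_div₀, map_pow, hdv]
    refine lt_of_le_of_lt (div_le_div_of_nonneg_right ?_ zero_le) hquot
    exact v.map_add_le (v.map_add_le ((hmul _ X).trans hXle) (hmul _ Y)) ((hv _).trans hY1.le)
  · have hform := lred_alg_y (W⁄F).a₁ (W⁄F).a₂ (W⁄F).a₃ (W⁄F).a₄ (W⁄F).a₆ X Y
      (algebraMap k F x₀) (algebraMap k F y₀) e hd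
    have hcoef : (W⁄F).addY X (algebraMap k F x₀) Y
          ((Y - algebraMap k F y₀) / (X - algebraMap k F x₀)) - algebraMap k F y₀
        = (algebraMap k F (6 * x₀ * y₀ + (-1) * x₀ * W.a₁ * W.a₂ + 3 * x₀ * W.a₃ + y₀ * W.a₁ ^ 2 + 2 * y₀ * W.a₂ + (-1) * W.a₁ * W.a₄ + W.a₂ * W.a₃) * X ^ 2
            + algebraMap k F ((-3) * x₀ ^ 2 + (-2) * x₀ * W.a₂ + y₀ * W.a₁ + (-1) * W.a₄) * (X * Y)
            + algebraMap k F (2 * x₀ ^ 3 * W.a₁ + (-3) * x₀ ^ 2 * y₀ + 3 * x₀ ^ 2 * W.a₁ * W.a₂ + (-3) * x₀ ^ 2 * W.a₃ + (-2) * x₀ * y₀ * W.a₁ ^ 2 + 2 * x₀ * y₀ * W.a₂ + 2 * x₀ * W.a₁ * W.a₄ + (-2) * y₀ ^ 2 * W.a₁ + 3 * y₀ * W.a₄ + (-1) * W.a₁ * W.a₆ + W.a₃ * W.a₄) * X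
            + algebraMap k F (2 * x₀ ^ 3 + (-1) * x₀ ^ 2 * W.a₁ ^ 2 + x₀ ^ 2 * W.a₂ + (-4) * x₀ * y₀ * W.a₁ + (-2) * x₀ * W.a₁ * W.a₃ + (-3) * y₀ ^ 2 + (-3) * y₀ * W.a₃ + (-1) * W.a₃ ^ 2 + (-1) * W.a₆) * Y
            + algebraMap k F ((-1) * x₀ ^ 4 * W.a₁ + (-1) * x₀ ^ 3 * W.a₁ * W.a₂ + x₀ ^ 3 * W.a₃ + x₀ ^ 2 * y₀ * W.a₁ ^ 2 + (-1) * x₀ ^ 2 * y₀ * W.a₂ + 2 * x₀ * y₀ ^ 2 * W.a₁ + 2 * x₀ * W.a₁ * W.a₆ + y₀ ^ 3 + 3 * y₀ * W.a₆ + W.a₃ * W.a₆))
          / (X - algebraMap k F x₀) ^ 3 := by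
      rw [show (W⁄F).addY X (algebraMap k F x₀) Y
          ((Y - algebraMap k F y₀) / (X - algebraMap k F x₀))
        = -(((Y - algebraMap k F y₀) / (X - algebraMap k F x₀)) *
            ((((Y - algebraMap k F y₀) / (X - algebraMap k F x₀)) ^ 2
              + (W⁄F).a₁ * ((Y - algebraMap k F y₀) / (X - algebraMap k F x₀))
              - (W⁄F).a₂ - X - algebraMap k F x₀) - X) + Y)
          - (W⁄F).a₁ * (((Y - algebraMap k F y₀) / (X - algebraMap k F x₀)) ^ 2
              + (W⁄F).a₁ * ((Y - algebraMap k F y₀) / (X - algebraMap k F x₀))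
              - (W⁄F).a₂ - X - algebraMap k F x₀) - (W⁄F).a₃ from rfl, hform]
      simp only [map_add, map_mul, map_pow, map_neg, map_ofNat, map_one]
      rfl
    rw [hcoef, map_div₀, map_pow, hdv]
    have hnum : v (algebraMap k F (6 * x₀ * y₀ + (-1) * x₀ * W.a₁ * W.a₂ + 3 * x₀ * W.a₃ + y₀ * W.a₁ ^ 2 + 2 * y₀ * W.a₂ + (-1) * W.a₁ * W.a₄ + W.a₂ * W.a₃) * X ^ 2
            + algebraMap k F ((-3) * x₀ ^ 2 + (-2) * x₀ * W.a₂ + y₀ * W.a₁ + (-1) * W.a₄) * (X * Y)
            + algebraMap k F (2 * x₀ ^ 3 * W.a₁ + (-3) * x₀ ^ 2 * y₀ + 3 * x₀ ^ 2 * W.a₁ * W.a₂ + (-3) * x₀ ^ 2 * W.a₃ + (-2) * x₀ * y₀ * W.a₁ ^ 2 + 2 * x₀ * y₀ * W.a₂ + 2 * x₀ * W.a₁ * W.a₄ + (-2) * y₀ ^ 2 * W.a₁ + 3 * y₀ * W.a₄ + (-1) * W.a₁ * W.a₆ + W.a₃ * W.a₄) * X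
            + algebraMap k F (2 * x₀ ^ 3 + (-1) * x₀ ^ 2 * W.a₁ ^ 2 + x₀ ^ 2 * W.a₂ + (-4) * x₀ * y₀ * W.a₁ + (-2) * x₀ * W.a₁ * W.a₃ + (-3) * y₀ ^ 2 + (-3) * y₀ * W.a₃ + (-1) * W.a₃ ^ 2 + (-1) * W.a₆) * Y
            + algebraMap k F ((-1) * x₀ ^ 4 * W.a₁ + (-1) * x₀ ^ 3 * W.a₁ * W.a₂ + x₀ ^ 3 * W.a₃ + x₀ ^ 2 * y₀ * W.a₁ ^ 2 + (-1) * x₀ ^ 2 * y₀ * W.a₂ + 2 * x₀ * y₀ ^ 2 * W.a₁ + 2 * x₀ * W.a₁ * W.a₆ + y₀ ^ 3 + 3 * y₀ * W.a₆ + W.a₃ * W.a₆)) ≤ v X * v Y := by
      refine v.map_add_le (v.map_add_le (v.map_add_le (v.map_add_le ?_ ?_) ?_) ?_) ?_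
      · exact (hmul _ _).trans (by rw [map_pow]; exact hX2le)
      · exact (hmul _ _).trans (by rw [map_mul])
      · exact (hmul _ _).trans hXYle
      · exact (hmul _ _).trans hYle
      · exact (hv _).trans h1le
    refine lt_of_le_of_lt (div_le_div_of_nonneg_right hnum zero_le) ?_
    have : v X * v Y / v X ^ 3 = v Y / v X ^ 2 := by
      rw [pow_succ, mul_comm (v X) (v Y), mul_div_mul_right _ _ hX0.ne']
    rw [this]
    exact hquot

end Fermat.Agent.Velu
end MergeWrap_E_Velu_LRed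

section MergeWrap_E_Velu_Eqn -- from E/Velu/Eqn.lean

/-!
# Vélu (E-V): the equation of the quotient curve in the function field

`(X, Y) = (Xf, Yf)` is a nonsingular point of `veluCurve W C` over `F = W.FunctionField`.
-/

set_option autoImplicit false
set_option linter.unusedSectionVars false

open WeierstrassCurve Polynomial
open scoped WeierstrassCurve.Affine

namespace Fermat.Agent.Velu

noncomputable section

open Fermat.Agent.EV

section Val

variable {k F Γ₀ : Type*} [Field k] [Field F] [Algebra k F]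
  [LinearOrderedCommGroupWithZero Γ₀]

theorem val_two_eq_one (v : Valuation F Γ₀) (hv : ∀ c : k, v (algebraMap k F c) ≤ 1)
    (h2 : (2 : k) ≠ 0) : v (2 : F) = 1 := by
  have h2F : (2 : F) ≠ 0 := by
    have := (map_ne_zero (algebraMap k F)).2 h2
    rwa [map_ofNat] at this
  apply le_antisymm
  · have := hv 2; rwa [map_ofNat] at this
  · have h := hv (2⁻¹)
    rw [map_inv₀, map_ofNat, map_inv₀] at h
    have hpos : 0 < v (2 : F) := by
      rw [Valuation.pos_iff]; exact h2F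
    by_contra hlt
    rw [not_le] at hlt
    have : 1 < (v (2 : F))⁻¹ := (one_lt_inv₀ hpos).2 hlt
    exact not_lt.2 h this

theorem val_rhoOf_lt (v : Valuation F Γ₀) (hv : ∀ c : k, v (algebraMap k F c) ≤ 1)
    (h2 : (2 : k) ≠ 0) {x : F} (hx : 1 < v x) {ι : Type*} (s : Finset ι) (a t u : ι → k) :
    v (rhoOf s a t u x) < 1 := by
  unfold rhoOf
  rw [map_div₀, val_two_eq_one v hv h2, div_one]
  refine v.map_sum_lt one_ne_zero (fun i _ => ?_)
  have hi : v (x - algebraMap k F (a i))⁻¹ < 1 :=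
    asym_val_inv_lt v (by rw [asym_val_sub_const v hv hx]; exact hx)
  rw [div_eq_mul_inv, div_eq_mul_inv, ← inv_pow]
  refine lt_of_le_of_lt (v.map_add _ _) (max_lt ?_ ?_)
  · exact asym_mul_small v ((Valuation.mem_integer_iff _ _).2 (hv _)) hi
  · refine asym_mul_small v ((Valuation.mem_integer_iff _ _).2 (hv _)) ?_
    rw [map_pow]
    exact pow_lt_one₀ zero_le hi (by norm_num)

theorem val_rhoDerivOf_lt (v : Valuation F Γ₀) (hv : ∀ c : k, v (algebraMap k F c) ≤ 1)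
    (h2 : (2 : k) ≠ 0) {x : F} (hx : 1 < v x) {ι : Type*} (s : Finset ι) (a t u : ι → k) :
    v (rhoDerivOf s a t u x) < 1 := by
  unfold rhoDerivOf
  rw [map_div₀, val_two_eq_one v hv h2, div_one, Valuation.map_neg]
  refine v.map_sum_lt one_ne_zero (fun i _ => ?_)
  have hi : v (x - algebraMap k F (a i))⁻¹ < 1 :=
    asym_val_inv_lt v (by rw [asym_val_sub_const v hv hx]; exact hx)
  rw [div_eq_mul_inv, div_eq_mul_inv, ← inv_pow, ← inv_pow]
  refine lt_of_le_of_lt (v.map_add _ _) (max_lt ?_ ?_)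
  · refine asym_mul_small v ((Valuation.mem_integer_iff _ _).2 (hv _)) ?_
    rw [map_pow]
    exact pow_lt_one₀ zero_le hi (by norm_num)
  · refine asym_mul_small v ?_ ?_
    · rw [Valuation.mem_integer_iff, map_mul, val_two_eq_one v hv h2, one_mul]
      exact hv _
    · rw [map_pow]
      exact pow_lt_one₀ zero_le hi (by norm_num)

end Val

section FF

variable {k : Type*} [Field k] [DecidableEq k] [IsAlgClosed k] (W : Affine k) [W.IsElliptic]
variable (C : AddSubgroup W.Point) (hC : (C : Set W.Point).Finite)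

/-- `η² = 4x³ + b₂x² + 2b₄x + b₆` -/
theorem etaF_sq : etaF W ^ 2 = 4 * xg W ^ 3 + algebraMap k W.FunctionField W.b₂ * xg W ^ 2
    + 2 * algebraMap k W.FunctionField W.b₄ * xg W + algebraMap k W.FunctionField W.b₆ := by
  have h := (Affine.equation_iff _ _).1 (equation_gen W)
  have e₁ : (W⁄W.FunctionField).a₁ = algebraMap k W.FunctionField W.a₁ := rfl
  have e₂ : (W⁄W.FunctionField).a₂ = algebraMap k W.FunctionField W.a₂ := rfl
  have e₃ : (W⁄W.FunctionField).a₃ = algebraMap k W.FunctionField W.a₃ := rfl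
  have e₄ : (W⁄W.FunctionField).a₄ = algebraMap k W.FunctionField W.a₄ := rfl
  have e₆ : (W⁄W.FunctionField).a₆ = algebraMap k W.FunctionField W.a₆ := rfl
  rw [e₁, e₂, e₃, e₄, e₆] at h
  unfold etaF
  simp only [WeierstrassCurve.b₂, WeierstrassCurve.b₄, WeierstrassCurve.b₆, map_add, map_mul,
    map_pow, map_ofNat]
  linear_combination 4 * h

/-- the set of the `x`-coordinates of the nonzero points of `C` -/
def xsOf : Finset k := (Cs C hC).image ptX

/-- `t = (1/2) Σ t_T` -/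
def tSum : k := (∑ T ∈ Cs C hC, veluT W T) / 2

/-- `w = (1/2) Σ (u_T + x_T t_T)` -/
def wSum : k := (∑ T ∈ Cs C hC, (veluU W T + ptX T * veluT W T)) / 2

/-- `Z = U² - (4X³ + b₂X² + 2b₄'X + b₆')` -/
def Zf : W.FunctionField :=
  Uf W C hC ^ 2 - (4 * Xf W C hC ^ 3 + algebraMap k W.FunctionField W.b₂ * Xf W C hC ^ 2
    + 2 * algebraMap k W.FunctionField (W.b₄ - 10 * tSum W C hC) * Xf W C hC
    + algebraMap k W.FunctionField (W.b₆ - 4 * W.b₂ * tSum W C hC - 28 * wSum W C hC))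

theorem Zf_eq (h2 : (2 : k) ≠ 0) :
    Zf W C hC = (4 * xg W ^ 3 + algebraMap k W.FunctionField W.b₂ * xg W ^ 2
          + 2 * algebraMap k W.FunctionField W.b₄ * xg W + algebraMap k W.FunctionField W.b₆)
          * (1 + rhoDerivOf (Cs C hC) ptX (veluT W) (veluU W) (xg W)) ^ 2
        - (4 * (xg W + rhoOf (Cs C hC) ptX (veluT W) (veluU W) (xg W)) ^ 3
            + algebraMap k W.FunctionField W.b₂
              * (xg W + rhoOf (Cs C hC) ptX (veluT W) (veluU W) (xg W)) ^ 2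
            + 2 * algebraMap k W.FunctionField (W.b₄ - 10 * ((∑ i ∈ Cs C hC, veluT W i) / 2))
              * (xg W + rhoOf (Cs C hC) ptX (veluT W) (veluU W) (xg W))
            + algebraMap k W.FunctionField (W.b₆ - 4 * W.b₂ * ((∑ i ∈ Cs C hC, veluT W i) / 2)
                - 28 * ((∑ i ∈ Cs C hC, (veluU W i + ptX i * veluT W i)) / 2))) := by
  unfold Zf tSum wSum
  rw [Uf_eq W C hC h2, Xf_eq W C hC h2, mul_pow, etaF_sq]

theorem vO_Zf_lt (h2 : (2 : k) ≠ 0) : vO W (Zf W C hC) < 1 := by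
  rw [Zf_eq W C hC h2]
  exact asym_Z (vO W) (vO_const_le W) h2 (one_lt_vO_xg W) _ _ _ _ _ _ _

theorem transl_Zf {D : W.Point} (hD : D ∈ C) : transl W D (Zf W C hC) = Zf W C hC := by
  unfold Zf
  simp only [map_sub, map_add, map_mul, map_pow, map_ofNat, AlgEquiv.commutes,
    transl_Xf W C hC hD, transl_Uf W C hC hD]

theorem Zf_mem_polyLoc (h2 : (2 : k) ≠ 0) :
    Zf W C hC ∈ polyLoc (xg W) (∏ b ∈ xsOf W C hC, (X - Polynomial.C b)) := by
  rw [Zf_eq W C hC h2]
  have hx : ∀ c : k, xg W - algebraMap k W.FunctionField c ≠ 0 :=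
    fun c => sub_ne_zero.2 (xg_ne_algebraMap W c)
  have ha : ∀ i ∈ Cs C hC, ptX i ∈ xsOf W C hC := fun i hi => Finset.mem_image_of_mem _ hi
  have h1 := rhoOf_mem_polyLoc (xsOf W C hC) (Cs C hC) ptX (veluT W) (veluU W) ha hx
  have h2' := rhoDerivOf_mem_polyLoc (xsOf W C hC) (Cs C hC) ptX (veluT W) (veluU W) ha hx
  have h3 := self_mem_polyLoc (xg W) (∏ b ∈ xsOf W C hC, (X - Polynomial.C b))
  have h4 : ∀ n : ℕ, ∀ [n.AtLeastTwo], (OfNat.ofNat n : W.FunctionField) ∈
      polyLoc (xg W) (∏ b ∈ xsOf W C hC, (X - Polynomial.C b)) := fun n _ => ofNat_mem_polyLoc _ _ n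
  have h5 : (1 : W.FunctionField) ∈ polyLoc (xg W) (∏ b ∈ xsOf W C hC, (X - Polynomial.C b)) :=
    Subalgebra.one_mem _
  have h6 : ∀ c : k, algebraMap k W.FunctionField c ∈
      polyLoc (xg W) (∏ b ∈ xsOf W C hC, (X - Polynomial.C b)) := fun c => Subalgebra.algebraMap_mem _ c
  refine Subalgebra.sub_mem _ (Subalgebra.mul_mem _ ?_ ?_) ?_
  · exact Subalgebra.add_mem _ (Subalgebra.add_mem _ (Subalgebra.add_mem _
      (Subalgebra.mul_mem _ (h4 4) (Subalgebra.pow_mem _ h3 3))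
      (Subalgebra.mul_mem _ (h6 _) (Subalgebra.pow_mem _ h3 2)))
      (Subalgebra.mul_mem _ (Subalgebra.mul_mem _ (h4 2) (h6 _)) h3)) (h6 _)
  · exact Subalgebra.pow_mem _ (Subalgebra.add_mem _ h5 h2') 2
  · have hX := Subalgebra.add_mem _ h3 h1
    exact Subalgebra.add_mem _ (Subalgebra.add_mem _ (Subalgebra.add_mem _
      (Subalgebra.mul_mem _ (h4 4) (Subalgebra.pow_mem _ hX 3))
      (Subalgebra.mul_mem _ (h6 _) (Subalgebra.pow_mem _ hX 2)))
      (Subalgebra.mul_mem _ (Subalgebra.mul_mem _ (h4 2) (h6 _)) hX)) (h6 _)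

/-- `τ_T x ≡ x_T` at `O` -/
theorem vO_transl_xg_sub_lt {T : W.Point} (hT : T ≠ 0) :
    vO W (transl W T (xg W) - algebraMap k W.FunctionField (ptX T)) < 1 := by
  cases T with
  | zero => exact absurd rfl hT
  | some a b h =>
    rw [transl_xg']
    exact (lred (vO W) (vO_const_le W) W (equation_gen W) (one_lt_vO_xg W) h.1).1

/-- `τ_T y ≡ y_T` at `O` -/
theorem vO_transl_yg_sub_lt {T : W.Point} (hT : T ≠ 0) :
    vO W (transl W T (yg W) - algebraMap k W.FunctionField (ptY T)) < 1 := by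
  cases T with
  | zero => exact absurd rfl hT
  | some a b h =>
    rw [transl_yg']
    exact (lred (vO W) (vO_const_le W) W (equation_gen W) (one_lt_vO_xg W) h.1).2

theorem one_le_vO_aeval {N : k[X]} (hN : N ≠ 0) : 1 ≤ vO W (aeval (xg W) N) := by
  rw [aeval_xg, vO_algebraMap_polynomial W N hN, ← WithZero.exp_zero, WithZero.exp_le_exp]
  positivity

open Classical in
/-- a translation `τ_T` with `x_T = a` (for `a` in `xsOf`) -/
def tauOf (a : k) : W.FunctionField →ₐ[k] W.FunctionField :=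
  if h : ∃ T ∈ Cs C hC, ptX T = a then (transl W h.choose : W.FunctionField →ₐ[k] W.FunctionField)
  else AlgHom.id k W.FunctionField

theorem tauOf_spec {a : k} (ha : a ∈ xsOf W C hC) :
    ∃ T ∈ Cs C hC, ptX T = a ∧
      tauOf W C hC a = (transl W T : W.FunctionField →ₐ[k] W.FunctionField) := by
  have h : ∃ T ∈ Cs C hC, ptX T = a := by
    simpa [xsOf] using ha
  refine ⟨h.choose, h.choose_spec.1, h.choose_spec.2, ?_⟩
  unfold tauOf
  rw [dif_pos h]

/-- **the equation in the function field**: `U² = 4X³ + b₂X² + 2b₄'X + b₆'` -/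
theorem Zf_eq_zero (h2 : (2 : k) ≠ 0) : Zf W C hC = 0 := by
  obtain ⟨m, N, hN⟩ := Zf_mem_polyLoc W C hC h2
  have hD : aeval (xg W) (∏ b ∈ xsOf W C hC, (X - Polynomial.C b))
      = ∏ b ∈ xsOf W C hC, (xg W - algebraMap k W.FunctionField b) := by
    simp [map_prod]
  rw [hD] at hN
  refine kx_lemma (vO W) (vO_const_le W) (vO_const W) (fun N hN => one_le_vO_aeval W hN)
    (xsOf W C hC) (tauOf W C hC) ?_ (vO_Zf_lt W C hC h2) ?_ m N hN
  · intro a ha
    obtain ⟨T, hT, hTa, hτ⟩ := tauOf_spec W C hC ha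
    rw [hτ, ← hTa]
    exact vO_transl_xg_sub_lt W (mem_Cs.1 hT).2
  · intro a ha
    obtain ⟨T, hT, _, hτ⟩ := tauOf_spec W C hC ha
    rw [hτ]
    exact transl_Zf W C hC (mem_Cs.1 hT).1

/-! ### the point `(X, Y)` of the quotient curve over the function field -/

theorem veluCurve_a₄ :
    (veluCurve W (C : Set W.Point)).a₄ = W.a₄ - 5 * tSum W C hC := by
  show W.a₄ - 5 * veluSumT W (C : Set W.Point) = _
  rw [veluSumT_eq W C hC]; rfl

theorem veluCurve_a₆ :
    (veluCurve W (C : Set W.Point)).a₆ = W.a₆ - W.b₂ * tSum W C hC - 7 * wSum W C hC := by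
  show W.a₆ - W.b₂ * veluSumT W (C : Set W.Point) - 7 * veluSumW W (C : Set W.Point) = _
  rw [veluSumT_eq W C hC, veluSumW_eq W C hC]; rfl

theorem two_ne_zero_FF (h2 : (2 : k) ≠ 0) : (2 : W.FunctionField) ≠ 0 := by
  have := (map_ne_zero (algebraMap k W.FunctionField)).2 h2
  rwa [map_ofNat] at this

theorem equation_Xf_Yf (h2 : (2 : k) ≠ 0) :
    ((veluCurve W (C : Set W.Point))⁄W.FunctionField).Equation (Xf W C hC) (Yf W C hC) := by
  rw [Affine.equation_iff]
  have hZ := Zf_eq_zero W C hC h2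
  have hU := Uf_eq_two_mul_Yf W C hC h2
  unfold Zf at hZ
  rw [hU] at hZ
  have e₁ : ((veluCurve W (C : Set W.Point))⁄W.FunctionField).a₁
      = algebraMap k W.FunctionField W.a₁ := rfl
  have e₂ : ((veluCurve W (C : Set W.Point))⁄W.FunctionField).a₂
      = algebraMap k W.FunctionField W.a₂ := rfl
  have e₃ : ((veluCurve W (C : Set W.Point))⁄W.FunctionField).a₃
      = algebraMap k W.FunctionField W.a₃ := rfl
  have e₄ : ((veluCurve W (C : Set W.Point))⁄W.FunctionField).a₄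
      = algebraMap k W.FunctionField (W.a₄ - 5 * tSum W C hC) := by
    rw [← veluCurve_a₄]; rfl
  have e₆ : ((veluCurve W (C : Set W.Point))⁄W.FunctionField).a₆
      = algebraMap k W.FunctionField (W.a₆ - W.b₂ * tSum W C hC - 7 * wSum W C hC) := by
    rw [← veluCurve_a₆]; rfl
  rw [e₁, e₂, e₃, e₄, e₆]
  have h4 : (4 : W.FunctionField) ≠ 0 := by
    have : (4 : W.FunctionField) = 2 * 2 := by norm_num
    rw [this]
    exact mul_ne_zero (two_ne_zero_FF W h2) (two_ne_zero_FF W h2)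
  simp only [WeierstrassCurve.b₂, WeierstrassCurve.b₄, WeierstrassCurve.b₆, map_add, map_sub,
    map_mul, map_pow, map_ofNat] at hZ ⊢
  apply mul_left_cancel₀ h4
  linear_combination hZ

theorem vO_Xf (h2 : (2 : k) ≠ 0) : vO W (Xf W C hC) = vO W (xg W) := by
  rw [Xf_eq W C hC h2]
  exact Valuation.map_add_eq_of_lt_left _ (lt_trans
    (val_rhoOf_lt (vO W) (vO_const_le W) h2 (one_lt_vO_xg W) _ _ _ _) (one_lt_vO_xg W))

theorem one_lt_vO_Xf (h2 : (2 : k) ≠ 0) : 1 < vO W (Xf W C hC) := by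
  rw [vO_Xf W C hC h2]; exact one_lt_vO_xg W

theorem etaF_ne_zero (h2 : (2 : k) ≠ 0) : etaF W ≠ 0 := by
  intro h
  have := vO_eta W h2
  rw [show (2 * yg W + algebraMap k W.FunctionField W.a₁ * xg W
      + algebraMap k W.FunctionField W.a₃) = etaF W from rfl, h, map_zero] at this
  exact WithZero.exp_ne_zero this.symm

theorem Uf_ne_zero (h2 : (2 : k) ≠ 0) : Uf W C hC ≠ 0 := by
  rw [Uf_eq W C hC h2]
  refine mul_ne_zero (etaF_ne_zero W h2) ?_
  intro h
  have h1 : vO W (1 + rhoDerivOf (Cs C hC) ptX (veluT W) (veluU W) (xg W)) = 1 := by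
    have := Valuation.map_add_eq_of_lt_left (vO W) (x := (1 : W.FunctionField))
      (y := rhoDerivOf (Cs C hC) ptX (veluT W) (veluU W) (xg W))
      (by rw [map_one]; exact val_rhoDerivOf_lt (vO W) (vO_const_le W) h2 (one_lt_vO_xg W) _ _ _ _)
    rw [this, map_one]
  rw [h, map_zero] at h1
  exact zero_ne_one h1

theorem nonsingular_Xf_Yf (h2 : (2 : k) ≠ 0) :
    ((veluCurve W (C : Set W.Point))⁄W.FunctionField).Nonsingular (Xf W C hC) (Yf W C hC) := by
  rw [Affine.nonsingular_iff]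
  refine ⟨equation_Xf_Yf W C hC h2, Or.inr ?_⟩
  intro h
  apply Uf_ne_zero W C hC h2
  rw [Uf_eq_two_mul_Yf W C hC h2]
  have e₁ : ((veluCurve W (C : Set W.Point))⁄W.FunctionField).a₁
      = algebraMap k W.FunctionField W.a₁ := rfl
  have e₃ : ((veluCurve W (C : Set W.Point))⁄W.FunctionField).a₃
      = algebraMap k W.FunctionField W.a₃ := rfl
  rw [e₁, e₃] at h
  linear_combination h

end FF

end

end Fermat.Agent.Velu
end MergeWrap_E_Velu_Eqn

section MergeWrap_E_Velu_CoDefs -- from E/Velu/CoDefs.lean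

/-!
# Vélu (E-V): the cocycle `T ↦ τ_T G' - G'`, definitions

`W' = veluCurve W C`, `F = W.FunctionField`, `G' = (Xf, Yf) ∈ W'(F)`.
* `constPtOf W W' : W'.Point →+ (W'⁄F).Point` the constant points;
* `Gp W C hC h2 : (W'⁄F).Point` the point `(Xf, Yf)`;
* `tauPt W C T : (W'⁄F).Point →+ (W'⁄F).Point` the action of the translation `τ_T`.
-/

set_option autoImplicit false
set_option linter.unusedSectionVars false

open WeierstrassCurve Polynomial
open scoped WeierstrassCurve.Affine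

namespace Fermat.Agent.Velu

noncomputable section

open Fermat.Agent.EV

variable {k : Type*} [Field k] [DecidableEq k] [IsAlgClosed k] (W : Affine k) [W.IsElliptic]

/-- the constant points of a curve `W'` over `k`, as points over `F = W.FunctionField` -/
def constPtOf (W' : Affine k) : W'.Point →+ (W'⁄W.FunctionField).Point where
  toFun P := Affine.Point.map (W' := W') (Algebra.ofId k W.FunctionField) P
  map_zero' := rfl
  map_add' P Q := map_add (Affine.Point.map (W' := W') (Algebra.ofId k W.FunctionField)) P Q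

theorem constPtOf_zero (W' : Affine k) : constPtOf W W' 0 = 0 := rfl

theorem constPtOf_some (W' : Affine k) {c d : k} (h : W'.Nonsingular c d) :
    constPtOf W W' (.some c d h) = .some (algebraMap k W.FunctionField c)
      (algebraMap k W.FunctionField d)
      ((Affine.map_nonsingular W' (algebraMap k W.FunctionField).injective c d).2 h) := rfl

theorem constPtOf_injective (W' : Affine k) : Function.Injective (constPtOf W W') :=
  Affine.Point.map_injective (W' := W') (Algebra.ofId k W.FunctionField)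

/-- an algebra endomorphism of the function field fixes the constant points -/
theorem map_constPtOf (W' : Affine k) (f : W.FunctionField →ₐ[k] W.FunctionField)
    (P : W'.Point) :
    Affine.Point.map (W' := W') f (constPtOf W W' P) = constPtOf W W' P := by
  cases P with
  | zero => rfl
  | some c d h =>
    rw [constPtOf_some, Affine.Point.map_some]
    congr 1
    · exact f.commutes c
    · exact f.commutes d

variable (C : AddSubgroup W.Point) (hC : (C : Set W.Point).Finite)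

/-- the point `G' = (X, Y)` of the quotient curve over the function field -/
def Gp (h2 : (2 : k) ≠ 0) : ((veluCurve W (C : Set W.Point))⁄W.FunctionField).Point :=
  .some (Xf W C hC) (Yf W C hC) (nonsingular_Xf_Yf W C hC h2)

/-- the action of the translation `τ_T` on the points of the quotient curve over `F` -/
def tauPt (T : W.Point) : ((veluCurve W (C : Set W.Point))⁄W.FunctionField).Point →+
    ((veluCurve W (C : Set W.Point))⁄W.FunctionField).Point :=
  Affine.Point.map (W' := veluCurve W (C : Set W.Point))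
    (transl W T : W.FunctionField →ₐ[k] W.FunctionField)

theorem nonsingular_transl (h2 : (2 : k) ≠ 0) (T : W.Point) :
    ((veluCurve W (C : Set W.Point))⁄W.FunctionField).Nonsingular
      (transl W T (Xf W C hC)) (transl W T (Yf W C hC)) :=
  (Affine.baseChange_nonsingular (veluCurve W (C : Set W.Point))
    (f := (transl W T : W.FunctionField →ₐ[k] W.FunctionField))
    (transl W T : W.FunctionField →ₐ[k] W.FunctionField).injective _ _).2
    (nonsingular_Xf_Yf W C hC h2)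

theorem tauPt_Gp (h2 : (2 : k) ≠ 0) (T : W.Point) :
    tauPt W C T (Gp W C hC h2)
      = .some (transl W T (Xf W C hC)) (transl W T (Yf W C hC))
          (nonsingular_transl W C hC h2 T) := rfl

theorem tauPt_tauPt (S T : W.Point)
    (P : ((veluCurve W (C : Set W.Point))⁄W.FunctionField).Point) :
    tauPt W C S (tauPt W C T P) = tauPt W C (S + T) P := by
  unfold tauPt
  rw [Affine.Point.map_map]
  congr 1
  rw [coe_transl, coe_transl, coe_transl, translHom_comp]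

theorem tauPt_constPtOf (T : W.Point) (Q : (veluCurve W (C : Set W.Point)).Point) :
    tauPt W C T (constPtOf W _ Q) = constPtOf W _ Q :=
  map_constPtOf W _ _ Q

theorem tauPt_Gp_of_mem (h2 : (2 : k) ≠ 0) {T : W.Point} (hT : T ∈ C) :
    tauPt W C T (Gp W C hC h2) = Gp W C hC h2 := by
  rw [tauPt_Gp]
  unfold Gp
  congr 1
  · exact transl_Xf W C hC hT
  · exact transl_Yf W C hC hT

end

end Fermat.Agent.Velu
end MergeWrap_E_Velu_CoDefs

section MergeWrap_E_Velu_Deriv -- from E/Velu/Deriv.lean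

/-!
# Vélu (V1), infrastructure I5: the invariant derivation of the function field

`dd W : Derivation k F F` with `dd x = ψ = 2y + a₁x + a₃`, `dd y = 3x² + 2a₂x + a₄ - a₁y`,
constructed with dual numbers: the point `(x + ψ ε, y + φ ε)` of `W` over `F[ε]`.
-/

set_option autoImplicit false

open WeierstrassCurve Polynomial
open scoped Polynomial.Bivariate WeierstrassCurve.Affine

namespace Fermat.Agent.Velu

noncomputable section

variable {k : Type*} [Field k] (W : Affine k)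

/-- `ψ = 2y + a₁x + a₃`. -/
def psiF : W.FunctionField :=
  2 * yg W + algebraMap k W.FunctionField W.a₁ * xg W + algebraMap k W.FunctionField W.a₃

/-- `φ = 3x² + 2a₂x + a₄ - a₁y`. -/
def phiF : W.FunctionField :=
  3 * xg W ^ 2 + 2 * algebraMap k W.FunctionField W.a₂ * xg W
    + algebraMap k W.FunctionField W.a₄ - algebraMap k W.FunctionField W.a₁ * yg W

/-- The generic point satisfies the Weierstrass equation (explicit form). -/
theorem equation_gen' :
    yg W ^ 2 + algebraMap k W.FunctionField W.a₁ * xg W * yg W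
        + algebraMap k W.FunctionField W.a₃ * yg W
      = xg W ^ 3 + algebraMap k W.FunctionField W.a₂ * xg W ^ 2
        + algebraMap k W.FunctionField W.a₄ * xg W + algebraMap k W.FunctionField W.a₆ :=
  (Affine.equation_iff _ _).1 (equation_gen W)

/-- Dual numbers over the function field. -/
abbrev DualF : Type _ := TrivSqZeroExt W.FunctionField W.FunctionField

/-- `x + ψ ε`. -/
def xDual : DualF W := TrivSqZeroExt.inl (xg W) + TrivSqZeroExt.inr (psiF W)

/-- `y + φ ε`. -/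
def yDual : DualF W := TrivSqZeroExt.inl (yg W) + TrivSqZeroExt.inr (phiF W)

theorem algebraMap_dual (c : k) :
    algebraMap k (DualF W) c = TrivSqZeroExt.inl (algebraMap k W.FunctionField c) := rfl

theorem equation_dual : (W⁄(DualF W)).Equation (xDual W) (yDual W) := by
  rw [Affine.equation_iff]
  have e1 : (W⁄(DualF W)).a₁ = TrivSqZeroExt.inl (algebraMap k W.FunctionField W.a₁) := rfl
  have e2 : (W⁄(DualF W)).a₂ = TrivSqZeroExt.inl (algebraMap k W.FunctionField W.a₂) := rfl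
  have e3 : (W⁄(DualF W)).a₃ = TrivSqZeroExt.inl (algebraMap k W.FunctionField W.a₃) := rfl
  have e4 : (W⁄(DualF W)).a₄ = TrivSqZeroExt.inl (algebraMap k W.FunctionField W.a₄) := rfl
  have e6 : (W⁄(DualF W)).a₆ = TrivSqZeroExt.inl (algebraMap k W.FunctionField W.a₆) := rfl
  rw [e1, e2, e3, e4, e6]
  have h := equation_gen' W
  apply TrivSqZeroExt.ext
  · simp only [xDual, yDual, TrivSqZeroExt.fst_add, TrivSqZeroExt.fst_mul, TrivSqZeroExt.fst_pow,
      TrivSqZeroExt.fst_inl, TrivSqZeroExt.fst_inr, add_zero]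
    exact h
  · simp only [xDual, yDual, pow_succ, pow_zero, one_mul, TrivSqZeroExt.snd_add,
      TrivSqZeroExt.snd_mul, TrivSqZeroExt.fst_add, TrivSqZeroExt.fst_mul,
      TrivSqZeroExt.fst_inl, TrivSqZeroExt.fst_inr, TrivSqZeroExt.snd_inl,
      TrivSqZeroExt.snd_inr, add_zero, zero_add, smul_eq_mul, MulOpposite.smul_eq_mul_unop,
      MulOpposite.unop_op, mul_zero, zero_mul, smul_zero]
    simp only [psiF, phiF]
    ring

/-- Two `k`-algebra homomorphisms out of the coordinate ring agreeing on `x`, `y` are equal. -/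
theorem algHom_ext_coord {L : Type*} [CommRing L] [Algebra k L]
    {f g : W.CoordinateRing →ₐ[k] L}
    (hx : f (Affine.CoordinateRing.mk W (C X)) = g (Affine.CoordinateRing.mk W (C X)))
    (hy : f (Affine.CoordinateRing.mk W Y) = g (Affine.CoordinateRing.mk W Y)) : f = g := by
  apply AlgHom.coe_ringHom_injective
  apply AdjoinRoot.ringHom_ext
  · apply Polynomial.ringHom_ext
    · intro c
      have e : (AdjoinRoot.of W.polynomial) (C c) = algebraMap k W.CoordinateRing c := rfl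
      simp only [RingHom.comp_apply, e, RingHom.coe_coe, AlgHom.commutes]
    · exact hx
  · exact hy

/-- The `k`-algebra homomorphism `k[W] → F[ε]`, `a ↦ a + (∂a) ε`. -/
def dualA : W.CoordinateRing →ₐ[k] DualF W := liftA W (xDual W) (yDual W) (equation_dual W)

theorem fst_dualA (a : W.CoordinateRing) :
    (dualA W a).fst = algebraMap W.CoordinateRing W.FunctionField a := by
  have : (TrivSqZeroExt.fstHom k W.FunctionField W.FunctionField).comp (dualA W)
      = IsScalarTower.toAlgHom k W.CoordinateRing W.FunctionField := by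
    apply algHom_ext_coord
    · show (dualA W (Affine.CoordinateRing.mk W (C X))).fst
        = algebraMap W.CoordinateRing W.FunctionField (Affine.CoordinateRing.mk W (C X))
      rw [dualA, liftA_mk_X, xDual, TrivSqZeroExt.fst_add, TrivSqZeroExt.fst_inl,
        TrivSqZeroExt.fst_inr, add_zero]
      rfl
    · show (dualA W (Affine.CoordinateRing.mk W Y)).fst
        = algebraMap W.CoordinateRing W.FunctionField (Affine.CoordinateRing.mk W Y)
      rw [dualA, liftA_mk_Y, yDual, TrivSqZeroExt.fst_add, TrivSqZeroExt.fst_inl,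
        TrivSqZeroExt.fst_inr, add_zero]
      rfl
  exact DFunLike.congr_fun this a

theorem isUnit_dualA (a : nonZeroDivisors W.CoordinateRing) : IsUnit (dualA W a) := by
  rw [TrivSqZeroExt.isUnit_iff_isUnit_fst, fst_dualA, isUnit_iff_ne_zero]
  exact IsFractionRing.to_map_ne_zero_of_mem_nonZeroDivisors a.2

/-- The `k`-algebra homomorphism `F → F[ε]`, `f ↦ f + (∂f) ε`. -/
def dualFHom : W.FunctionField →ₐ[k] DualF W :=
  { IsLocalization.lift (M := nonZeroDivisors W.CoordinateRing)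
      (g := (dualA W : W.CoordinateRing →+* DualF W)) (isUnit_dualA W) with
    commutes' := fun c => by
      have : algebraMap k W.FunctionField c
          = algebraMap W.CoordinateRing W.FunctionField (algebraMap k W.CoordinateRing c) :=
        IsScalarTower.algebraMap_apply k W.CoordinateRing W.FunctionField c
      show IsLocalization.lift _ _ = _
      rw [this, IsLocalization.lift_eq]
      exact (dualA W).commutes c }

theorem dualFHom_algebraMap (a : W.CoordinateRing) :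
    dualFHom W (algebraMap W.CoordinateRing W.FunctionField a) = dualA W a :=
  IsLocalization.lift_eq _ a

theorem dualFHom_xg : dualFHom W (xg W) = xDual W := by
  rw [xg, dualFHom_algebraMap, dualA, liftA_mk_X]

theorem dualFHom_yg : dualFHom W (yg W) = yDual W := by
  rw [yg, dualFHom_algebraMap, dualA, liftA_mk_Y]

theorem fst_dualFHom (f : W.FunctionField) : (dualFHom W f).fst = f := by
  have : (TrivSqZeroExt.fstHom k W.FunctionField W.FunctionField).comp (dualFHom W)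
      = AlgHom.id k W.FunctionField := by
    apply algHom_ext_gen
    · show (dualFHom W (xg W)).fst = xg W
      rw [dualFHom_xg, xDual, TrivSqZeroExt.fst_add, TrivSqZeroExt.fst_inl,
        TrivSqZeroExt.fst_inr, add_zero]
    · show (dualFHom W (yg W)).fst = yg W
      rw [dualFHom_yg, yDual, TrivSqZeroExt.fst_add, TrivSqZeroExt.fst_inl,
        TrivSqZeroExt.fst_inr, add_zero]
  exact DFunLike.congr_fun this f

/-- The invariant derivation `∂` of the function field: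
`∂x = 2y + a₁x + a₃`, `∂y = 3x² + 2a₂x + a₄ - a₁y`. -/
def dd : Derivation k W.FunctionField W.FunctionField where
  toFun f := (dualFHom W f).snd
  map_add' f g := by rw [map_add, TrivSqZeroExt.snd_add]
  map_smul' c f := by rw [map_smul, TrivSqZeroExt.snd_smul]; rfl
  map_one_eq_zero' := by
    show (dualFHom W 1).snd = 0
    rw [map_one, TrivSqZeroExt.snd_one]
  leibniz' f g := by
    show (dualFHom W (f * g)).snd = f • (dualFHom W g).snd + g • (dualFHom W f).snd
    rw [map_mul, TrivSqZeroExt.snd_mul, fst_dualFHom, fst_dualFHom, op_smul_eq_smul]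

theorem dd_apply (f : W.FunctionField) : dd W f = (dualFHom W f).snd := rfl

theorem dd_xg : dd W (xg W) = 2 * yg W + algebraMap k W.FunctionField W.a₁ * xg W
    + algebraMap k W.FunctionField W.a₃ := by
  rw [dd_apply, dualFHom_xg, xDual, TrivSqZeroExt.snd_add, TrivSqZeroExt.snd_inl,
    TrivSqZeroExt.snd_inr, zero_add]
  rfl

theorem dd_yg : dd W (yg W) = 3 * xg W ^ 2 + 2 * algebraMap k W.FunctionField W.a₂ * xg W
    + algebraMap k W.FunctionField W.a₄ - algebraMap k W.FunctionField W.a₁ * yg W := by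
  rw [dd_apply, dualFHom_yg, yDual, TrivSqZeroExt.snd_add, TrivSqZeroExt.snd_inl,
    TrivSqZeroExt.snd_inr, zero_add]
  rfl

theorem dd_xg' : dd W (xg W) = psiF W := dd_xg W

theorem dd_yg' : dd W (yg W) = phiF W := dd_yg W

theorem dd_const (c : k) : dd W (algebraMap k W.FunctionField c) = 0 :=
  (dd W).map_algebraMap c

/-- `∂ (p(x)) = p'(x) ψ`. -/
theorem dd_polynomial (p : k[X]) :
    dd W (algebraMap k[X] W.FunctionField p)
      = algebraMap k[X] W.FunctionField (derivative p) * psiF W := by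
  have hx : algebraMap k[X] W.FunctionField X = xg W := by
    rw [IsScalarTower.algebraMap_apply k[X] W.CoordinateRing W.FunctionField]; rfl
  have hC : ∀ c : k, algebraMap k[X] W.FunctionField (C c) = algebraMap k W.FunctionField c := by
    intro c
    rw [IsScalarTower.algebraMap_apply k k[X] W.FunctionField]; rfl
  induction p using Polynomial.induction_on' with
  | add p q hp hq => rw [map_add, map_add, hp, hq, derivative_add, map_add, add_mul]
  | monomial n c =>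
    rw [← C_mul_X_pow_eq_monomial, derivative_C_mul_X_pow]
    simp only [map_mul, map_pow, hx, hC, Derivation.leibniz, Derivation.leibniz_pow, dd_const,
      dd_xg', smul_eq_mul, nsmul_eq_mul, smul_zero, add_zero, map_natCast]
    ring

end

end Fermat.Agent.Velu
end MergeWrap_E_Velu_Deriv

section MergeWrap_E_Velu_Abel -- from E/Velu/Abel.lean

/-!
# Vélu (E-V), leaf A4: the invariant differential is additive (chord case)

`W` a Weierstrass curve over `k`, `F ⊇ k` a field with a `k`-derivation `D`.  For two points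
`P₁, P₂` of `W` over `F` with `x₁ ≠ x₂` and `D P_i = u_i · (invariant vector field at P_i)`, the sum
`P₃ = P₁ + P₂` satisfies `D P₃ = (u₁ + u₂) · (invariant vector field at P₃)`.

(stub: helper52; proof: helper72.  The two polynomial certificates were produced by a script:
`d³ (D x₃ − (u₁ + u₂) ψ₃)` and `d⁴ (D y₃ − (u₁ + u₂) B₃)` lie in the ideal of the two curve
equations.)
-/

set_option autoImplicit false

open WeierstrassCurve
open scoped WeierstrassCurve.Affine

namespace Fermat.Agent.Velu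

section Alg

variable {F : Type*} [Field F]

/-- Abel's identity for the `x`-coordinate, purely algebraic form. -/
theorem abel_alg_x (A₁ A₂ A₃ A₄ A₆ x₁ y₁ x₂ y₂ u₁ u₂ : F)
    (h₁ : y₁ ^ 2 + A₁ * x₁ * y₁ + A₃ * y₁ = x₁ ^ 3 + A₂ * x₁ ^ 2 + A₄ * x₁ + A₆)
    (h₂ : y₂ ^ 2 + A₁ * x₂ * y₂ + A₃ * y₂ = x₂ ^ 3 + A₂ * x₂ ^ 2 + A₄ * x₂ + A₆)
    (hx : x₁ ≠ x₂) :
    (2 * ((y₁ - y₂) / (x₁ - x₂)) + A₁) *
        (((u₁ * (3 * x₁ ^ 2 + 2 * A₂ * x₁ + A₄ - A₁ * y₁)
            - u₂ * (3 * x₂ ^ 2 + 2 * A₂ * x₂ + A₄ - A₁ * y₂))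
          - ((y₁ - y₂) / (x₁ - x₂)) *
            (u₁ * (2 * y₁ + A₁ * x₁ + A₃) - u₂ * (2 * y₂ + A₁ * x₂ + A₃)))
          / (x₁ - x₂))
        - u₁ * (2 * y₁ + A₁ * x₁ + A₃) - u₂ * (2 * y₂ + A₁ * x₂ + A₃)
      = (u₁ + u₂) * (2 * (-(((y₁ - y₂) / (x₁ - x₂)) *
            ((((y₁ - y₂) / (x₁ - x₂)) ^ 2 + A₁ * ((y₁ - y₂) / (x₁ - x₂)) - A₂ - x₁ - x₂) - x₁)
              + y₁)
            - A₁ * (((y₁ - y₂) / (x₁ - x₂)) ^ 2 + A₁ * ((y₁ - y₂) / (x₁ - x₂)) - A₂ - x₁ - x₂)
            - A₃)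
          + A₁ * (((y₁ - y₂) / (x₁ - x₂)) ^ 2 + A₁ * ((y₁ - y₂) / (x₁ - x₂)) - A₂ - x₁ - x₂)
          + A₃) := by
  have hd : x₁ - x₂ ≠ 0 := sub_ne_zero.mpr hx
  field_simp
  linear_combination ((-1) * x₁ * u₁ * A₁ + x₁ * u₂ * A₁ + (-2) * y₁ * u₁ + 2 * y₁ * u₂ + x₂ * u₁ * A₁ +
        (-1) * x₂ * u₂ * A₁ + 2 * y₂ * u₁ + (-2) * y₂ * u₂) * h₁ +
      (x₁ * u₁ * A₁ + (-1) * x₁ * u₂ * A₁ + 2 * y₁ * u₁ + (-2) * y₁ * u₂ + (-1) * x₂ * u₁ * A₁ +
        x₂ * u₂ * A₁ + (-2) * y₂ * u₁ + 2 * y₂ * u₂) * h₂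

/-- Abel's identity for the `y`-coordinate, purely algebraic form (`DX` stands for `D x₃`). -/
theorem abel_alg_y (A₁ A₂ A₃ A₄ A₆ x₁ y₁ x₂ y₂ u₁ u₂ : F)
    (h₁ : y₁ ^ 2 + A₁ * x₁ * y₁ + A₃ * y₁ = x₁ ^ 3 + A₂ * x₁ ^ 2 + A₄ * x₁ + A₆)
    (h₂ : y₂ ^ 2 + A₁ * x₂ * y₂ + A₃ * y₂ = x₂ ^ 3 + A₂ * x₂ ^ 2 + A₄ * x₂ + A₆)
    (hx : x₁ ≠ x₂) :
    -((((u₁ * (3 * x₁ ^ 2 + 2 * A₂ * x₁ + A₄ - A₁ * y₁)
            - u₂ * (3 * x₂ ^ 2 + 2 * A₂ * x₂ + A₄ - A₁ * y₂))
          - ((y₁ - y₂) / (x₁ - x₂)) *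
            (u₁ * (2 * y₁ + A₁ * x₁ + A₃) - u₂ * (2 * y₂ + A₁ * x₂ + A₃)))
          / (x₁ - x₂)) *
          ((((y₁ - y₂) / (x₁ - x₂)) ^ 2 + A₁ * ((y₁ - y₂) / (x₁ - x₂)) - A₂ - x₁ - x₂) - x₁)
        + ((y₁ - y₂) / (x₁ - x₂)) *
          (((2 * ((y₁ - y₂) / (x₁ - x₂)) + A₁) *
            (((u₁ * (3 * x₁ ^ 2 + 2 * A₂ * x₁ + A₄ - A₁ * y₁)
                - u₂ * (3 * x₂ ^ 2 + 2 * A₂ * x₂ + A₄ - A₁ * y₂))
              - ((y₁ - y₂) / (x₁ - x₂)) *
                (u₁ * (2 * y₁ + A₁ * x₁ + A₃) - u₂ * (2 * y₂ + A₁ * x₂ + A₃)))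
              / (x₁ - x₂))
            - u₁ * (2 * y₁ + A₁ * x₁ + A₃) - u₂ * (2 * y₂ + A₁ * x₂ + A₃))
            - u₁ * (2 * y₁ + A₁ * x₁ + A₃))
        + u₁ * (3 * x₁ ^ 2 + 2 * A₂ * x₁ + A₄ - A₁ * y₁))
      - A₁ * ((2 * ((y₁ - y₂) / (x₁ - x₂)) + A₁) *
            (((u₁ * (3 * x₁ ^ 2 + 2 * A₂ * x₁ + A₄ - A₁ * y₁)
                - u₂ * (3 * x₂ ^ 2 + 2 * A₂ * x₂ + A₄ - A₁ * y₂))
              - ((y₁ - y₂) / (x₁ - x₂)) *
                (u₁ * (2 * y₁ + A₁ * x₁ + A₃) - u₂ * (2 * y₂ + A₁ * x₂ + A₃)))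
              / (x₁ - x₂))
            - u₁ * (2 * y₁ + A₁ * x₁ + A₃) - u₂ * (2 * y₂ + A₁ * x₂ + A₃))
      = (u₁ + u₂) * (3 * (((y₁ - y₂) / (x₁ - x₂)) ^ 2 + A₁ * ((y₁ - y₂) / (x₁ - x₂))
              - A₂ - x₁ - x₂) ^ 2
          + 2 * A₂ * (((y₁ - y₂) / (x₁ - x₂)) ^ 2 + A₁ * ((y₁ - y₂) / (x₁ - x₂)) - A₂ - x₁ - x₂)
          + A₄
          - A₁ * (-(((y₁ - y₂) / (x₁ - x₂)) *
            ((((y₁ - y₂) / (x₁ - x₂)) ^ 2 + A₁ * ((y₁ - y₂) / (x₁ - x₂)) - A₂ - x₁ - x₂) - x₁)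
              + y₁)
            - A₁ * (((y₁ - y₂) / (x₁ - x₂)) ^ 2 + A₁ * ((y₁ - y₂) / (x₁ - x₂)) - A₂ - x₁ - x₂)
            - A₃)) := by
  have hd : x₁ - x₂ ≠ 0 := sub_ne_zero.mpr hx
  field_simp
  linear_combination (3 * x₁ ^ 3 * u₂ + (-3) * x₁ ^ 2 * x₂ * u₁ + (-6) * x₁ ^ 2 * x₂ * u₂ + x₁ ^ 2 * u₁ * A₁ ^ 2 +
        (-1) * x₁ ^ 2 * u₁ * A₂ + (-1) * x₁ ^ 2 * u₂ * A₁ ^ 2 + x₁ ^ 2 * u₂ * A₂ +
        4 * x₁ * y₁ * u₁ * A₁ + (-4) * x₁ * y₁ * u₂ * A₁ + 6 * x₁ * x₂ ^ 2 * u₁ +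
        3 * x₁ * x₂ ^ 2 * u₂ + (-2) * x₁ * x₂ * u₁ * A₁ ^ 2 + 2 * x₁ * x₂ * u₁ * A₂ +
        2 * x₁ * x₂ * u₂ * A₁ ^ 2 + (-2) * x₁ * x₂ * u₂ * A₂ + (-4) * x₁ * y₂ * u₁ * A₁ +
        4 * x₁ * y₂ * u₂ * A₁ + 3 * y₁ ^ 2 * u₁ + (-3) * y₁ ^ 2 * u₂ + (-4) * y₁ * x₂ * u₁ * A₁ +
        4 * y₁ * x₂ * u₂ * A₁ + (-6) * y₁ * y₂ * u₁ + 6 * y₁ * y₂ * u₂ + (-3) * x₂ ^ 3 * u₂ +
        x₂ ^ 2 * u₁ * A₁ ^ 2 + 2 * x₂ ^ 2 * u₁ * A₂ + (-1) * x₂ ^ 2 * u₂ * A₁ ^ 2 +
        (-2) * x₂ ^ 2 * u₂ * A₂ + x₂ * y₂ * u₁ * A₁ + (-1) * x₂ * y₂ * u₂ * A₁ + 3 * x₂ * u₁ * A₄ +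
        (-3) * x₂ * u₂ * A₄ + (-3) * y₂ * u₁ * A₃ + 3 * y₂ * u₂ * A₃ + 3 * u₁ * A₆ +
        (-3) * u₂ * A₆) * h₁ +
      ((-3) * x₁ ^ 3 * u₁ + 3 * x₁ ^ 2 * x₂ * u₁ + 6 * x₁ ^ 2 * x₂ * u₂ +
        (-1) * x₁ ^ 2 * u₁ * A₁ ^ 2 + (-2) * x₁ ^ 2 * u₁ * A₂ + x₁ ^ 2 * u₂ * A₁ ^ 2 +
        2 * x₁ ^ 2 * u₂ * A₂ + (-1) * x₁ * y₁ * u₁ * A₁ + x₁ * y₁ * u₂ * A₁ +
        (-6) * x₁ * x₂ ^ 2 * u₁ + (-3) * x₁ * x₂ ^ 2 * u₂ + 2 * x₁ * x₂ * u₁ * A₁ ^ 2 +
        (-2) * x₁ * x₂ * u₁ * A₂ + (-2) * x₁ * x₂ * u₂ * A₁ ^ 2 + 2 * x₁ * x₂ * u₂ * A₂ +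
        4 * x₁ * y₂ * u₁ * A₁ + (-4) * x₁ * y₂ * u₂ * A₁ + (-3) * x₁ * u₁ * A₄ + 3 * x₁ * u₂ * A₄ +
        4 * y₁ * x₂ * u₁ * A₁ + (-4) * y₁ * x₂ * u₂ * A₁ + 6 * y₁ * y₂ * u₁ + (-6) * y₁ * y₂ * u₂ +
        3 * y₁ * u₁ * A₃ + (-3) * y₁ * u₂ * A₃ + 3 * x₂ ^ 3 * u₁ + (-1) * x₂ ^ 2 * u₁ * A₁ ^ 2 +
        x₂ ^ 2 * u₁ * A₂ + x₂ ^ 2 * u₂ * A₁ ^ 2 + (-1) * x₂ ^ 2 * u₂ * A₂ +
        (-4) * x₂ * y₂ * u₁ * A₁ + 4 * x₂ * y₂ * u₂ * A₁ + (-3) * y₂ ^ 2 * u₁ + 3 * y₂ ^ 2 * u₂ +
        (-3) * u₁ * A₆ + 3 * u₂ * A₆) * h₂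

end Alg

variable {k F : Type*} [Field k] [Field F] [Algebra k F]

/-- **(A4)** Abel / translation invariance of the invariant differential, chord case. -/
theorem abel_chord (W : Affine k) (D : Derivation k F F) {x₁ y₁ x₂ y₂ u₁ u₂ : F}
    (h₁ : (W⁄F).Equation x₁ y₁) (h₂ : (W⁄F).Equation x₂ y₂) (hx : x₁ ≠ x₂)
    (hx₁ : D x₁ = u₁ * (2 * y₁ + (W⁄F).a₁ * x₁ + (W⁄F).a₃))
    (hy₁ : D y₁ = u₁ * (3 * x₁ ^ 2 + 2 * (W⁄F).a₂ * x₁ + (W⁄F).a₄ - (W⁄F).a₁ * y₁))
    (hx₂ : D x₂ = u₂ * (2 * y₂ + (W⁄F).a₁ * x₂ + (W⁄F).a₃))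
    (hy₂ : D y₂ = u₂ * (3 * x₂ ^ 2 + 2 * (W⁄F).a₂ * x₂ + (W⁄F).a₄ - (W⁄F).a₁ * y₂)) :
    D ((W⁄F).addX x₁ x₂ ((y₁ - y₂) / (x₁ - x₂)))
        = (u₁ + u₂) * (2 * (W⁄F).addY x₁ x₂ y₁ ((y₁ - y₂) / (x₁ - x₂))
            + (W⁄F).a₁ * (W⁄F).addX x₁ x₂ ((y₁ - y₂) / (x₁ - x₂)) + (W⁄F).a₃) ∧
      D ((W⁄F).addY x₁ x₂ y₁ ((y₁ - y₂) / (x₁ - x₂)))
        = (u₁ + u₂) * (3 * (W⁄F).addX x₁ x₂ ((y₁ - y₂) / (x₁ - x₂)) ^ 2
            + 2 * (W⁄F).a₂ * (W⁄F).addX x₁ x₂ ((y₁ - y₂) / (x₁ - x₂)) + (W⁄F).a₄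
            - (W⁄F).a₁ * (W⁄F).addY x₁ x₂ y₁ ((y₁ - y₂) / (x₁ - x₂))) := by
  have hd : x₁ - x₂ ≠ 0 := sub_ne_zero.mpr hx
  have hA₁ : D (W⁄F).a₁ = 0 := D.map_algebraMap W.a₁
  have hA₂ : D (W⁄F).a₂ = 0 := D.map_algebraMap W.a₂
  have hA₃ : D (W⁄F).a₃ = 0 := D.map_algebraMap W.a₃
  have e₁ := (Affine.equation_iff _ _).mp h₁
  have e₂ := (Affine.equation_iff _ _).mp h₂
  generalize hA₁' : (W⁄F).a₁ = A₁ at *
  generalize hA₂' : (W⁄F).a₂ = A₂ at *
  generalize hA₃' : (W⁄F).a₃ = A₃ at *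
  generalize hA₄' : (W⁄F).a₄ = A₄ at *
  generalize hA₆' : (W⁄F).a₆ = A₆ at *
  -- the slope and its derivative
  have hDℓ : D ((y₁ - y₂) / (x₁ - x₂))
      = ((u₁ * (3 * x₁ ^ 2 + 2 * A₂ * x₁ + A₄ - A₁ * y₁)
            - u₂ * (3 * x₂ ^ 2 + 2 * A₂ * x₂ + A₄ - A₁ * y₂))
          - ((y₁ - y₂) / (x₁ - x₂)) *
            (u₁ * (2 * y₁ + A₁ * x₁ + A₃) - u₂ * (2 * y₂ + A₁ * x₂ + A₃))) / (x₁ - x₂) := by
    have h1 : (y₁ - y₂) / (x₁ - x₂) * (x₁ - x₂) = y₁ - y₂ := div_mul_cancel₀ _ hd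
    have h2 := congrArg D h1
    rw [D.leibniz, map_sub, map_sub, smul_eq_mul, smul_eq_mul, hx₁, hx₂, hy₁, hy₂] at h2
    rw [eq_div_iff hd]
    linear_combination h2
  have hDX : D ((W⁄F).addX x₁ x₂ ((y₁ - y₂) / (x₁ - x₂)))
      = (2 * ((y₁ - y₂) / (x₁ - x₂)) + A₁) * D ((y₁ - y₂) / (x₁ - x₂))
        - u₁ * (2 * y₁ + A₁ * x₁ + A₃) - u₂ * (2 * y₂ + A₁ * x₂ + A₃) := by
    simp only [Affine.addX, hA₁', hA₂', map_sub, map_add, D.leibniz, D.leibniz_pow, hA₁, hA₂,
      smul_eq_mul, hx₁, hx₂]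
    simp only [nsmul_eq_mul]
    push_cast
    ring
  have hX : (W⁄F).addX x₁ x₂ ((y₁ - y₂) / (x₁ - x₂))
      = ((y₁ - y₂) / (x₁ - x₂)) ^ 2 + A₁ * ((y₁ - y₂) / (x₁ - x₂)) - A₂ - x₁ - x₂ := by
    simp only [Affine.addX, hA₁', hA₂']
  have hY : (W⁄F).addY x₁ x₂ y₁ ((y₁ - y₂) / (x₁ - x₂))
      = -(((y₁ - y₂) / (x₁ - x₂)) *
            ((((y₁ - y₂) / (x₁ - x₂)) ^ 2 + A₁ * ((y₁ - y₂) / (x₁ - x₂)) - A₂ - x₁ - x₂) - x₁)
              + y₁)
            - A₁ * (((y₁ - y₂) / (x₁ - x₂)) ^ 2 + A₁ * ((y₁ - y₂) / (x₁ - x₂)) - A₂ - x₁ - x₂)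
            - A₃ := by
    simp only [Affine.addY, Affine.negAddY, Affine.negY, Affine.addX, hA₁', hA₂', hA₃']
  have hDY : D ((W⁄F).addY x₁ x₂ y₁ ((y₁ - y₂) / (x₁ - x₂)))
      = -(D ((y₁ - y₂) / (x₁ - x₂)) *
            ((W⁄F).addX x₁ x₂ ((y₁ - y₂) / (x₁ - x₂)) - x₁)
          + ((y₁ - y₂) / (x₁ - x₂)) *
            (D ((W⁄F).addX x₁ x₂ ((y₁ - y₂) / (x₁ - x₂))) - u₁ * (2 * y₁ + A₁ * x₁ + A₃))
          + u₁ * (3 * x₁ ^ 2 + 2 * A₂ * x₁ + A₄ - A₁ * y₁))
        - A₁ * D ((W⁄F).addX x₁ x₂ ((y₁ - y₂) / (x₁ - x₂))) := by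
    have hYX : (W⁄F).addY x₁ x₂ y₁ ((y₁ - y₂) / (x₁ - x₂))
        = -(((y₁ - y₂) / (x₁ - x₂)) * ((W⁄F).addX x₁ x₂ ((y₁ - y₂) / (x₁ - x₂)) - x₁) + y₁)
          - A₁ * (W⁄F).addX x₁ x₂ ((y₁ - y₂) / (x₁ - x₂)) - A₃ := by
      simp only [Affine.addY, Affine.negAddY, Affine.negY, hA₁', hA₃']
    rw [hYX]
    simp only [map_sub, map_add, map_neg, D.leibniz, hA₁, hA₃, smul_eq_mul, hx₁, hy₁]
    ring
  refine ⟨?_, ?_⟩
  · rw [hDX, hDℓ, hY, hX]
    exact abel_alg_x A₁ A₂ A₃ A₄ A₆ x₁ y₁ x₂ y₂ u₁ u₂ e₁ e₂ hx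
  · rw [hDY, hDX, hDℓ, hY, hX]
    exact abel_alg_y A₁ A₂ A₃ A₄ A₆ x₁ y₁ x₂ y₂ u₁ u₂ e₁ e₂ hx

end Fermat.Agent.Velu
end MergeWrap_E_Velu_Abel

section MergeWrap_E_Velu_DDTransl -- from E/Velu/DDTransl.lean

/-!
# Vélu (E-V), leaf DDT: the invariant derivation commutes with translations (on `x`)

`dd (τ_T x) = τ_T η`, `η = 2y + a₁x + a₃`.  (`T = O`: `dd_xg`.  `T = (a, b)`: `transl_xg'`,
`abel_chord` with `P₁` the generic point (`u₁ = 1`), `P₂ = (a, b)` constant (`u₂ = 0`), and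
`transl_etaF_some`.)
-/

set_option autoImplicit false

open WeierstrassCurve
open scoped WeierstrassCurve.Affine

namespace Fermat.Agent.Velu

variable {k : Type*} [Field k] [DecidableEq k] [IsAlgClosed k] (W : Affine k) [W.IsElliptic]

/-- the chord case of `dd_transl_xg`, together with the statement for `y` -/
theorem dd_transl_some {a b : k} (h : W.Nonsingular a b) :
    dd W (transl W (.some a b h) (xg W)) = transl W (.some a b h) (etaF W) ∧
      dd W (transl W (.some a b h) (yg W))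
        = 3 * transl W (.some a b h) (xg W) ^ 2
          + 2 * algebraMap k W.FunctionField W.a₂ * transl W (.some a b h) (xg W)
          + algebraMap k W.FunctionField W.a₄
          - algebraMap k W.FunctionField W.a₁ * transl W (.some a b h) (yg W) := by
  have key := abel_chord W (dd W) (x₁ := xg W) (y₁ := yg W)
    (x₂ := algebraMap k W.FunctionField a) (y₂ := algebraMap k W.FunctionField b)
    (u₁ := 1) (u₂ := 0) (equation_gen W) (equation_const W h.1) (xg_ne_algebraMap W a)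
    (by rw [one_mul]; exact dd_xg W) (by rw [one_mul]; exact dd_yg W)
    (by rw [zero_mul]; exact dd_const W a) (by rw [zero_mul]; exact dd_const W b)
  rw [add_zero, one_mul, one_mul] at key
  constructor
  · rw [transl_xg' W h, transl_etaF_some W h]
    exact key.1
  · rw [transl_xg' W h, transl_yg' W h]
    exact key.2

/-- **(DDT)** -/
theorem dd_transl_xg (T : W.Point) :
    dd W (transl W T (xg W)) = transl W T (etaF W) := by
  cases T with
  | zero =>
    show dd W (transl W (0 : W.Point) (xg W)) = transl W (0 : W.Point) (etaF W)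
    rw [transl_zero_apply, transl_zero_apply]
    exact dd_xg W
  | some a b h => exact (dd_transl_some W h).1

/-- the companion statement for `y` -/
theorem dd_transl_yg (T : W.Point) :
    dd W (transl W T (yg W))
      = 3 * transl W T (xg W) ^ 2
        + 2 * algebraMap k W.FunctionField W.a₂ * transl W T (xg W)
        + algebraMap k W.FunctionField W.a₄
        - algebraMap k W.FunctionField W.a₁ * transl W T (yg W) := by
  cases T with
  | zero =>
    show dd W (transl W (0 : W.Point) (yg W)) = 3 * transl W (0 : W.Point) (xg W) ^ 2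
        + 2 * algebraMap k W.FunctionField W.a₂ * transl W (0 : W.Point) (xg W)
        + algebraMap k W.FunctionField W.a₄
        - algebraMap k W.FunctionField W.a₁ * transl W (0 : W.Point) (yg W)
    rw [transl_zero_apply, transl_zero_apply]
    exact dd_yg W
  | some a b h => exact (dd_transl_some W h).2

end Fermat.Agent.Velu
end MergeWrap_E_Velu_DDTransl

section MergeWrap_E_Velu_CoDD -- from E/Velu/CoDD.lean

/-!
# Vélu (E-V), leaf CoDD: the derivative of `X` and of its translates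

`dd X = U` and `dd (τ_T X) = τ_T U`  (from `dd_transl_xg`, `transl_transl`, linearity; `dd` kills
constants).
-/

set_option autoImplicit false
set_option linter.unusedSectionVars false

open WeierstrassCurve
open scoped WeierstrassCurve.Affine

namespace Fermat.Agent.Velu

open Fermat.Agent.EV

variable {k : Type*} [Field k] [DecidableEq k] [IsAlgClosed k] (W : Affine k) [W.IsElliptic]
  (C : AddSubgroup W.Point) (hC : (C : Set W.Point).Finite)

theorem dd_transl_Xf (T : W.Point) :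
    dd W (transl W T (Xf W C hC)) = transl W T (Uf W C hC) := by
  unfold Xf Uf
  rw [map_sum, map_sum, map_sum]
  refine Finset.sum_congr rfl (fun D _ => ?_)
  rw [map_sub, map_sub, AlgEquiv.commutes, dd_const, sub_zero, transl_transl, transl_transl,
    dd_transl_xg]

theorem dd_Xf : dd W (Xf W C hC) = Uf W C hC := by
  have := dd_transl_Xf W C hC 0
  rwa [transl_zero_apply, transl_zero_apply] at this

/-- the form needed for `diff_const` -/
theorem dd_transl_Xf' (h2 : (2 : k) ≠ 0) (T : W.Point) :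
    dd W (transl W T (Xf W C hC)) = 2 * transl W T (Yf W C hC)
      + ((veluCurve W (C : Set W.Point))⁄W.FunctionField).a₁ * transl W T (Xf W C hC)
      + ((veluCurve W (C : Set W.Point))⁄W.FunctionField).a₃ := by
  rw [dd_transl_Xf, Uf_eq_two_mul_Yf W C hC h2]
  simp only [map_add, map_mul, map_ofNat, AlgEquiv.commutes]
  rfl

theorem two_mul_transl_Yf_ne_zero (h2 : (2 : k) ≠ 0) (T : W.Point) :
    2 * transl W T (Yf W C hC)
      + ((veluCurve W (C : Set W.Point))⁄W.FunctionField).a₁ * transl W T (Xf W C hC)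
      + ((veluCurve W (C : Set W.Point))⁄W.FunctionField).a₃ ≠ 0 := by
  rw [← dd_transl_Xf' W C hC h2 T, dd_transl_Xf]
  exact (map_ne_zero_iff _ (transl W T).injective).2 (Uf_ne_zero W C hC h2)

end Fermat.Agent.Velu
end MergeWrap_E_Velu_CoDD

section MergeWrap_E_Velu_CoVal -- from E/Velu/CoVal.lean

/-!
# Vélu (E-V), leaf CoVal: the values of `τ_T X`, `τ_T Y` at `O` for `T ∉ C`

For `T ∉ C`:  `τ_T X ≡ veluX T`, `τ_T Y ≡ veluY T` modulo the maximal ideal of `vO`
(`τ_T X = Σ_{D ∈ C} (τ_{T+D} x - x_D)`, `T + D ≠ O`, `vO_transl_xg_sub_lt`, `veluX_eq`, `sum_Cf`).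
In particular `τ_T X ≠ X` (`one_lt_vO_Xf`).
-/

set_option autoImplicit false
set_option linter.unusedSectionVars false

open WeierstrassCurve
open scoped WeierstrassCurve.Affine

namespace Fermat.Agent.Velu

open Fermat.Agent.EV

variable {k : Type*} [Field k] [DecidableEq k] [IsAlgClosed k] (W : Affine k) [W.IsElliptic]
  (C : AddSubgroup W.Point) (hC : (C : Set W.Point).Finite)

theorem coVal_add_ne_zero {T : W.Point} (hT : T ∉ C) {D : W.Point} (hD : D ∈ C) : T + D ≠ 0 := by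
  intro h
  apply hT
  have hTD : T = -D := eq_neg_of_add_eq_zero_left h
  rw [hTD]
  exact C.neg_mem hD

theorem coVal_transl_Xf_sub (T : W.Point) :
    transl W T (Xf W C hC) - algebraMap k W.FunctionField (veluX W (C : Set W.Point) T)
      = ∑ D ∈ Cf C hC, (transl W (T + D) (xg W)
          - algebraMap k W.FunctionField (ptX (T + D))) := by
  have h1 : veluX W (C : Set W.Point) T = ∑ D ∈ Cf C hC, (ptX (T + D) - ptX D) := by
    rw [veluX_eq W C hC, sum_Cf C hC (fun D => ptX (T + D) - ptX D), add_zero]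
    congr 1
    show ptX T = ptX T - 0
    rw [sub_zero]
  rw [h1]
  unfold Xf
  rw [map_sum, map_sum, ← Finset.sum_sub_distrib]
  refine Finset.sum_congr rfl (fun D _ => ?_)
  rw [map_sub, transl_transl, AlgEquiv.commutes, map_sub]
  ring

theorem coVal_transl_Yf_sub (T : W.Point) :
    transl W T (Yf W C hC) - algebraMap k W.FunctionField (veluY W (C : Set W.Point) T)
      = ∑ D ∈ Cf C hC, (transl W (T + D) (yg W)
          - algebraMap k W.FunctionField (ptY (T + D))) := by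
  have h1 : veluY W (C : Set W.Point) T = ∑ D ∈ Cf C hC, (ptY (T + D) - ptY D) := by
    rw [veluY_eq W C hC, sum_Cf C hC (fun D => ptY (T + D) - ptY D), add_zero]
    congr 1
    show ptY T = ptY T - 0
    rw [sub_zero]
  rw [h1]
  unfold Yf
  rw [map_sum, map_sum, ← Finset.sum_sub_distrib]
  refine Finset.sum_congr rfl (fun D _ => ?_)
  rw [map_sub, transl_transl, AlgEquiv.commutes, map_sub]
  ring

theorem vO_transl_Xf_sub_lt {T : W.Point} (hT : T ∉ C) :
    vO W (transl W T (Xf W C hC) - algebraMap k W.FunctionField (veluX W (C : Set W.Point) T))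
      < 1 := by
  rw [coVal_transl_Xf_sub]
  refine Valuation.map_sum_lt (vO W) one_ne_zero (fun D hD => ?_)
  exact vO_transl_xg_sub_lt W (coVal_add_ne_zero W C hT (mem_Cf.1 hD))

theorem vO_transl_Yf_sub_lt {T : W.Point} (hT : T ∉ C) :
    vO W (transl W T (Yf W C hC) - algebraMap k W.FunctionField (veluY W (C : Set W.Point) T))
      < 1 := by
  rw [coVal_transl_Yf_sub]
  refine Valuation.map_sum_lt (vO W) one_ne_zero (fun D hD => ?_)
  exact vO_transl_yg_sub_lt W (coVal_add_ne_zero W C hT (mem_Cf.1 hD))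

theorem vO_transl_Xf_le {T : W.Point} (hT : T ∉ C) : vO W (transl W T (Xf W C hC)) ≤ 1 := by
  have h1 := vO_transl_Xf_sub_lt W C hC hT
  have h2 : transl W T (Xf W C hC) =
      (transl W T (Xf W C hC) - algebraMap k W.FunctionField (veluX W (C : Set W.Point) T))
        + algebraMap k W.FunctionField (veluX W (C : Set W.Point) T) := by ring
  rw [h2]
  exact (Valuation.map_add _ _ _).trans (max_le h1.le (vO_const_le W _))

theorem transl_Xf_ne (h2 : (2 : k) ≠ 0) {T : W.Point} (hT : T ∉ C) :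
    transl W T (Xf W C hC) ≠ Xf W C hC := by
  intro h
  have h1 := vO_transl_Xf_le W C hC hT
  rw [h] at h1
  exact absurd (one_lt_vO_Xf W C hC h2) (not_lt.mpr h1)

end Fermat.Agent.Velu
end MergeWrap_E_Velu_CoVal

section MergeWrap_E_Velu_DiffPt -- from E/Velu/DiffPt.lean

/-!
# Vélu (E-V), leaf DP: the difference of two points with the same logarithmic derivative is constant

`W'` a Weierstrass curve over `k`, `F ⊇ k` a field with a `k`-derivation `D` whose constants are `k`.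
If `P₁ = (x₁, y₁)`, `P₂ = (x₂, y₂)` are points of `W'` over `F` with `x₁ ≠ x₂`, `η(P_i) ≠ 0` and
`D x_i = η(P_i)` (`η = 2y + a₁x + a₃`), then `P₁ - P₂` is a constant point.

Proof: differentiate the equation: `η_i D y_i = (3x_i² + 2a₂x_i + a₄ - a₁y_i) D x_i`, so
`D y_i = 3x_i² + ...`; the same for `-P₂` with `u = -1`; `abel_chord` (`u₁ = 1`, `u₂ = -1`) gives
`D x₃ = D y₃ = 0`; `hker`; the point `(c, d)` is nonsingular over `k` by `map_nonsingular`.

(stub: helper52; proof: helper72.)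
-/

set_option autoImplicit false

open WeierstrassCurve
open scoped WeierstrassCurve.Affine

namespace Fermat.Agent.Velu

variable {k F : Type*} [Field k] [Field F] [Algebra k F] [DecidableEq k] [DecidableEq F]

omit [DecidableEq k] [DecidableEq F] in
/-- Differentiating the Weierstrass equation: if `D x = η ≠ 0` then `D y = 3x² + 2a₂x + a₄ - a₁y`. -/
theorem diffPt_deriv_y (D : Derivation k F F) (W' : Affine k) {x y : F}
    (h : (W'⁄F).Equation x y)
    (hd : D x = 2 * y + (W'⁄F).a₁ * x + (W'⁄F).a₃)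
    (hη : 2 * y + (W'⁄F).a₁ * x + (W'⁄F).a₃ ≠ 0) :
    D y = 3 * x ^ 2 + 2 * (W'⁄F).a₂ * x + (W'⁄F).a₄ - (W'⁄F).a₁ * y := by
  have hA₁ : D (W'⁄F).a₁ = 0 := D.map_algebraMap W'.a₁
  have hA₂ : D (W'⁄F).a₂ = 0 := D.map_algebraMap W'.a₂
  have hA₃ : D (W'⁄F).a₃ = 0 := D.map_algebraMap W'.a₃
  have hA₄ : D (W'⁄F).a₄ = 0 := D.map_algebraMap W'.a₄
  have hA₆ : D (W'⁄F).a₆ = 0 := D.map_algebraMap W'.a₆
  have e := congrArg D ((Affine.equation_iff _ _).mp h)
  generalize (W'⁄F).a₁ = A₁ at *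
  generalize (W'⁄F).a₂ = A₂ at *
  generalize (W'⁄F).a₃ = A₃ at *
  generalize (W'⁄F).a₄ = A₄ at *
  generalize (W'⁄F).a₆ = A₆ at *
  simp only [map_add, D.leibniz, D.leibniz_pow, hA₁, hA₂, hA₃, hA₄, hA₆, smul_eq_mul, hd,
    nsmul_eq_mul] at e
  push_cast at e
  have key : (2 * y + A₁ * x + A₃) * (D y - (3 * x ^ 2 + 2 * A₂ * x + A₄ - A₁ * y)) = 0 := by
    linear_combination e
  rcases mul_eq_zero.mp key with h0 | h0
  · exact absurd h0 hη
  · exact sub_eq_zero.mp h0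

/-- **(DP)** -/
theorem diff_const (D : Derivation k F F)
    (hker : ∀ f : F, D f = 0 → ∃ c : k, f = algebraMap k F c) (h2 : (2 : k) ≠ 0)
    (W' : Affine k) {x₁ y₁ x₂ y₂ : F}
    (h₁ : (W'⁄F).Nonsingular x₁ y₁) (h₂ : (W'⁄F).Nonsingular x₂ y₂) (hx : x₁ ≠ x₂)
    (hd₁ : D x₁ = 2 * y₁ + (W'⁄F).a₁ * x₁ + (W'⁄F).a₃)
    (hd₂ : D x₂ = 2 * y₂ + (W'⁄F).a₁ * x₂ + (W'⁄F).a₃)
    (hη₁ : 2 * y₁ + (W'⁄F).a₁ * x₁ + (W'⁄F).a₃ ≠ 0)
    (hη₂ : 2 * y₂ + (W'⁄F).a₁ * x₂ + (W'⁄F).a₃ ≠ 0) :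
    ∃ Q : W'.Point, Affine.Point.map (W' := W') (Algebra.ofId k F) Q
      = (Affine.Point.some x₁ y₁ h₁ : (W'⁄F).Point) - Affine.Point.some x₂ y₂ h₂ := by
  have hy₁ := diffPt_deriv_y D W' h₁.1 hd₁ hη₁
  have hy₂ := diffPt_deriv_y D W' h₂.1 hd₂ hη₂
  have hA₁ : D (W'⁄F).a₁ = 0 := D.map_algebraMap W'.a₁
  have hA₃ : D (W'⁄F).a₃ = 0 := D.map_algebraMap W'.a₃
  have hn₂ : (W'⁄F).Nonsingular x₂ ((W'⁄F).negY x₂ y₂) := (Affine.nonsingular_neg ..).mpr h₂
  have hsub : (Affine.Point.some x₁ y₁ h₁ : (W'⁄F).Point) - Affine.Point.some x₂ y₂ h₂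
      = Affine.Point.some _ _ (Affine.nonsingular_add h₁ hn₂ fun hxy => hx hxy.left) := by
    rw [sub_eq_add_neg, Affine.Point.neg_some, Affine.Point.add_of_X_ne hx]
  have hsl : (W'⁄F).slope x₁ x₂ y₁ ((W'⁄F).negY x₂ y₂)
      = (y₁ - (W'⁄F).negY x₂ y₂) / (x₁ - x₂) := Affine.slope_of_X_ne hx
  have hDn : D ((W'⁄F).negY x₂ y₂)
      = -1 * (3 * x₂ ^ 2 + 2 * (W'⁄F).a₂ * x₂ + (W'⁄F).a₄
          - (W'⁄F).a₁ * (W'⁄F).negY x₂ y₂) := by
    simp only [Affine.negY, map_sub, map_neg, D.leibniz, hA₁, hA₃, smul_eq_mul, hd₂, hy₂]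
    ring
  have hDx₂ : D x₂ = -1 * (2 * (W'⁄F).negY x₂ y₂ + (W'⁄F).a₁ * x₂ + (W'⁄F).a₃) := by
    rw [hd₂]
    simp only [Affine.negY]
    ring
  obtain ⟨hDX, hDY⟩ := abel_chord W' D (u₁ := 1) (u₂ := -1) h₁.1 hn₂.1 hx
    (by rw [hd₁, one_mul]) (by rw [hy₁, one_mul]) hDx₂ hDn
  rw [add_neg_cancel, zero_mul] at hDX hDY
  rw [← hsl] at hDX hDY
  obtain ⟨c, hc⟩ := hker _ hDX
  obtain ⟨d, hd⟩ := hker _ hDY
  have hns := Affine.nonsingular_add h₁ hn₂ fun hxy => hx hxy.left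
  have hns' : (W'⁄F).Nonsingular ((Algebra.ofId k F) c) ((Algebra.ofId k F) d) := by
    have : (Algebra.ofId k F) c = algebraMap k F c := rfl
    have : (Algebra.ofId k F) d = algebraMap k F d := rfl
    simpa only [Algebra.ofId_apply, ← hc, ← hd] using hns
  have hcd : (W'⁄k).Nonsingular c d :=
    (W'.baseChange_nonsingular (Algebra.ofId k F).injective c d).mp hns'
  refine ⟨(Affine.Point.some c d hcd : (W'⁄k).Point), ?_⟩
  rw [hsub]
  rw [Affine.Point.map_some]
  simp only [Algebra.ofId_apply, ← hc, ← hd]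

end Fermat.Agent.Velu
end MergeWrap_E_Velu_DiffPt

section MergeWrap_E_Velu_DerivKer -- from E/Velu/DerivKer.lean

/-!
# Vélu (V1), infrastructure I5b: the constants of the invariant derivation

In characteristic zero, `dd W f = 0 ↔ f ∈ k`.
-/

set_option autoImplicit false

open WeierstrassCurve Polynomial
open scoped Polynomial.Bivariate WeierstrassCurve.Affine

namespace Fermat.Agent.Velu

noncomputable section

section Wronskian

variable {k : Type*} [Field k] [CharZero k]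

/-- In characteristic zero, `n' P = n P'` with `n ≠ 0` forces `P = c n`. -/
theorem eq_C_mul_of_wronskian {P n : k[X]} (hn : n ≠ 0)
    (h : derivative n * P = n * derivative P) : ∃ c : k, P = C c * n := by
  classical
  obtain ⟨d, P₁, n₁, hP, hn', hcop⟩ : ∃ d P₁ n₁ : k[X], P = d * P₁ ∧ n = d * n₁ ∧
      IsCoprime P₁ n₁ := by
    have hg : EuclideanDomain.gcd P n ≠ 0 := fun h0 =>
      hn ((EuclideanDomain.gcd_eq_zero_iff.1 h0).2)
    obtain ⟨P₁, hP₁⟩ := EuclideanDomain.gcd_dvd_left P n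
    obtain ⟨n₁, hn₁⟩ := EuclideanDomain.gcd_dvd_right P n
    refine ⟨EuclideanDomain.gcd P n, P₁, n₁, hP₁, hn₁, ?_⟩
    obtain ⟨u, v, huv⟩ : ∃ u v : k[X], EuclideanDomain.gcd P n = u * P + v * n :=
      ⟨EuclideanDomain.gcdA P n, EuclideanDomain.gcdB P n, by
        rw [mul_comm _ P, mul_comm _ n]; exact EuclideanDomain.gcd_eq_gcd_ab P n⟩
    refine ⟨u, v, ?_⟩
    apply mul_left_cancel₀ hg
    calc EuclideanDomain.gcd P n * (u * P₁ + v * n₁)
        = u * (EuclideanDomain.gcd P n * P₁) + v * (EuclideanDomain.gcd P n * n₁) := by ring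
      _ = u * P + v * n := by rw [← hP₁, ← hn₁]
      _ = EuclideanDomain.gcd P n * 1 := by rw [mul_one, ← huv]
  have hd : d ≠ 0 := by
    rintro rfl
    exact hn (by rw [hn', zero_mul])
  have hw : wronskian P₁ n₁ = 0 := by
    have : d ^ 2 * wronskian P₁ n₁ = 0 := by
      have e : d ^ 2 * wronskian P₁ n₁ = P * derivative n - derivative P * n := by
        rw [wronskian, hP, hn', derivative_mul, derivative_mul]; ring
      rw [e, mul_comm P, h]; ring
    rcases mul_eq_zero.1 this with h0 | h0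
    · exact absurd (pow_eq_zero_iff two_ne_zero |>.1 h0) hd
    · exact h0
  obtain ⟨hP₁, hn₁⟩ := hcop.wronskian_eq_zero_iff.1 hw
  obtain ⟨a, ha⟩ : ∃ a : k, P₁ = C a :=
    ⟨_, eq_C_of_natDegree_eq_zero (Polynomial.derivative_eq_zero.1 hP₁)⟩
  obtain ⟨b, hb'⟩ : ∃ b : k, n₁ = C b :=
    ⟨_, eq_C_of_natDegree_eq_zero (Polynomial.derivative_eq_zero.1 hn₁)⟩
  have hb : b ≠ 0 := by
    rintro rfl
    apply hn
    rw [hn', hb', C_0, mul_zero]
  refine ⟨a / b, ?_⟩
  rw [hP, hn', ha, hb', ← mul_assoc, mul_comm (C _) d, mul_assoc, ← C_mul, div_mul_cancel₀ _ hb]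

end Wronskian

variable {k : Type*} [Field k] (W : Affine k)

theorem algebraMap_polynomial_X : algebraMap k[X] W.FunctionField X = xg W := by
  rw [IsScalarTower.algebraMap_apply k[X] W.CoordinateRing W.FunctionField]; rfl

theorem algebraMap_polynomial_C (c : k) :
    algebraMap k[X] W.FunctionField (C c) = algebraMap k W.FunctionField c := by
  rw [IsScalarTower.algebraMap_apply k k[X] W.FunctionField]; rfl

theorem algebraMap_polynomial_injective' :
    Function.Injective (algebraMap k[X] W.FunctionField) := by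
  rw [IsScalarTower.algebraMap_eq k[X] W.CoordinateRing W.FunctionField]
  exact (IsFractionRing.injective W.CoordinateRing W.FunctionField).comp
    (FaithfulSMul.algebraMap_injective k[X] W.CoordinateRing)

/-- `1` and `y` are linearly independent over `k[x]`. -/
theorem eq_zero_of_add_mul_yg_eq_zero {u v : k[X]}
    (h : algebraMap k[X] W.FunctionField u + algebraMap k[X] W.FunctionField v * yg W = 0) :
    u = 0 ∧ v = 0 := by
  have e : algebraMap k[X] W.FunctionField u + algebraMap k[X] W.FunctionField v * yg W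
      = algebraMap W.CoordinateRing W.FunctionField
          (u • (1 : W.CoordinateRing) + v • Affine.CoordinateRing.mk W Y) := by
    rw [map_add, Algebra.smul_def, Algebra.smul_def, mul_one, map_mul,
      ← IsScalarTower.algebraMap_apply, ← IsScalarTower.algebraMap_apply]
    rfl
  rw [e] at h
  have h' : u • (1 : W.CoordinateRing) + v • Affine.CoordinateRing.mk W Y = 0 :=
    (IsFractionRing.injective W.CoordinateRing W.FunctionField) (by rw [h, map_zero])
  exact Affine.CoordinateRing.smul_basis_eq_zero h'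

/-- Every element of the function field is `(p(x) + q(x) y) / n(x)`. -/
theorem exists_repr (f : W.FunctionField) : ∃ p q n : k[X], n ≠ 0 ∧
    f * algebraMap k[X] W.FunctionField n
      = algebraMap k[X] W.FunctionField p + algebraMap k[X] W.FunctionField q * yg W := by
  obtain ⟨u, v, hv, rfl⟩ := IsFractionRing.div_surjective (A := W.CoordinateRing) f
  have hv0 : v ≠ 0 := nonZeroDivisors.ne_zero hv
  obtain ⟨pv, qv, rfl⟩ := Affine.CoordinateRing.exists_smul_basis_eq v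
  set N : k[X] := Algebra.norm k[X]
    (pv • (1 : W.CoordinateRing) + qv • Affine.CoordinateRing.mk W Y) with hN
  have hN0 : N ≠ 0 := mt Algebra.norm_eq_zero_iff.1 hv0
  set v' : W.CoordinateRing := Affine.CoordinateRing.mk W
    (C pv + C qv * (-(Y : k[X][Y]) - C (C W.a₁ * X + C W.a₃))) with hv'
  have hvv' : (pv • (1 : W.CoordinateRing) + qv • Affine.CoordinateRing.mk W Y) * v'
      = algebraMap k[X] W.CoordinateRing N := by
    have := Affine.CoordinateRing.coe_norm_smul_basis (W' := W) pv qv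
    rw [← hN] at this
    have e : (algebraMap k[X] W.CoordinateRing N) = ((N : k[X]) : W.CoordinateRing) := rfl
    rw [e, this, map_mul]
    congr 1
    rw [Affine.CoordinateRing.smul, Affine.CoordinateRing.smul, mul_one, map_add, map_mul]
  obtain ⟨p, q, hpq⟩ := Affine.CoordinateRing.exists_smul_basis_eq (u * v')
  refine ⟨p, q, N, hN0, ?_⟩
  have hvF : algebraMap W.CoordinateRing W.FunctionField
      (pv • (1 : W.CoordinateRing) + qv • Affine.CoordinateRing.mk W Y) ≠ 0 :=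
    IsFractionRing.to_map_ne_zero_of_mem_nonZeroDivisors hv
  have e1 : algebraMap k[X] W.FunctionField N
      = algebraMap W.CoordinateRing W.FunctionField
          (pv • (1 : W.CoordinateRing) + qv • Affine.CoordinateRing.mk W Y)
        * algebraMap W.CoordinateRing W.FunctionField v' := by
    rw [← map_mul, hvv', ← IsScalarTower.algebraMap_apply]
  have e2 : algebraMap k[X] W.FunctionField p + algebraMap k[X] W.FunctionField q * yg W
      = algebraMap W.CoordinateRing W.FunctionField u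
        * algebraMap W.CoordinateRing W.FunctionField v' := by
    rw [← map_mul, ← hpq, map_add, Algebra.smul_def, Algebra.smul_def, mul_one, map_mul,
      ← IsScalarTower.algebraMap_apply, ← IsScalarTower.algebraMap_apply]
    rfl
  rw [e1, e2]
  field_simp

/-- `∂ (p(x) + q(x) y) = p'(x) ψ + q'(x) ψ y + q(x) φ`. -/
theorem dd_add_mul_yg (p q : k[X]) :
    dd W (algebraMap k[X] W.FunctionField p + algebraMap k[X] W.FunctionField q * yg W)
      = algebraMap k[X] W.FunctionField (derivative p) * psiF W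
        + algebraMap k[X] W.FunctionField (derivative q) * psiF W * yg W
        + algebraMap k[X] W.FunctionField q * phiF W := by
  rw [map_add, Derivation.leibniz, dd_polynomial, dd_polynomial, dd_yg', smul_eq_mul, smul_eq_mul]
  ring

section CharZero

variable [CharZero k]

/-- The cubic `4x³ + b₂x² + 2b₄x + b₆ = 4 c + l²` is nonzero of degree `3`. -/
theorem natDegree_cubic_aux :
    (4 * (X ^ 3 + C W.a₂ * X ^ 2 + C W.a₄ * X + C W.a₆) + (C W.a₁ * X + C W.a₃) ^ 2 : k[X]).natDegree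
      = 3 := by
  have e : (4 * (X ^ 3 + C W.a₂ * X ^ 2 + C W.a₄ * X + C W.a₆) + (C W.a₁ * X + C W.a₃) ^ 2 : k[X])
      = C 4 * X ^ 3 + C (4 * W.a₂ + W.a₁ ^ 2) * X ^ 2 + C (4 * W.a₄ + 2 * W.a₁ * W.a₃) * X
        + C (4 * W.a₆ + W.a₃ ^ 2) := by
    simp only [map_add, map_mul, map_pow, map_ofNat]
    ring
  rw [e]
  exact natDegree_cubic (by norm_num)

/-- **Constants of the invariant derivation** (characteristic zero). -/
theorem exists_const_of_dd_eq_zero {f : W.FunctionField} (hf : dd W f = 0) :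
    ∃ c : k, f = algebraMap k W.FunctionField c := by
  obtain ⟨p, q, n, hn, hrep⟩ := exists_repr W f
  have hnF : algebraMap k[X] W.FunctionField n ≠ 0 := fun h0 =>
    hn (algebraMap_polynomial_injective' W (by rw [h0, map_zero]))
  -- differentiate the representation
  have hd := congrArg (dd W) hrep
  rw [Derivation.leibniz, hf, smul_zero, add_zero, dd_polynomial, dd_add_mul_yg, smul_eq_mul] at hd
  -- the polynomials
  set l : k[X] := C W.a₁ * X + C W.a₃ with hl
  set c : k[X] := X ^ 3 + C W.a₂ * X ^ 2 + C W.a₄ * X + C W.a₆ with hc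
  set m : k[X] := 3 * X ^ 2 + 2 * C W.a₂ * X + C W.a₄ with hm
  have hlF : algebraMap k[X] W.FunctionField l
      = algebraMap k W.FunctionField W.a₁ * xg W + algebraMap k W.FunctionField W.a₃ := by
    simp only [hl, map_add, map_mul, algebraMap_polynomial_X, algebraMap_polynomial_C]
  have hcF : algebraMap k[X] W.FunctionField c
      = xg W ^ 3 + algebraMap k W.FunctionField W.a₂ * xg W ^ 2
        + algebraMap k W.FunctionField W.a₄ * xg W + algebraMap k W.FunctionField W.a₆ := by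
    simp only [hc, map_add, map_mul, map_pow, algebraMap_polynomial_X, algebraMap_polynomial_C]
  have hmF : algebraMap k[X] W.FunctionField m
      = 3 * xg W ^ 2 + 2 * algebraMap k W.FunctionField W.a₂ * xg W
        + algebraMap k W.FunctionField W.a₄ := by
    simp only [hm, map_add, map_mul, map_pow, map_ofNat, algebraMap_polynomial_X,
      algebraMap_polynomial_C]
  have heq := equation_gen' W
  -- coordinates of `n · (★)`
  have hA : algebraMap k[X] W.FunctionField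
        (derivative n * (l * p + 2 * q * c) - n * (derivative p * l + 2 * derivative q * c + q * m))
      + algebraMap k[X] W.FunctionField
        (derivative n * (2 * p - l * q)
          - n * (2 * derivative p - l * derivative q - C W.a₁ * q)) * yg W = 0 := by
    simp only [map_sub, map_add, map_mul, map_ofNat, hlF, hcF, hmF, algebraMap_polynomial_C]
    simp only [psiF, phiF] at hd
    linear_combination (-(algebraMap k[X] W.FunctionField (derivative n)
        * (2 * yg W + algebraMap k W.FunctionField W.a₁ * xg W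
            + algebraMap k W.FunctionField W.a₃))) * hrep
      + (algebraMap k[X] W.FunctionField n) * hd
      - (2 * algebraMap k[X] W.FunctionField q * algebraMap k[X] W.FunctionField (derivative n)
          - 2 * algebraMap k[X] W.FunctionField n
              * algebraMap k[X] W.FunctionField (derivative q)) * heq
  obtain ⟨hA₁, hA₂⟩ := eq_zero_of_add_mul_yg_eq_zero W hA
  -- `P = 2p - l q` is a constant multiple of `n`
  have hP : derivative n * (2 * p - l * q) = n * derivative (2 * p - l * q) := by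
    have : derivative (2 * p - l * q) = 2 * derivative p - l * derivative q - C W.a₁ * q := by
      have h2 : derivative (2 * p) = 2 * derivative p := by
        rw [derivative_mul, derivative_ofNat, zero_mul, zero_add]
      have h3 : derivative l = C W.a₁ := by
        rw [hl, derivative_add, derivative_mul, derivative_C, derivative_C, derivative_X,
          zero_mul, zero_add, mul_one, add_zero]
      rw [derivative_sub, h2, derivative_mul, h3]
      ring
    rw [this]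
    linear_combination hA₂
  obtain ⟨c₀, hc₀⟩ := eq_C_mul_of_wronskian hn hP
  -- `G = q² g` is a constant multiple of `n²`
  set g : k[X] := 4 * c + l ^ 2 with hg
  have hcd : derivative c = m := by
    rw [hc, hm]
    simp only [derivative_add, derivative_mul, derivative_C, derivative_X, derivative_X_pow]
    simp only [Nat.cast_ofNat, map_ofNat]
    norm_num
    ring
  have hld : derivative l = C W.a₁ := by
    rw [hl, derivative_add, derivative_mul, derivative_C, derivative_C, derivative_X,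
      zero_mul, zero_add, mul_one, add_zero]
  have hg' : derivative g = 2 * (2 * m + C W.a₁ * l) := by
    have h4 : derivative (4 * c) = 4 * derivative c := by
      rw [derivative_mul, derivative_ofNat, zero_mul, zero_add]
    rw [hg, derivative_add, h4, pow_two, derivative_mul, hcd, hld]
    ring
  have hG : derivative (n ^ 2) * (q ^ 2 * g) = n ^ 2 * derivative (q ^ 2 * g) := by
    rw [pow_two n, pow_two q, derivative_mul, derivative_mul, derivative_mul, hg']
    linear_combination (2 * n * q) * (2 * hA₁ - l * hA₂)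
  obtain ⟨c₁, hc₁⟩ := eq_C_mul_of_wronskian (pow_ne_zero 2 hn) hG
  have hg3 : g.natDegree = 3 := natDegree_cubic_aux W
  have hg0 : g ≠ 0 := by
    intro h0
    rw [h0, natDegree_zero] at hg3
    exact absurd hg3 (by norm_num)
  have hq : q = 0 := by
    by_contra hq
    have hd1 : (q ^ 2 * g).natDegree = 2 * q.natDegree + 3 := by
      rw [natDegree_mul (pow_ne_zero 2 hq) hg0, natDegree_pow, hg3]
    by_cases hc10 : c₁ = 0
    · rw [hc10, C_0, zero_mul] at hc₁
      exact (mul_ne_zero (pow_ne_zero 2 hq) hg0) hc₁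
    · have hd2 : (C c₁ * n ^ 2).natDegree = 2 * n.natDegree := by
        rw [natDegree_C_mul hc10, natDegree_pow]
      rw [hc₁, hd2] at hd1
      omega
  -- conclusion
  rw [hq, mul_zero, sub_zero] at hc₀
  refine ⟨c₀ / 2, ?_⟩
  apply mul_right_cancel₀ hnF
  rw [hrep, hq, map_zero, zero_mul, add_zero]
  have h2 : (2 : W.FunctionField) ≠ 0 := by
    have : (algebraMap k W.FunctionField) 2 ≠ 0 := by
      rw [Ne, map_eq_zero_iff _ (algebraMap k W.FunctionField).injective]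
      norm_num
    rwa [map_ofNat] at this
  have h3 := congrArg (algebraMap k[X] W.FunctionField) hc₀
  rw [map_mul, map_mul, map_ofNat, algebraMap_polynomial_C] at h3
  rw [map_div₀, map_ofNat]
  field_simp
  linear_combination h3

theorem dd_eq_zero_iff {f : W.FunctionField} :
    dd W f = 0 ↔ ∃ c : k, f = algebraMap k W.FunctionField c :=
  ⟨exists_const_of_dd_eq_zero W, fun ⟨c, hc⟩ => by rw [hc, dd_const]⟩

end CharZero

end

end Fermat.Agent.Velu
end MergeWrap_E_Velu_DerivKer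

section MergeWrap_E_Velu_CoHom -- from E/Velu/CoHom.lean

/-!
# Vélu (E-V), leaf CoHom: the isogeny as a cocycle

`φ(T)` is the constant point `τ_T G' - G'`; it is additive in `T` with kernel `C`.
* `exists_constPtOf_eq`: `T ∈ C`: `tauPt_Gp_of_mem`; `T ∉ C`: `diff_const` with `dd W`,
  `dd_eq_zero_iff`, `transl_Xf_ne`, `dd_transl_Xf'` (for `T` and for `0`), `two_mul_transl_Yf_ne_zero`.
* additivity: `τ_{S+T} G' - G' = τ_S (τ_T G' - G') + (τ_S G' - G')`, `tauPt_constPtOf`, injectivity.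
* kernel: `τ_T G' = G'` iff `τ_T X = X` iff `T ∈ C` (`transl_Xf_ne`).
-/

set_option autoImplicit false
set_option linter.unusedSectionVars false

open WeierstrassCurve
open scoped WeierstrassCurve.Affine

namespace Fermat.Agent.Velu

open Fermat.Agent.EV

noncomputable section

variable {k : Type*} [Field k] [DecidableEq k] [IsAlgClosed k] [CharZero k]
  (W : Affine k) [W.IsElliptic]
  (C : AddSubgroup W.Point) (hC : (C : Set W.Point).Finite)

theorem exists_constPtOf_eq (T : W.Point) :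
    ∃ Q : (veluCurve W (C : Set W.Point)).Point, constPtOf W _ Q
      = tauPt W C T (Gp W C hC two_ne_zero) - Gp W C hC two_ne_zero := by
  by_cases hT : T ∈ C
  · exact ⟨0, by rw [tauPt_Gp_of_mem W C hC _ hT, sub_self]; rfl⟩
  · have h0 := dd_transl_Xf' W C hC two_ne_zero 0
    have h0' := two_mul_transl_Yf_ne_zero W C hC two_ne_zero 0
    rw [transl_zero_apply, transl_zero_apply] at h0 h0'
    obtain ⟨Q, hQ⟩ := diff_const (dd W) (fun f hf => (dd_eq_zero_iff W).1 hf) two_ne_zero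
      (veluCurve W (C : Set W.Point))
      (nonsingular_transl W C hC two_ne_zero T) (nonsingular_Xf_Yf W C hC two_ne_zero)
      (transl_Xf_ne W C hC two_ne_zero hT)
      (dd_transl_Xf' W C hC two_ne_zero T) h0
      (two_mul_transl_Yf_ne_zero W C hC two_ne_zero T) h0'
    exact ⟨Q, hQ⟩

/-- the point `φ(T)` -/
def phiPt (T : W.Point) : (veluCurve W (C : Set W.Point)).Point :=
  (exists_constPtOf_eq W C hC T).choose

theorem constPtOf_phiPt (T : W.Point) :
    constPtOf W _ (phiPt W C hC T)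
      = tauPt W C T (Gp W C hC two_ne_zero) - Gp W C hC two_ne_zero :=
  (exists_constPtOf_eq W C hC T).choose_spec

theorem tauPt_Gp_eq_add (T : W.Point) :
    tauPt W C T (Gp W C hC two_ne_zero)
      = Gp W C hC two_ne_zero + constPtOf W _ (phiPt W C hC T) := by
  rw [constPtOf_phiPt]; abel

theorem phiPt_zero : phiPt W C hC 0 = 0 := by
  apply constPtOf_injective W
  rw [constPtOf_phiPt, tauPt_Gp_of_mem W C hC _ C.zero_mem, sub_self]
  rfl

theorem phiPt_add (S T : W.Point) :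
    phiPt W C hC (S + T) = phiPt W C hC S + phiPt W C hC T := by
  apply constPtOf_injective W
  rw [map_add, constPtOf_phiPt, ← tauPt_tauPt, tauPt_Gp_eq_add W C hC T, map_add,
    tauPt_constPtOf, tauPt_Gp_eq_add W C hC S]
  abel

/-- the Vélu isogeny -/
def phi : W.Point →+ (veluCurve W (C : Set W.Point)).Point where
  toFun T := phiPt W C hC T
  map_zero' := phiPt_zero W C hC
  map_add' := phiPt_add W C hC

theorem constPtOf_phi (T : W.Point) :
    constPtOf W _ (phi W C hC T)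
      = tauPt W C T (Gp W C hC two_ne_zero) - Gp W C hC two_ne_zero :=
  constPtOf_phiPt W C hC T

theorem phi_eq_zero_iff (T : W.Point) : phi W C hC T = 0 ↔ T ∈ C := by
  constructor
  · intro h
    by_contra hT
    have h1 := constPtOf_phi W C hC T
    rw [h, map_zero] at h1
    have h2 : tauPt W C T (Gp W C hC two_ne_zero) = Gp W C hC two_ne_zero :=
      (sub_eq_zero.1 h1.symm)
    rw [tauPt_Gp] at h2
    unfold Gp at h2
    exact transl_Xf_ne W C hC two_ne_zero hT (Affine.Point.some.inj h2).1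
  · intro hT
    apply constPtOf_injective W
    rw [constPtOf_phi, tauPt_Gp_of_mem W C hC _ hT, sub_self]
    rfl

theorem ker_phi : (phi W C hC).ker = C := by
  ext T
  rw [AddMonoidHom.mem_ker, phi_eq_zero_iff]

end

end Fermat.Agent.Velu
end MergeWrap_E_Velu_CoHom

section MergeWrap_E_Velu_CoFormula -- from E/Velu/CoFormula.lean

/-!
# Vélu (E-V), leaf CoFormula: `φ(T) = (veluX T, veluY T)` for `T ∉ C`

`φ T ≠ 0` (kernel), `φ T = (c, d)`;  `τ_T G' = G' + (c, d)` so by `lred` on the quotient curve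
(`one_lt_vO_Xf`, `equation_Xf_Yf`, `Point.add_of_X_ne`) `τ_T X ≡ c`, `τ_T Y ≡ d`; compare with
`vO_transl_Xf_sub_lt`, `vO_transl_Yf_sub_lt`; a constant of valuation `< 1` is `0` (`vO_const`).
-/

set_option autoImplicit false
set_option linter.unusedSectionVars false

open WeierstrassCurve
open scoped WeierstrassCurve.Affine

namespace Fermat.Agent.Velu

open Fermat.Agent.EV

variable {k : Type*} [Field k] [DecidableEq k] [IsAlgClosed k] [CharZero k]
  (W : Affine k) [W.IsElliptic]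
  (C : AddSubgroup W.Point) (hC : (C : Set W.Point).Finite)

/-- a constant which is congruent to another constant at `O` is equal to it -/
theorem const_eq_of_vO_lt {f : W.FunctionField} {c c' : k}
    (h : vO W (f - algebraMap k W.FunctionField c) < 1)
    (h' : vO W (f - algebraMap k W.FunctionField c') < 1) : c = c' := by
  by_contra hne
  have h3 : vO W (algebraMap k W.FunctionField (c' - c)) < 1 := by
    have e : algebraMap k W.FunctionField (c' - c)
        = (f - algebraMap k W.FunctionField c) - (f - algebraMap k W.FunctionField c') := by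
      rw [map_sub]; ring
    rw [e]
    exact lt_of_le_of_lt (Valuation.map_sub _ _ _) (max_lt h h')
  rw [vO_const W _ (sub_ne_zero.2 (Ne.symm hne))] at h3
  exact lt_irrefl _ h3

theorem phi_eq_some {T : W.Point} (hT : T ∉ C) :
    ∃ h, phi W C hC T = .some (veluX W (C : Set W.Point) T) (veluY W (C : Set W.Point) T) h := by
  have hne : phi W C hC T ≠ 0 := fun h => hT ((phi_eq_zero_iff W C hC T).1 h)
  obtain ⟨c, d, hcd, hphi⟩ : ∃ c d, ∃ hcd : (veluCurve W (C : Set W.Point)).Nonsingular c d,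
      phi W C hC T = .some c d hcd := by
    cases h : phi W C hC T with
    | zero => exact absurd h hne
    | some c d hcd => exact ⟨c, d, hcd, rfl⟩
  have h1 := tauPt_Gp_eq_add W C hC T
  rw [show phiPt W C hC T = phi W C hC T from rfl, hphi, constPtOf_some, tauPt_Gp] at h1
  unfold Gp at h1
  have hx : Xf W C hC ≠ algebraMap k W.FunctionField c := by
    intro h
    have := one_lt_vO_Xf W C hC two_ne_zero
    rw [h] at this
    exact not_lt.2 (vO_const_le W c) this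
  rw [Affine.Point.add_of_X_ne hx] at h1
  have h2 := Affine.Point.some.inj h1
  rw [Affine.slope_of_X_ne hx] at h2
  obtain ⟨l1, l2⟩ := lred (vO W) (vO_const_le W) (veluCurve W (C : Set W.Point))
    (equation_Xf_Yf W C hC two_ne_zero) (one_lt_vO_Xf W C hC two_ne_zero) hcd.1
  rw [← h2.1] at l1
  rw [← h2.2] at l2
  have e1 : c = veluX W (C : Set W.Point) T :=
    const_eq_of_vO_lt W l1 (vO_transl_Xf_sub_lt W C hC hT)
  have e2 : d = veluY W (C : Set W.Point) T :=
    const_eq_of_vO_lt W l2 (vO_transl_Yf_sub_lt W C hC hT)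
  subst e1 e2
  exact ⟨hcd, hphi⟩

end Fermat.Agent.Velu
end MergeWrap_E_Velu_CoFormula

section MergeWrap_E_Velu_TwoTors -- from E/Velu/TwoTors.lean

/-!
# Vélu (E-V), leaf L-D: two-torsion and the discriminant

* a Weierstrass curve over a field of characteristic `≠ 2` with three distinct nonsingular points
  of order `2` has `Δ ≠ 0`;
* an elliptic curve over an algebraically closed field of characteristic `≠ 2` has three distinct
  points of order `2`.
-/

set_option autoImplicit false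

open WeierstrassCurve

namespace Fermat.Agent.Velu

variable {k : Type*} [Field k] [DecidableEq k]

/-- the `2`-division polynomial `4x³ + b₂x² + 2b₄x + b₆` -/
def twoDiv (W : Affine k) (x : k) : k := 4 * x ^ 3 + W.b₂ * x ^ 2 + 2 * W.b₄ * x + W.b₆

omit [DecidableEq k] in
/-- on the curve, `(2y + a₁x + a₃)² = 4x³ + b₂x² + 2b₄x + b₆` -/
lemma twoDiv_eq_sq (W : Affine k) {x y : k} (h : W.Equation x y) :
    twoDiv W x = (2 * y + W.a₁ * x + W.a₃) ^ 2 := by
  rw [Affine.equation_iff] at h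
  simp only [twoDiv, WeierstrassCurve.b₂, WeierstrassCurve.b₄, WeierstrassCurve.b₆]
  linear_combination (-4) * h

/-- a point of order `2` has `2y + a₁x + a₃ = 0` -/
lemma psi_eq_zero_of_add_self {W : Affine k} {x y : k} {h : W.Nonsingular x y}
    (t : (Affine.Point.some x y h : W.Point) + .some x y h = 0) :
    2 * y + W.a₁ * x + W.a₃ = 0 := by
  have h1 : (Affine.Point.some x y h : W.Point) = -(.some x y h) := add_eq_zero_iff_eq_neg.mp t
  rw [Affine.Point.neg_some] at h1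
  simp only [Affine.Point.some.injEq, true_and] at h1
  rw [Affine.negY] at h1
  linear_combination h1

/-- **(L-D1)** -/
theorem Δ_ne_zero_of_two_torsion (h2 : (2 : k) ≠ 0) (W : Affine k) {Q₁ Q₂ Q₃ : W.Point}
    (h₁ : Q₁ ≠ 0) (h₂ : Q₂ ≠ 0) (h₃ : Q₃ ≠ 0)
    (t₁ : Q₁ + Q₁ = 0) (t₂ : Q₂ + Q₂ = 0) (t₃ : Q₃ + Q₃ = 0)
    (h₁₂ : Q₁ ≠ Q₂) (h₁₃ : Q₁ ≠ Q₃) (h₂₃ : Q₂ ≠ Q₃) : W.Δ ≠ 0 := by
  -- the three `x`-coordinates
  have key : ∀ {Q : W.Point}, Q ≠ 0 → Q + Q = 0 →
      ∃ x y h, Q = .some x y h ∧ twoDiv W x = 0 := by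
    intro Q h0 t
    rcases Q with _ | ⟨x, y, h⟩
    · exact absurd rfl h0
    · refine ⟨x, y, h, rfl, ?_⟩
      rw [twoDiv_eq_sq W h.1, psi_eq_zero_of_add_self t]
      ring
  have inj : ∀ {Q Q' : W.Point} {x y y' : k} {h : W.Nonsingular x y} {h' : W.Nonsingular x y'},
      Q = .some x y h → Q' = .some x y' h' → Q + Q = 0 → Q' + Q' = 0 → Q = Q' := by
    intro Q Q' x y y' h h' e e' t t'
    subst e e'
    have hy := psi_eq_zero_of_add_self t
    have hy' := psi_eq_zero_of_add_self t'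
    have : y = y' := by
      have e : 2 * (y - y') = 0 := by linear_combination hy - hy'
      rcases mul_eq_zero.mp e with e | e
      · exact absurd e h2
      · exact sub_eq_zero.mp e
    subst this
    rfl
  obtain ⟨x₁, y₁, n₁, e₁, r₁⟩ := key h₁ t₁
  obtain ⟨x₂, y₂, n₂, e₂, r₂⟩ := key h₂ t₂
  obtain ⟨x₃, y₃, n₃, e₃, r₃⟩ := key h₃ t₃
  have d₁₂ : x₁ - x₂ ≠ 0 := by
    intro h
    have : x₁ = x₂ := sub_eq_zero.mp h
    subst this
    exact h₁₂ (inj e₁ e₂ t₁ t₂)
  have d₁₃ : x₁ - x₃ ≠ 0 := by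
    intro h
    have : x₁ = x₃ := sub_eq_zero.mp h
    subst this
    exact h₁₃ (inj e₁ e₃ t₁ t₃)
  have d₂₃ : x₂ - x₃ ≠ 0 := by
    intro h
    have : x₂ = x₃ := sub_eq_zero.mp h
    subst this
    exact h₂₃ (inj e₂ e₃ t₂ t₃)
  simp only [twoDiv] at r₁ r₂ r₃
  -- the coefficients in terms of the roots
  have A₁₂ : 4 * (x₁ ^ 2 + x₁ * x₂ + x₂ ^ 2) + W.b₂ * (x₁ + x₂) + 2 * W.b₄ = 0 := by
    have : (x₁ - x₂) * (4 * (x₁ ^ 2 + x₁ * x₂ + x₂ ^ 2) + W.b₂ * (x₁ + x₂) + 2 * W.b₄) = 0 := by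
      linear_combination r₁ - r₂
    exact (mul_eq_zero.mp this).resolve_left d₁₂
  have A₁₃ : 4 * (x₁ ^ 2 + x₁ * x₃ + x₃ ^ 2) + W.b₂ * (x₁ + x₃) + 2 * W.b₄ = 0 := by
    have : (x₁ - x₃) * (4 * (x₁ ^ 2 + x₁ * x₃ + x₃ ^ 2) + W.b₂ * (x₁ + x₃) + 2 * W.b₄) = 0 := by
      linear_combination r₁ - r₃
    exact (mul_eq_zero.mp this).resolve_left d₁₃
  have hb₂ : W.b₂ = -4 * (x₁ + x₂ + x₃) := by
    have : (x₂ - x₃) * (4 * (x₁ + x₂ + x₃) + W.b₂) = 0 := by
      linear_combination A₁₂ - A₁₃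
    have := (mul_eq_zero.mp this).resolve_left d₂₃
    linear_combination this
  have hb₄ : W.b₄ = 2 * (x₁ * x₂ + x₁ * x₃ + x₂ * x₃) := by
    have : 2 * (W.b₄ - 2 * (x₁ * x₂ + x₁ * x₃ + x₂ * x₃)) = 0 := by
      rw [hb₂] at A₁₂
      linear_combination A₁₂
    have := (mul_eq_zero.mp this).resolve_left h2
    linear_combination this
  have hb₆ : W.b₆ = -4 * (x₁ * x₂ * x₃) := by
    rw [hb₂, hb₄] at r₁
    linear_combination r₁
  have h16 : 16 * W.Δ = 256 * ((x₁ - x₂) * (x₁ - x₃) * (x₂ - x₃)) ^ 2 := by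
    rw [← twoTorsionPolynomial_discr]
    simp only [Cubic.discr, twoTorsionPolynomial]
    rw [hb₂, hb₄, hb₆]
    ring
  intro hΔ
  rw [hΔ, mul_zero] at h16
  have h256 : (256 : k) ≠ 0 := by
    have : (256 : k) = 2 ^ 8 := by norm_num
    rw [this]
    exact pow_ne_zero _ h2
  have := (mul_eq_zero.mp h16.symm).resolve_left h256
  have := pow_eq_zero_iff (two_ne_zero) |>.mp this
  rcases mul_eq_zero.mp this with h | h
  · rcases mul_eq_zero.mp h with h | h
    · exact d₁₂ h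
    · exact d₁₃ h
  · exact d₂₃ h

/-- **(L-D2)** -/
theorem exists_two_torsion [IsAlgClosed k] (h2 : (2 : k) ≠ 0) (W : Affine k) (hΔ : W.Δ ≠ 0) :
    ∃ P₁ P₂ P₃ : W.Point, P₁ ≠ 0 ∧ P₂ ≠ 0 ∧ P₃ ≠ 0 ∧ P₁ + P₁ = 0 ∧ P₂ + P₂ = 0 ∧ P₃ + P₃ = 0 ∧
      P₁ ≠ P₂ ∧ P₁ ≠ P₃ ∧ P₂ ≠ P₃ := by
  have h4 : (4 : k) ≠ 0 := by
    have : (4 : k) = 2 ^ 2 := by norm_num
    rw [this]
    exact pow_ne_zero _ h2
  have h16 : (16 : k) ≠ 0 := by
    have : (16 : k) = 2 ^ 4 := by norm_num
    rw [this]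
    exact pow_ne_zero _ h2
  set P : Cubic k := W.twoTorsionPolynomial with hP
  have ha : P.a ≠ 0 := h4
  have hsplit : (Polynomial.map (RingHom.id k) P.toPoly).Splits := IsAlgClosed.splits _
  obtain ⟨x₁, x₂, x₃, h3⟩ := (Cubic.splits_iff_roots_eq_three ha).mp hsplit
  have hdisc : P.discr ≠ 0 := by
    rw [hP, twoTorsionPolynomial_discr]
    exact mul_ne_zero h16 hΔ
  obtain ⟨n₁₂, n₁₃, n₂₃⟩ := (Cubic.discr_ne_zero_iff_roots_ne ha h3).mp hdisc
  have hb := Cubic.b_eq_three_roots ha h3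
  have hc := Cubic.c_eq_three_roots ha h3
  have hd := Cubic.d_eq_three_roots ha h3
  simp only [hP, twoTorsionPolynomial, RingHom.id_apply] at hb hc hd
  -- the roots
  have root : ∀ x : k, (x = x₁ ∨ x = x₂ ∨ x = x₃) → twoDiv W x = 0 := by
    intro x hx
    simp only [twoDiv]
    rw [hb, hc, hd]
    rcases hx with rfl | rfl | rfl <;> ring
  -- the points
  have pt : ∀ x : k, twoDiv W x = 0 → ∃ (y : k) (h : W.Nonsingular x y),
      (Affine.Point.some x y h : W.Point) + .some x y h = 0 := by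
    intro x hx
    set y : k := -(W.a₁ * x + W.a₃) / 2 with hy
    have hy2 : 2 * y + W.a₁ * x + W.a₃ = 0 := by
      rw [hy]
      field_simp
      ring
    have heq : W.Equation x y := by
      rw [Affine.equation_iff]
      have e1 : twoDiv W x = 0 := hx
      simp only [twoDiv, WeierstrassCurve.b₂, WeierstrassCurve.b₄, WeierstrassCurve.b₆] at e1
      have e2 : 4 * (y ^ 2 + W.a₁ * x * y + W.a₃ * y
          - (x ^ 3 + W.a₂ * x ^ 2 + W.a₄ * x + W.a₆)) = 0 := by
        linear_combination (2 * y + W.a₁ * x + W.a₃) * hy2 - e1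
      have := (mul_eq_zero.mp e2).resolve_left h4
      linear_combination this
    have : W.IsElliptic := ⟨isUnit_iff_ne_zero.mpr hΔ⟩
    have hns : W.Nonsingular x y := Affine.equation_iff_nonsingular.mp heq
    refine ⟨y, hns, ?_⟩
    apply Affine.Point.add_self_of_Y_eq
    rw [Affine.negY]
    linear_combination hy2
  obtain ⟨y₁, m₁, t₁⟩ := pt x₁ (root x₁ (Or.inl rfl))
  obtain ⟨y₂, m₂, t₂⟩ := pt x₂ (root x₂ (Or.inr (Or.inl rfl)))
  obtain ⟨y₃, m₃, t₃⟩ := pt x₃ (root x₃ (Or.inr (Or.inr rfl)))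
  refine ⟨.some x₁ y₁ m₁, .some x₂ y₂ m₂, .some x₃ y₃ m₃, Affine.Point.some_ne_zero _,
    Affine.Point.some_ne_zero _, Affine.Point.some_ne_zero _, t₁, t₂, t₃, ?_, ?_, ?_⟩
  · intro h
    simp only [Affine.Point.some.injEq] at h
    exact n₁₂ h.1
  · intro h
    simp only [Affine.Point.some.injEq] at h
    exact n₁₃ h.1
  · intro h
    simp only [Affine.Point.some.injEq] at h
    exact n₂₃ h.1

end Fermat.Agent.Velu
end MergeWrap_E_Velu_TwoTors

section MergeWrap_E_Velu_Surj -- from E/Velu/Surj.lean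

/-!
# Vélu (E-V), leaf L-S: the `x`-map takes every value

`k` algebraically closed, `xs` a finite set, `u a ≠ 0` for `a ∈ xs`.  Then
`x ↦ x + Σ_{a ∈ xs} (t a/(x - a) + u a/(x - a)²)` takes every value `X₀` at some `x ∉ xs`.
(The numerator `(X - X₀) D² + Σ_a (t a (X - a) + u a) ∏_{a' ≠ a} (X - a')²` is monic of degree
`2 #xs + 1` and does not vanish on `xs`.)
-/

set_option autoImplicit false

namespace Fermat.Agent.Velu

open Polynomial

variable {k : Type*} [Field k] [IsAlgClosed k] [DecidableEq k]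

/-- the numerator of `x + Σ_a (t a/(x - a) + u a/(x - a)²) - X₀` -/
noncomputable def veluNum (xs : Finset k) (t u : k → k) (X₀ : k) : k[X] :=
  (X - C X₀) * (∏ a ∈ xs, (X - C a)) ^ 2
    + ∑ a ∈ xs, (C (t a) * (X - C a) + C (u a)) * (∏ b ∈ xs.erase a, (X - C b)) ^ 2

omit [IsAlgClosed k] [DecidableEq k] in
theorem natDegree_prod_X_sub_C_velu (s : Finset k) :
    (∏ a ∈ s, (X - C a : k[X])).natDegree = s.card := by
  rw [natDegree_prod_of_monic _ _ (fun a _ => monic_X_sub_C a)]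
  simp

omit [IsAlgClosed k] [DecidableEq k] in
theorem monic_prod_X_sub_C_velu (s : Finset k) : (∏ a ∈ s, (X - C a : k[X])).Monic :=
  monic_prod_of_monic _ _ (fun a _ => monic_X_sub_C a)

omit [IsAlgClosed k] in
theorem natDegree_veluNum (xs : Finset k) (t u : k → k) (X₀ : k) :
    (veluNum xs t u X₀).natDegree = 2 * xs.card + 1 := by
  have hM : ((X - C X₀) * (∏ a ∈ xs, (X - C a : k[X])) ^ 2).natDegree = 2 * xs.card + 1 := by
    rw [(monic_X_sub_C X₀).natDegree_mul ((monic_prod_X_sub_C_velu xs).pow 2),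
      (monic_prod_X_sub_C_velu xs).natDegree_pow, natDegree_prod_X_sub_C_velu,
      natDegree_X_sub_C]
    ring
  have hR : (∑ a ∈ xs, (C (t a) * (X - C a) + C (u a))
      * (∏ b ∈ xs.erase a, (X - C b : k[X])) ^ 2).natDegree ≤ 2 * xs.card - 1 := by
    refine natDegree_sum_le_of_forall_le _ _ (fun a ha => ?_)
    have h1 : (C (t a) * (X - C a) + C (u a) : k[X]).natDegree ≤ 1 := by
      compute_degree
    have h2 : ((∏ b ∈ xs.erase a, (X - C b : k[X])) ^ 2).natDegree = 2 * (xs.card - 1) := by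
      rw [(monic_prod_X_sub_C_velu _).natDegree_pow, natDegree_prod_X_sub_C_velu,
        Finset.card_erase_of_mem ha]
    have hpos : 0 < xs.card := Finset.card_pos.mpr ⟨a, ha⟩
    calc ((C (t a) * (X - C a) + C (u a)) * (∏ b ∈ xs.erase a, (X - C b : k[X])) ^ 2).natDegree
        ≤ (C (t a) * (X - C a) + C (u a) : k[X]).natDegree
          + ((∏ b ∈ xs.erase a, (X - C b : k[X])) ^ 2).natDegree := natDegree_mul_le
      _ ≤ 1 + 2 * (xs.card - 1) := by rw [h2]; exact Nat.add_le_add_right h1 _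
      _ ≤ 2 * xs.card - 1 := by omega
  unfold veluNum
  rw [natDegree_add_eq_left_of_natDegree_lt, hM]
  rw [hM]
  omega

omit [IsAlgClosed k] in
theorem eval_veluNum (xs : Finset k) (t u : k → k) (X₀ x : k) :
    (veluNum xs t u X₀).eval x = (x - X₀) * (∏ a ∈ xs, (x - a)) ^ 2
      + ∑ a ∈ xs, (t a * (x - a) + u a) * (∏ b ∈ xs.erase a, (x - b)) ^ 2 := by
  unfold veluNum
  simp only [eval_add, eval_mul, eval_sub, eval_X, eval_C, eval_pow, eval_prod, eval_finsetSum]

omit [IsAlgClosed k] in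
theorem eval_veluNum_ne_zero (xs : Finset k) (t u : k → k) (hu : ∀ a ∈ xs, u a ≠ 0) (X₀ : k)
    {a : k} (ha : a ∈ xs) : (veluNum xs t u X₀).eval a ≠ 0 := by
  rw [eval_veluNum]
  have h1 : ∏ b ∈ xs, (a - b) = 0 := Finset.prod_eq_zero ha (sub_self a)
  have h2 : ∑ b ∈ xs, (t b * (a - b) + u b) * (∏ c ∈ xs.erase b, (a - c)) ^ 2
      = u a * (∏ c ∈ xs.erase a, (a - c)) ^ 2 := by
    rw [Finset.sum_eq_single_of_mem a ha]
    · rw [sub_self, mul_zero, zero_add]
    · intro b _ hb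
      have : ∏ c ∈ xs.erase b, (a - c) = 0 :=
        Finset.prod_eq_zero (Finset.mem_erase.mpr ⟨fun h => hb h.symm, ha⟩) (sub_self a)
      rw [this]
      ring
  rw [h1, h2]
  have h3 : ∏ c ∈ xs.erase a, (a - c) ≠ 0 := by
    rw [Finset.prod_ne_zero_iff]
    intro c hc
    exact sub_ne_zero.mpr (fun h => (Finset.mem_erase.mp hc).1 h.symm)
  simpa using mul_ne_zero (hu a ha) (pow_ne_zero 2 h3)

/-- **(L-S)** -/
theorem exists_velu_root (xs : Finset k) (t u : k → k) (hu : ∀ a ∈ xs, u a ≠ 0) (X₀ : k) :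
    ∃ x : k, x ∉ xs ∧ x + ∑ a ∈ xs, (t a / (x - a) + u a / (x - a) ^ 2) = X₀ := by
  have hdeg : (veluNum xs t u X₀).degree ≠ 0 := by
    have hpos : 0 < (veluNum xs t u X₀).natDegree := by
      rw [natDegree_veluNum]
      omega
    exact (natDegree_pos_iff_degree_pos.mp hpos).ne'
  obtain ⟨x, hx⟩ := IsAlgClosed.exists_root _ hdeg
  have hxs : x ∉ xs := fun hmem => eval_veluNum_ne_zero xs t u hu X₀ hmem hx
  refine ⟨x, hxs, ?_⟩
  have hne : ∀ a ∈ xs, x - a ≠ 0 := fun a ha => sub_ne_zero.mpr (fun h => hxs (h ▸ ha))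
  have hd : ∏ a ∈ xs, (x - a) ≠ 0 := Finset.prod_ne_zero_iff.mpr hne
  have hroot : (x - X₀) * (∏ a ∈ xs, (x - a)) ^ 2
      + ∑ a ∈ xs, (t a * (x - a) + u a) * (∏ b ∈ xs.erase a, (x - b)) ^ 2 = 0 := by
    rw [← eval_veluNum]
    exact hx
  have hsum : (∑ a ∈ xs, (t a / (x - a) + u a / (x - a) ^ 2)) * (∏ a ∈ xs, (x - a)) ^ 2
      = ∑ a ∈ xs, (t a * (x - a) + u a) * (∏ b ∈ xs.erase a, (x - b)) ^ 2 := by
    rw [Finset.sum_mul]
    refine Finset.sum_congr rfl (fun a ha => ?_)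
    rw [← Finset.mul_prod_erase xs (fun b => x - b) ha]
    have := hne a ha
    field_simp
  have key : (x + ∑ a ∈ xs, (t a / (x - a) + u a / (x - a) ^ 2) - X₀)
      * (∏ a ∈ xs, (x - a)) ^ 2 = 0 := by
    rw [← hroot, ← hsum]
    ring
  rcases mul_eq_zero.mp key with h | h
  · exact sub_eq_zero.mp h
  · exact absurd h (pow_ne_zero 2 hd)

end Fermat.Agent.Velu
end MergeWrap_E_Velu_Surj

section MergeWrap_E_Velu_Final -- from E/Velu/Final.lean

/-!
# Vélu (E-V): the final statements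

* `veluCurve_Δ_ne_zero`: `exists_two_torsion` for `W`, `φ` is injective on them (`ker φ = C` has odd
  order: `eq_zero_of_add_self`), `Δ_ne_zero_of_two_torsion`.
* `phi_surjective`: `exists_velu_root` with `xs = xsOf`, `t a = 6a² + b₂a + b₄`,
  `u a = 4a³ + b₂a² + 2b₄a + b₆` (`veluU_ne_zero`), `veluXFormula`, `sum_Cs_ptX`, `phi_eq_some`;
  two points with the same `x` are equal or opposite.
* `veluStatement : VeluStatement`.
-/

set_option autoImplicit false
set_option linter.unusedSectionVars false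

open WeierstrassCurve
open scoped WeierstrassCurve.Affine

namespace Fermat.Agent.Velu

open Fermat.Agent.EV

variable {k : Type*} [Field k] [DecidableEq k] [IsAlgClosed k] [CharZero k]
  (W : Affine k) [W.IsElliptic]
  (C : AddSubgroup W.Point) (hC : (C : Set W.Point).Finite)

/-- over an algebraically closed field of characteristic `≠ 2`, every `x` is the `x`-coordinate
of a point of the cubic -/
theorem exists_equation_of_x (W : Affine k) (x : k) : ∃ y : k, W.Equation x y := by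
  obtain ⟨s, hs⟩ := IsAlgClosed.exists_pow_nat_eq
    ((W.a₁ * x + W.a₃) ^ 2 + 4 * (x ^ 3 + W.a₂ * x ^ 2 + W.a₄ * x + W.a₆)) (n := 2) (by norm_num)
  refine ⟨(s - (W.a₁ * x + W.a₃)) / 2, ?_⟩
  rw [Affine.equation_iff]
  have h2 : (2 : k) ≠ 0 := two_ne_zero
  field_simp
  linear_combination hs

theorem veluCurve_Δ_ne_zero (hfin : (C : Set W.Point).Finite) (hodd : Odd (Nat.card C)) :
    (veluCurve W (C : Set W.Point)).Δ ≠ 0 := by
  have h2 : (2 : k) ≠ 0 := two_ne_zero
  have hΔ : W.Δ ≠ 0 := (WeierstrassCurve.IsElliptic.isUnit (W := W)).ne_zero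
  obtain ⟨P₁, P₂, P₃, h₁, h₂, h₃, t₁, t₂, t₃, h₁₂, h₁₃, h₂₃⟩ := exists_two_torsion h2 W hΔ
  have hker : ∀ P : W.Point, P + P = 0 → phi W C hfin P = 0 → P = 0 := by
    intro P hP h0
    exact eq_zero_of_add_self C hodd ((phi_eq_zero_iff W C hfin P).mp h0) hP
  have htor : ∀ P : W.Point, P + P = 0 → phi W C hfin P + phi W C hfin P = 0 := by
    intro P hP
    rw [← map_add, hP, map_zero]
  have hinj : ∀ P Q : W.Point, P + P = 0 → Q + Q = 0 → phi W C hfin P = phi W C hfin Q →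
      P = Q := by
    intro P Q hP hQ h
    have h1 : (P - Q) + (P - Q) = 0 := by
      have : (P - Q) + (P - Q) = (P + P) - (Q + Q) := by abel
      rw [this, hP, hQ, sub_zero]
    have h2 : phi W C hfin (P - Q) = 0 := by rw [map_sub, h, sub_self]
    exact sub_eq_zero.mp (hker _ h1 h2)
  exact Δ_ne_zero_of_two_torsion h2 (veluCurve W (C : Set W.Point))
    (Q₁ := phi W C hfin P₁) (Q₂ := phi W C hfin P₂) (Q₃ := phi W C hfin P₃)
    (fun h => h₁ (hker P₁ t₁ h)) (fun h => h₂ (hker P₂ t₂ h)) (fun h => h₃ (hker P₃ t₃ h))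
    (htor P₁ t₁) (htor P₂ t₂) (htor P₃ t₃)
    (fun h => h₁₂ (hinj P₁ P₂ t₁ t₂ h)) (fun h => h₁₃ (hinj P₁ P₃ t₁ t₃ h))
    (fun h => h₂₃ (hinj P₂ P₃ t₂ t₃ h))

theorem phi_surjective (hodd : Odd (Nat.card C)) : Function.Surjective (phi W C hC) := by
  have h2 : (2 : k) ≠ 0 := two_ne_zero
  intro Q'
  cases Q' with
  | zero => exact ⟨0, map_zero _⟩
  | some X₀ Y₀ h' =>
    -- a root of the `x`-map
    obtain ⟨x, hx, hroot⟩ := exists_velu_root ((Cs C hC).image ptX)
      (fun a => 6 * a ^ 2 + W.b₂ * a + W.b₄)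
      (fun a => 4 * a ^ 3 + W.b₂ * a ^ 2 + 2 * W.b₄ * a + W.b₆)
      (by
        intro a ha
        obtain ⟨T, hT, rfl⟩ := Finset.mem_image.mp ha
        exact veluU_ne_zero C hC hodd hT) X₀
    obtain ⟨y, hy⟩ := exists_equation_of_x W x
    have hns : W.Nonsingular x y := Affine.equation_iff_nonsingular.mp hy
    have hT : (Affine.Point.some x y hns : W.Point) ∉ C := by
      intro hmem
      apply hx
      refine Finset.mem_image.mpr ⟨Affine.Point.some x y hns, ?_, rfl⟩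
      exact mem_Cs.mpr ⟨hmem, Affine.Point.some_ne_zero hns⟩
    obtain ⟨hφ, hφeq⟩ := phi_eq_some W C hC hT
    -- the `x`-coordinate of the image
    have hX : veluX W (C : Set W.Point) (Affine.Point.some x y hns) = X₀ := by
      rw [veluXFormula W C hC h2 x y hns hT, finsum_eq_sum_Cs W C hC
        (fun Q => veluT W Q / (x - ptX Q) + veluU W Q / (x - ptX Q) ^ 2)]
      have hsum := sum_Cs_ptX C hC hodd
        (fun a => (6 * a ^ 2 + W.b₂ * a + W.b₄) / (x - a)
          + (4 * a ^ 3 + W.b₂ * a ^ 2 + 2 * W.b₄ * a + W.b₆) / (x - a) ^ 2)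
      have e : ∑ Q ∈ Cs C hC, (veluT W Q / (x - ptX Q) + veluU W Q / (x - ptX Q) ^ 2)
          = ∑ a ∈ (Cs C hC).image ptX,
            (((6 * a ^ 2 + W.b₂ * a + W.b₄) / (x - a)
              + (4 * a ^ 3 + W.b₂ * a ^ 2 + 2 * W.b₄ * a + W.b₆) / (x - a) ^ 2)
            + ((6 * a ^ 2 + W.b₂ * a + W.b₄) / (x - a)
              + (4 * a ^ 3 + W.b₂ * a ^ 2 + 2 * W.b₄ * a + W.b₆) / (x - a) ^ 2)) := hsum
      have e2 : ∑ a ∈ (Cs C hC).image ptX,
            (((6 * a ^ 2 + W.b₂ * a + W.b₄) / (x - a)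
              + (4 * a ^ 3 + W.b₂ * a ^ 2 + 2 * W.b₄ * a + W.b₆) / (x - a) ^ 2)
            + ((6 * a ^ 2 + W.b₂ * a + W.b₄) / (x - a)
              + (4 * a ^ 3 + W.b₂ * a ^ 2 + 2 * W.b₄ * a + W.b₆) / (x - a) ^ 2))
          = 2 * ∑ a ∈ (Cs C hC).image ptX,
            ((6 * a ^ 2 + W.b₂ * a + W.b₄) / (x - a)
              + (4 * a ^ 3 + W.b₂ * a ^ 2 + 2 * W.b₄ * a + W.b₆) / (x - a) ^ 2) := by
        rw [Finset.mul_sum]
        exact Finset.sum_congr rfl (fun a _ => (two_mul _).symm)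
      rw [e, e2, mul_div_cancel_left₀ _ h2]
      exact hroot
    have hne : phi W C hC (Affine.Point.some x y hns) ≠ 0 := by
      rw [hφeq]
      exact Affine.Point.some_ne_zero _
    have hxeq : ptX (phi W C hC (Affine.Point.some x y hns))
        = ptX (Affine.Point.some X₀ Y₀ h' : (veluCurve W (C : Set W.Point)).Point) := by
      rw [hφeq]
      exact hX
    rcases eq_or_eq_neg_of_ptX_eq hne (Affine.Point.some_ne_zero h') hxeq with h1 | h1
    · exact ⟨_, h1⟩
    · exact ⟨-(Affine.Point.some x y hns), by rw [map_neg, h1, neg_neg]⟩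

theorem veluHom (hfin : (C : Set W.Point).Finite) (hodd : Odd (Nat.card C)) : VeluHom W C :=
  ⟨veluCurve_Δ_ne_zero W C hfin hodd, phi W C hfin, phi_surjective W C hfin hodd,
    ker_phi W C hfin, fun _ hP => phi_eq_some W C hfin hP⟩

/-- **(V1)** Vélu's theorem -/
theorem veluStatement : VeluStatement := by
  intro k _ _ _ _ W hΔ C hfin hodd
  have : W.IsElliptic := ⟨isUnit_iff_ne_zero.mpr hΔ⟩
  exact veluHom W C hfin hodd

end Fermat.Agent.Velu
end MergeWrap_E_Velu_Final
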